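import Fermat.Agent.RT.Lower.Defs
import Fermat.Agent.LevelRaising.Residual
import Fermat.Agent.EC.Rep.TWHypothesis
import Fermat.Agent.Arith.Chebotarev.Main

/-!
# Existence of avoiding primes

An odd representation which is irreducible on every subgroup of index two takes, in every coset
`c H` of a subgroup `H` with abelian quotient and trivial determinant, a value of nonzero trace;
Chebotarev turns such a value into an avoiding prime `≡ 11 (mod 12)`.
-/

set_option autoImplicit false

noncomputable section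

open WeierstrassCurve Module
open scoped TensorProduct

namespace Fermat.Agent.RT.Lower

local notation "Q̄" => AlgebraicClosure ℚ
local notation "GQ" => AlgebraicClosure ℚ ≃ₐ[ℚ] AlgebraicClosure ℚ

section Group

variable {k : Type} [Field k] {ρ : ResidualGaloisRep k} {c : GQ}

/-- A nonscalar endomorphism commuting up to sign with the image contradicts irreducibility on
the subgroups of index two. -/
theorem false_of_semicommute (h2 : (2 : k) ≠ 0) (X : Module.End k ρ.V)
    (hX : ∀ a : k, X ≠ a • 1)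
    (hcomm : ∀ σ : GQ, ρ.ρ σ * X = X * ρ.ρ σ ∨ ρ.ρ σ * X = -(X * ρ.ρ σ))
    (K : Type) [Field K] [IsAlgClosed K] [Algebra k K] (hirr : (ρ.baseChange K).IsIrreducible)
    (htw : ∀ G : Subgroup GQ, G.index = 2 → ∀ V : Submodule K (ρ.baseChange K).V,
      (∀ σ ∈ G, ∀ x ∈ V, (ρ.baseChange K).ρ σ x ∈ V) → V = ⊥ ∨ V = ⊤) : False := by
  have : Module.Finite k ρ.V := Module.finite_of_finrank_eq_succ ρ.finrank_eq
  have : Nontrivial (K ⊗[k] ρ.V) :=
    Module.nontrivial_of_finrank_eq_succ (R := K) (M := K ⊗[k] ρ.V) (n := 1)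
      (by rw [Module.finrank_baseChange, ρ.finrank_eq])
  set B : Module.End k ρ.V →ₐ[k] Module.End K (K ⊗[k] ρ.V) := Module.End.baseChangeHom k K ρ.V
  have hB : ∀ T, B T = T.baseChange K := fun T => rfl
  obtain ⟨μ, hμ⟩ := Module.End.exists_eigenvalue (B X)
  let W : Submodule K (ρ.baseChange K).V := Module.End.eigenspace (B X) μ
  have hWb : W ≠ ⊥ := hμ
  have hWt : W ≠ ⊤ := by
    intro htop
    have hμX : B X = μ • (1 : Module.End K (K ⊗[k] ρ.V)) := LinearMap.ext fun x => by
      simpa using Module.End.mem_eigenspace_iff.mp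
        ((eq_top_iff.mp htop) (Submodule.mem_top (x := x)))
    have htr := congrArg (LinearMap.trace K (K ⊗[k] ρ.V)) hμX
    rw [hB, LinearMap.trace_baseChange, map_smul, LinearMap.trace_one, Module.finrank_baseChange,
      ρ.finrank_eq, smul_eq_mul] at htr
    refine hX (LinearMap.trace k ρ.V X / 2)
      (EC.Rep.baseChange_injective (ρ := ρ) (K := K) ?_)
    rw [← hB, ← hB, hμX, map_smul, map_one, ← algebraMap_smul K (LinearMap.trace k ρ.V X / 2)
      (1 : Module.End K (K ⊗[k] ρ.V)), map_div₀, htr, map_ofNat]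
    congr 1
    have h2K : (2 : K) ≠ 0 := by rw [← map_ofNat (algebraMap k K)]; simpa using h2
    push_cast
    field_simp
  let G : Subgroup GQ :=
    { carrier := {σ | Commute (ρ.ρ σ) X}
      one_mem' := by simp
      mul_mem' := fun {a b} ha hb => by simpa [map_mul] using Commute.mul_left ha hb
      inv_mem' := fun {a} ha => by
        show ρ.ρ a⁻¹ * X = X * ρ.ρ a⁻¹
        calc ρ.ρ a⁻¹ * X = ρ.ρ a⁻¹ * X * (ρ.ρ a * ρ.ρ a⁻¹) := by
              rw [← map_mul ρ.ρ a, mul_inv_cancel, map_one, mul_one]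
          _ = ρ.ρ a⁻¹ * (X * ρ.ρ a) * ρ.ρ a⁻¹ := by simp only [mul_assoc]
          _ = ρ.ρ a⁻¹ * (ρ.ρ a * X) * ρ.ρ a⁻¹ := by rw [show X * ρ.ρ a = ρ.ρ a * X from ha.symm]
          _ = X * ρ.ρ a⁻¹ := by
              rw [← mul_assoc (ρ.ρ a⁻¹), ← map_mul, inv_mul_cancel, map_one, one_mul] }
  have hstab : ∀ σ ∈ G, ∀ x ∈ W, (ρ.baseChange K).ρ σ x ∈ W := by
    intro σ hσ x hx
    refine Module.End.mem_eigenspace_iff.mpr ?_
    show B X (B (ρ.ρ σ) x) = μ • B (ρ.ρ σ) x
    rw [← Module.End.mul_apply, ← map_mul, ← show ρ.ρ σ * X = X * ρ.ρ σ from hσ, map_mul,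
      Module.End.mul_apply, Module.End.mem_eigenspace_iff.mp hx, map_smul]
  by_cases hG : ∀ σ, σ ∈ G
  · rcases hirr W (fun σ => hstab σ (hG σ)) with h | h <;> [exact hWb h; exact hWt h]
  push Not at hG
  obtain ⟨t, ht⟩ := hG
  have hneg : ∀ σ, σ ∉ G → ρ.ρ σ * X = -(X * ρ.ρ σ) := fun σ hσ => (hcomm σ).resolve_left hσ
  have hidx : G.index = 2 := by
    refine Subgroup.index_eq_two_iff.mpr ⟨t, fun b => ?_⟩
    by_cases hb : b ∈ G
    · exact Or.inr ⟨hb, fun h => ht ((Subgroup.mul_mem_cancel_left G hb).mp h)⟩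
    · refine Or.inl ⟨?_, hb⟩
      show ρ.ρ (b * t) * X = X * ρ.ρ (b * t)
      rw [map_mul, mul_assoc, hneg t ht, mul_neg, ← mul_assoc, hneg b hb, neg_mul, neg_neg,
        mul_assoc]
  rcases htw G hidx W hstab with h | h <;> [exact hWb h; exact hWt h]

/-- If all of `c H` has trace zero, some nonscalar endomorphism commutes up to sign with the
image. -/
theorem exists_semicommute (h2 : (2 : k) ≠ 0) (hc : c * c = 1)
    (hdet : LinearMap.det (ρ.ρ c) = -1) (hirr : ρ.IsIrreducible) {A : Type*} [CommGroup A]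
    (χ : GQ →* A) (hχ : ∀ σ, χ σ = 1 → LinearMap.det (ρ.ρ σ) = 1)
    (hno : ∀ σ, χ σ = 1 → LinearMap.trace k ρ.V (ρ.ρ (c * σ)) = 0) :
    ∃ X : Module.End k ρ.V, (∀ a : k, X ≠ a • 1) ∧
      ∀ σ : GQ, ρ.ρ σ * X = X * ρ.ρ σ ∨ ρ.ρ σ * X = -(X * ρ.ρ σ) := by
  obtain ⟨b, hb0, hb1⟩ := EC.Rep.exists_involution_basis ρ h2 hc hdet
  set e := LinearMap.toMatrixAlgEquiv b
  set M : GQ → Matrix (Fin 2) (Fin 2) k := fun σ => e (ρ.ρ σ) with hM
  have hmul : ∀ σ τ, M (σ * τ) = M σ * M τ := fun σ τ => by simp only [hM, map_mul]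
  have hrepr : ∀ σ i j, M σ i j = b.repr (ρ.ρ σ (b j)) i := fun σ i j =>
    LinearMap.toMatrixAlgEquiv_apply b _ _ _
  have hMc : M c = !![1, 0; 0, -1] := by
    ext i j
    fin_cases i <;> fin_cases j <;> simp [hrepr, hb0, hb1]
  have htrd : ∀ σ, (M σ).trace = LinearMap.trace k ρ.V (ρ.ρ σ) ∧
      (M σ).det = LinearMap.det (ρ.ρ σ) := fun σ =>
    ⟨(LinearMap.trace_eq_matrix_trace k b (ρ.ρ σ)).symm, LinearMap.det_toMatrix b (ρ.ρ σ)⟩
  have hdiag : ∀ h, χ h = 1 → M h 1 1 = M h 0 0 := fun h hh => by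
    have := hno h hh
    rw [← (htrd _).1, hmul, hMc, Matrix.trace_fin_two] at this
    simp [Matrix.mul_apply, Fin.sum_univ_two] at this
    linear_combination -this
  have hsym : ∀ h g, χ h = 1 → χ g = 1 → M h 0 1 * M g 1 0 = M h 1 0 * M g 0 1 := fun h g hh hg => by
    have := hdiag (h * g) (by rw [map_mul, hh, hg, one_mul])
    rw [hmul] at this
    simp [Matrix.mul_apply, Fin.sum_univ_two, hdiag h hh, hdiag g hg] at this
    linear_combination -this
  by_cases hA : ∀ h, χ h = 1 → M h 0 1 = 0 ∧ M h 1 0 = 0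
  · -- the kernel is scalar
    refine ⟨ρ.ρ c, fun a ha => h2 ?_, fun σ => ?_⟩
    · have h0 := LinearMap.congr_fun ha (b 0)
      have h1 := LinearMap.congr_fun ha (b 1)
      rw [hb0] at h0
      rw [hb1] at h1
      have e0 := congrArg (fun v => b.repr v 0) h0
      have e1 := congrArg (fun v => b.repr v 1) h1
      simp at e0 e1
      linear_combination e0 - e1
    · set x := σ * c * σ⁻¹ * c⁻¹
      have hx : χ x = 1 := by
        simp only [x, map_mul, map_inv]
        rw [mul_comm (χ σ) (χ c), mul_inv_cancel_right, mul_inv_cancel]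
      obtain ⟨z1, z2⟩ := hA x hx
      have hz3 := hdiag x hx
      have hsq : M x 0 0 * M x 0 0 = 1 := by
        have := (htrd x).2
        rw [hχ x hx, Matrix.det_fin_two, z1, z2, hz3] at this
        linear_combination this
      have hMx : M x = M x 0 0 • 1 := by
        ext i j
        fin_cases i <;> fin_cases j <;> simp [z1, z2, hz3]
      have key : M σ * M c = M x 0 0 • (M c * M σ) := by
        have hx' : M σ * M c = M x * (M c * M σ) := by
          simp only [← hmul]
          simp [x, mul_assoc]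
        rw [hx', hMx, smul_mul_assoc, one_mul]
        simp
      rcases mul_self_eq_one_iff.mp hsq with h | h
      · rw [h, one_smul] at key
        exact Or.inl (e.injective (by simpa [hM] using key))
      · rw [h, neg_one_smul] at key
        exact Or.inr (e.injective (by simpa [hM] using key))
  · push Not at hA
    obtain ⟨h0, hh0, hne⟩ := hA
    set β := M h0 0 1 with hβ
    set γ := M h0 1 0 with hγ
    -- the conjugates of `h0`
    have hconj : ∀ σ, ∃ u v : k, β * v = γ * u ∧ u * v = β * γ ∧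
        M σ 0 1 * γ = u * M σ 1 0 ∧ M σ 1 0 * β = v * M σ 0 1 ∧
        M σ 0 0 * β = u * M σ 1 1 ∧ M σ 1 1 * γ = v * M σ 0 0 := by
      intro σ
      set g := σ * h0 * σ⁻¹
      have hg : χ g = 1 := by simp [g, hh0]
      have hm : M g * M σ = M σ * M h0 := by
        rw [← hmul, ← hmul]
        congr 1
        simp [g]
      have htr : (M g).trace = (M h0).trace := by
        calc (M g).trace = (M (σ * h0) * M σ⁻¹).trace := by rw [← hmul]
          _ = (M h0).trace := by
              rw [Matrix.trace_mul_comm, ← hmul, inv_mul_cancel_left]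
      rw [Matrix.trace_fin_two, Matrix.trace_fin_two, hdiag g hg, hdiag h0 hh0] at htr
      have hg00 : M g 0 0 = M h0 0 0 := mul_left_cancel₀ h2 (by linear_combination htr)
      have hd := ((htrd g).2.trans (hχ g hg)).trans ((htrd h0).2.trans (hχ h0 hh0)).symm
      rw [Matrix.det_fin_two, Matrix.det_fin_two, hdiag g hg, hdiag h0 hh0, hg00] at hd
      have e := fun i j => congrFun (congrFun hm i) j
      simp only [Matrix.mul_apply, Fin.sum_univ_two] at e
      refine ⟨M g 0 1, M g 1 0, hsym h0 g hh0 hg, by linear_combination -hd, ?_, ?_, ?_, ?_⟩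
      · have := e 0 0; rw [hg00] at this; linear_combination -this
      · have := e 1 1; rw [hdiag g hg, hdiag h0 hh0, hg00] at this; linear_combination -this
      · have := e 0 1; rw [hdiag h0 hh0, hg00] at this; linear_combination -this
      · have := e 1 0; rw [hdiag g hg, hg00] at this; linear_combination -this
    rcases eq_or_ne β 0 with h01 | h01
    · refine (EC.Rep.stable_span_singleton_of_repr_eq_zero b (i := 1) (j := 0) (by decide)
        (fun σ => ?_) hirr).elim
      obtain ⟨u, v, huv, -, h1, -, -, -⟩ := hconj σ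
      have hγ0 : γ ≠ 0 := hne h01
      have hu : u = 0 := by
        rw [h01, zero_mul] at huv
        exact (mul_eq_zero.mp huv.symm).resolve_left hγ0
      rw [← hrepr]
      rw [hu, zero_mul] at h1
      exact (mul_eq_zero.mp h1).resolve_right hγ0
    rcases eq_or_ne γ 0 with h10 | h10
    · refine (EC.Rep.stable_span_singleton_of_repr_eq_zero b (i := 0) (j := 1) (by decide)
        (fun σ => ?_) hirr).elim
      obtain ⟨u, v, huv, -, -, h1, -, -⟩ := hconj σ
      have hv : v = 0 := by
        rw [h10, zero_mul] at huv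
        exact (mul_eq_zero.mp huv).resolve_left h01
      rw [← hrepr]
      rw [hv, zero_mul] at h1
      exact (mul_eq_zero.mp h1).resolve_right h01
    set Xm : Matrix (Fin 2) (Fin 2) k := !![0, β; γ, 0] with hXm
    refine ⟨e.symm Xm, fun a ha => h01 ?_, fun σ => ?_⟩
    · have := congrArg (fun T => e T 0 1) ha
      simpa [hXm] using this
    · obtain ⟨u, v, huv, hprod, e00, e11, e01, e10⟩ := hconj σ
      have hsq : u * u = β * β := mul_left_cancel₀ h10 (by linear_combination β * hprod - u * huv)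
      rcases mul_self_eq_mul_self_iff.mp hsq with hu | hu
      · have hv : v = γ := mul_left_cancel₀ h01 (by rw [huv, hu, mul_comm])
        refine Or.inl (e.injective ?_)
        rw [map_mul, map_mul, AlgEquiv.apply_symm_apply]
        show M σ * Xm = Xm * M σ
        rw [hu] at e00 e01
        rw [hv] at e11 e10
        ext i j
        fin_cases i <;> fin_cases j <;>
          simp [hXm, Matrix.mul_apply, Matrix.vecMul, dotProduct, Fin.sum_univ_two] <;>
          first | exact e00 | exact e01 | exact e10 | exact e11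
      · have hv : v = -γ := mul_left_cancel₀ h01 (by rw [huv, hu]; ring)
        refine Or.inr (e.injective ?_)
        rw [map_neg, map_mul, map_mul, AlgEquiv.apply_symm_apply]
        show M σ * Xm = -(Xm * M σ)
        rw [hu, neg_mul] at e00 e01
        rw [hv, neg_mul] at e11 e10
        ext i j
        fin_cases i <;> fin_cases j <;>
          simp [hXm, Matrix.mul_apply, Matrix.vecMul, dotProduct, Fin.sum_univ_two] <;>
          first | exact e00 | exact e01 | exact e10 | exact e11

end Group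

/-- Complex conjugation acts on the roots of unity of order dividing `n` as `x ↦ x ^ (n - 1)`. -/
theorem complexConjugation_root {n : ℕ} (hn : n ≠ 0) {ζ : Q̄} (hζ : ζ ^ n = 1) :
    complexConjugation ζ = ζ ^ (n - 1) := by
  refine complexEmbedding.toRingHom.injective ?_
  show complexEmbedding (complexConjugation ζ) = complexEmbedding (ζ ^ (n - 1))
  have hz : complexEmbedding ζ ^ n = 1 := by rw [← map_pow, hζ, map_one]
  rw [complexEmbedding_complexConjugation, map_pow,
    ← Complex.inv_eq_conj (Complex.norm_eq_one_of_pow_eq_one hz hn)]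
  exact inv_eq_of_mul_eq_one_right (by rw [← pow_succ', Nat.sub_add_cancel (by omega), hz])

theorem cycloChar_twelve_complexConjugation :
    ((LevelRaising.cycloChar 12 complexConjugation : (ZMod 12)ˣ) : ZMod 12) = 11 := by
  show ((modularCyclotomicCharacter Q̄ _ _ : (ZMod 12)ˣ) : ZMod 12) = _
  rw [Arith.modularCyclotomicCharacter_eq_natCast _ (c := 11)
    fun ζ hζ => complexConjugation_root (by norm_num) hζ]
  norm_num

/-- **Avoiding primes exist**, congruent to `11` modulo `12` and outside any finite set. -/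
theorem avoidingExists : AvoidingExists := by
  intro W p _ hΔ hp2 hW hirr T
  classical
  have hp : p.Prime := Fact.out
  set ρ := EC.Rep.residualRep W p hΔ with hρ
  have h2 := EC.Rep.two_ne_zero_zmod (p := p) hp2
  have hcdet := EC.Rep.det_residualRep_involution hΔ hp2 complexConjugation_mul_self
    EC.Rep.complexConjugation_ne_one
  have hn0 : 12 * p ≠ 0 := mul_ne_zero (by norm_num) hp.ne_zero
  haveI : NeZero (12 * p) := ⟨hn0⟩
  have hdetp : ∀ σ, LevelRaising.cycloChar (12 * p) σ = 1 → LinearMap.det (ρ.ρ σ) = 1 := fun σ hσ => by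
    rw [hρ, EC.Rep.det_residualRep hΔ (IsAlgClosed.card_rootsOfUnity_eq Q̄ p) σ]
    exact congrArg Units.val (LevelRaising.cycloChar_castHom (dvd_mul_left p 12) hσ)
  -- an element of `c H` with nonzero trace
  obtain ⟨h, hh, htr⟩ : ∃ h, LevelRaising.cycloChar (12 * p) h = 1 ∧
      LinearMap.trace (ZMod p) ρ.V (ρ.ρ (complexConjugation * h)) ≠ 0 := by
    by_contra hno
    push Not at hno
    obtain ⟨X, hX, hcomm⟩ := exists_semicommute h2 complexConjugation_mul_self hcdet
      ((EC.Rep.isIrreducible_residualRep_iff hΔ).mpr hirr) (LevelRaising.cycloChar (12 * p))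
      hdetp hno
    exact false_of_semicommute h2 X hX hcomm (AlgebraicClosure (ZMod p))
      (EC.Rep.baseChange_residualRep_isIrreducible hΔ hp2 hirr _)
      (fun G hG => EC.Rep.residualRep_indexTwo_irreducible (hΔ := hΔ) hW hp2 hirr _ G hG)
  set g := complexConjugation * h with hg
  -- Chebotarev
  obtain ⟨L, hLfin, hL⟩ := ρ.factorsThroughFiniteLevel
  obtain ⟨L', hL'fin, hL'⟩ := LevelRaising.cycloChar_factors 12
  obtain ⟨r, hr, hrS, A, hA, σ, hσ, he⟩ := Arith.Chebotarev.exists_frobenius_eq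
    (ρ.ρ.prod (LevelRaising.cycloChar 12)) (L ⊔ L') (fun τ hτ => Prod.ext
      (hL τ fun x hx => hτ x ((le_sup_left : L ≤ L ⊔ L') hx))
      (hL' τ fun x hx => hτ x ((le_sup_right : L' ≤ L ⊔ L') hx))) g
    (T ∪ insert p (W.Δ.natAbs.primeFactors ∪ (12 : ℕ).primeFactors))
  simp only [Finset.mem_union, Finset.mem_insert, not_or] at hrS
  have hgood : W.IsGoodPrimeFor r := fun hdvd => hrS.2.2.1
    (Nat.mem_primeFactors.mpr ⟨hr, Int.natCast_dvd.mp hdvd, Int.natAbs_ne_zero.mpr hΔ⟩)
  have hr12 : ¬ r ∣ 12 := fun hd => hrS.2.2.2 (Nat.mem_primeFactors.mpr ⟨hr, hd, by norm_num⟩)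
  have hρσ : ρ.ρ σ = ρ.ρ g := congrArg Prod.fst he
  have hχσ : LevelRaising.cycloChar 12 σ = LevelRaising.cycloChar 12 g := congrArg Prod.snd he
  have hmod : (r : ZMod 12) = 11 := by
    rw [← Arith.modularCyclotomicCharacter_frobenius hA hr hσ
      (IsAlgClosed.card_rootsOfUnity_eq Q̄ 12) hr12]
    show ((LevelRaising.cycloChar 12 σ : (ZMod 12)ˣ) : ZMod 12) = 11
    rw [hχσ, hg, map_mul, LevelRaising.cycloChar_castHom (dvd_mul_right 12 p) hh, mul_one]
    exact cycloChar_twelve_complexConjugation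
  refine ⟨r, hrS.1, ?_, hr, hrS.2.1, EC.Rep.isUnramifiedAt_residualRep hΔ hr hgood hrS.2.1,
    fun A' hA' σ' hσ' => ?_⟩
  · have := (ZMod.natCast_eq_natCast_iff' r 11 12).mp (by exact_mod_cast hmod)
    simpa using this
  · have hdg : LinearMap.det (ρ.ρ g) = -1 := by
      rw [hg, map_mul, map_mul, hcdet, hdetp h hh, mul_one]
    have hrp : (r : ZMod p) = -1 := by
      rw [← hdg, ← hρσ]
      exact (EC.FrobTrace.det_frobenius W hr hgood hrS.2.1 hA hσ).symm
    have h1 : LinearMap.trace (ZMod p) ρ.V (ρ.ρ σ') = LinearMap.trace (ZMod p) ρ.V (ρ.ρ σ) :=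
      (EC.FrobTrace.galoisTrace_frobenius W hr hgood hrS.2.1 hA' hσ').trans
        (EC.FrobTrace.galoisTrace_frobenius W hr hgood hrS.2.1 hA hσ).symm
    rw [h1, hρσ, hrp, neg_add_cancel, zero_pow two_ne_zero]
    exact pow_ne_zero 2 htr

end Fermat.Agent.RT.Lower

end
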