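import Fermat.Agent.RT.Lower.Defs
import Mathlib.Data.Nat.Squarefree

/-!
# Lowering a squarefree level to the ramified primes, from the steps
-/

set_option autoImplicit false

noncomputable section

open WeierstrassCurve

namespace Fermat.Agent.RT.Lower

variable {W : WeierstrassCurve ℤ} {p : ℕ} [Fact p.Prime] {hΔ : W.Δ ≠ 0}

theorem CongBelow.mono {N N' : ℕ} (h : CongBelow W p N) (hd : N ∣ N') : CongBelow W p N' := by
  obtain ⟨M, hM, hres⟩ := h
  exact ⟨M, hM.trans hd, hres⟩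

/-- Raising a level to a squarefree multiple. -/
def RaiseLevel : Prop :=
  ∀ (W : WeierstrassCurve ℤ) (p : ℕ) [Fact p.Prime], W.Δ ≠ 0 → p ≠ 2 →
    W.IsSemistableModel → W.ModRepIsIrreducible p →
    ∀ N : ℕ, Squarefree N → CongBelow W p N → W.IsResiduallyModularOfLevel p N

/-- An avoiding prime can be dropped from the level. -/
def DropAvoiding : Prop :=
  ∀ (W : WeierstrassCurve ℤ) (p : ℕ) [Fact p.Prime] (hΔ : W.Δ ≠ 0), p ≠ 2 →
    W.IsSemistableModel → W.ModRepIsIrreducible p →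
    ∀ r M : ℕ, IsAvoidingPrime W p hΔ r → Squarefree (r * M) →
      W.IsResiduallyModularOfLevel p (r * M) → CongBelow W p M

/-- Every ramified prime other than `p` divides every level of residual modularity. -/
def RamifiedDvdLevel : Prop :=
  ∀ (W : WeierstrassCurve ℤ) (p : ℕ) [Fact p.Prime] (hΔ : W.Δ ≠ 0), p ≠ 2 →
    W.IsSemistableModel → W.ModRepIsIrreducible p →
    ∀ v M : ℕ, v.Prime → v ≠ p → 0 < M → ¬ UnramifiedAt W p hΔ v →
      W.IsResiduallyModularOfLevel p M → v ∣ M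

/-- **Lowering to the ramified primes**, from Mazur's principle and the patching step. -/
theorem lowerToRamified_of_steps (hMazur : MazurPrinciple) (hGerm : GermStep)
    (hAvoid : AvoidingExists) (hRaise : RaiseLevel) (hDrop : DropAvoiding)
    (hRam : RamifiedDvdLevel) : LowerToRamified := by
  classical
  intro W p hpf hΔ hp2 hW hirr N hN hres
  induction N using Nat.strong_induction_on with
  | _ N ih =>
    by_cases hall : ∀ v : ℕ, v.Prime → v ∣ N → v ≠ p → ¬ UnramifiedAt W p hΔ v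
    · exact ⟨N, dvd_rfl, hres, hall⟩
    -- it suffices to reach a proper divisor
    suffices hlow : ∃ K, K ∣ N ∧ K ≠ N ∧ CongBelow W p K by
      obtain ⟨K, hKN, hKne, M, hMK, hM⟩ := hlow
      have hlt : M < N := lt_of_le_of_ne (Nat.le_of_dvd (Nat.pos_of_ne_zero hN.ne_zero)
        (hMK.trans hKN)) fun h => hKne (Nat.dvd_antisymm hKN (h ▸ hMK))
      obtain ⟨M', hM', h'⟩ := ih M hlt (hN.squarefree_of_dvd (hMK.trans hKN)) hM
      exact ⟨M', hM'.trans (hMK.trans hKN), h'⟩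
    have hp : p.Prime := hpf.out
    have hN0 : N ≠ 0 := hN.ne_zero
    have hdiv : ∀ {v : ℕ}, v.Prime → v ∣ N → N / v ∣ N ∧ N / v ≠ N := fun hv hvN =>
      ⟨Nat.div_dvd_of_dvd hvN, (Nat.div_lt_self (Nat.pos_of_ne_zero hN0) hv.one_lt).ne⟩
    by_cases hpfree : p ∣ N ∧ CongBelow W p (N / p)
    · exact ⟨N / p, (hdiv hp hpfree.1).1, (hdiv hp hpfree.1).2, hpfree.2⟩
    obtain ⟨a, haT, ha12, ha⟩ := hAvoid W p hΔ hp2 hW hirr (insert p N.primeFactors)
    have hap : ¬ a = p := fun h => haT (by rw [h]; exact Finset.mem_insert_self _ _)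
    have haN : ¬ a ∣ N := fun h =>
      haT (Finset.mem_insert_of_mem (Nat.mem_primeFactors.mpr ⟨ha.1, h, hN0⟩))
    have haK : ∀ {K : ℕ}, K ∣ N → Squarefree (a * K) := fun hK =>
      (Nat.squarefree_mul (ha.1.coprime_iff_not_dvd.mpr fun h => haN (h.trans hK))).mpr
        ⟨ha.1.squarefree, hN.squarefree_of_dvd hK⟩
    have drop : ∀ {K : ℕ}, K ∣ N → CongBelow W p (a * K) → CongBelow W p K := fun {K} hK h =>
      hDrop W p hΔ hp2 hW hirr a K ha (haK hK) (hRaise W p hΔ hp2 hW hirr _ (haK hK) h)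
    have hresA : W.IsResiduallyModularOfLevel p (a * N) :=
      hRaise W p hΔ hp2 hW hirr _ (haK dvd_rfl) ⟨N, dvd_mul_left N a, hres⟩
    by_cases hns : ∃ q : ℕ, q.Prime ∧ q ∣ N ∧ q ≠ p ∧ UnramifiedAt W p hΔ q ∧
        ¬ IsScalarPrime W p hΔ q
    · obtain ⟨q, hq, hqN, hqp, hunr, hnsc⟩ := hns
      have hqM : ¬ q ∣ a * (N / q) := by
        intro h
        rcases hq.dvd_mul.mp h with h | h
        · exact haN ((Nat.prime_dvd_prime_iff_eq hq ha.1).mp h ▸ hqN)
        · exact hq.not_isUnit (hN q ((Nat.dvd_div_iff_mul_dvd hqN).mp h))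
      refine ⟨N / q, (hdiv hq hqN).1, (hdiv hq hqN).2, drop (hdiv hq hqN).1
        (hMazur W p hΔ hp2 hW hirr q (a * (N / q)) hq hqp hqM (haK (hdiv hq hqN).1) hunr hnsc ?_)⟩
      rwa [mul_left_comm, Nat.mul_div_cancel' hqN]
    -- only scalar primes are left
    push Not at hns hall
    obtain ⟨v₀, hv₀, hv₀N, hv₀p, hv₀u⟩ := hall
    set V := N.primeFactors.filter fun v => v ≠ p ∧ UnramifiedAt W p hΔ v with hV
    set R := N.primeFactors.filter fun v => ¬ (v ≠ p ∧ UnramifiedAt W p hΔ v) with hR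
    have hprod : (∏ v ∈ R, v) * ∏ v ∈ V, v = N := by
      rw [hR, hV, Finset.prod_filter_not_mul_prod_filter]
      exact Nat.prod_primeFactors_of_squarefree hN
    have hRN : (∏ v ∈ R, v) ∣ N := ⟨_, hprod.symm⟩
    have hVs : ∀ v ∈ V, IsScalarPrime W p hΔ v := fun v hv => by
      simp only [hV, Finset.mem_filter, Nat.mem_primeFactors] at hv
      exact hns v hv.1.1 hv.1.2.1 hv.2.1 hv.2.2
    have hv₀V : v₀ ∈ V := by
      simp [hV, Nat.mem_primeFactors, hv₀, hv₀N, hN0, hv₀p, hv₀u]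
    have hmemR : ∀ {v : ℕ}, v ∈ R ↔ (v.Prime ∧ v ∣ N) ∧ ¬ (v ≠ p ∧ UnramifiedAt W p hΔ v) := by
      intro v
      simp [hR, Nat.mem_primeFactors, hN0]
    have hdvdR : ∀ {v : ℕ}, v.Prime → (v ∣ ∏ v ∈ R, v ↔ v ∈ R) := fun hv => by
      refine ⟨fun h => ?_, fun h => Finset.dvd_prod_of_mem (fun v => v) h⟩
      obtain ⟨w, hw, hvw⟩ := (hv.prime.dvd_finsetProd_iff _).mp h
      rwa [(Nat.prime_dvd_prime_iff_eq hv (hmemR.mp hw).1.1).mp hvw]
    have hbase : IsBaseLevel W p hΔ (a * ∏ v ∈ R, v) := by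
      refine ⟨haK hRN, fun v hv hvd hvp => ?_, fun v hv hvp hr => ?_, a, dvd_mul_right _ _, ha, ha12⟩
      · rcases hv.dvd_mul.mp hvd with h | h
        · exact Or.inr ((Nat.prime_dvd_prime_iff_eq hv ha.1).mp h ▸ ha)
        · exact Or.inl fun hu => (hmemR.mp ((hdvdR hv).mp h)).2 ⟨hvp, hu⟩
      · refine dvd_mul_of_dvd_right ((hdvdR hv).mpr (hmemR.mpr ⟨⟨hv, ?_⟩, fun h => hr h.2⟩)) _
        exact hRam W p hΔ hp2 hW hirr v N hv hvp (Nat.pos_of_ne_zero hN0) hr hres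
    have hLN : (a * ∏ v ∈ R, v) * ∏ v ∈ V, v = a * N := by rw [mul_assoc, hprod]
    have hstrict : p ∣ a * ∏ v ∈ R, v →
        ¬ CongBelow W p ((a * ∏ v ∈ R, v) * (∏ v ∈ V, v) / p) := by
      intro hpd h
      have hpN : p ∣ N := by
        rcases hp.dvd_mul.mp hpd with h' | h'
        · exact absurd ((Nat.prime_dvd_prime_iff_eq hp ha.1).mp h').symm hap
        · exact h'.trans hRN
      rw [hLN, Nat.mul_div_assoc a hpN] at h
      exact hpfree ⟨hpN, drop (hdiv hp hpN).1 h⟩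
    have key := hGerm W p hΔ hp2 hW hirr _ V hbase hVs hstrict
      (by rw [hLN]; exact ⟨_, dvd_rfl, hresA⟩) v₀ hv₀V
    have hKeq : (∏ v ∈ R, v) * ∏ v ∈ V.erase v₀, v = N / v₀ := by
      refine (Nat.div_eq_of_eq_mul_left hv₀.pos ?_).symm
      rw [mul_assoc, Finset.prod_erase_mul _ _ hv₀V, hprod]
    rw [mul_assoc, hKeq] at key
    exact ⟨N / v₀, (hdiv hv₀ hv₀N).1, (hdiv hv₀ hv₀N).2, drop (hdiv hv₀ hv₀N).1 key⟩

end Fermat.Agent.RT.Lower

end
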