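import Fermat.Agent.RT.Lower.Defs
import Fermat.Agent.RT.Assembly.Forms
import Fermat.Agent.RT.Assembly.Special
import Fermat.Agent.EC.Rep.TWHypothesis
import Fermat.Agent.Semistable.Unconditional
import Fermat.Agent.RT.Lower.Assembly

/-!
# The residual representation of a semistable curve and the forms congruent to it

The facts of `RT/Assembly/{Residual,Forms,Special}` for a semistable integral model `W` and an odd
prime `p`, and the rules for levels of residual modularity: an avoiding prime is dropped and a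
ramified prime is kept.
-/

set_option autoImplicit false

noncomputable section

open WeierstrassCurve Polynomial
open CongruenceSubgroup ModularFormClass
open Fermat.Agent.NewformLocal (UnipotentAt ToricSquareAt toricOp)
open scoped TensorProduct

namespace Fermat.Agent.RT.Lower

open Assembly (charpoly_eq_of_frobenius)

local notation "Q̄" => AlgebraicClosure ℚ
local notation "GQ" => AlgebraicClosure ℚ ≃ₐ[ℚ] AlgebraicClosure ℚ

variable {W : WeierstrassCurve ℤ} {p : ℕ} [Fact p.Prime] (hΔ : W.Δ ≠ 0)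
  {k : Type} [Field k] [Algebra (ZMod p) k]

theorem curveRho_apply (σ : GQ) :
    (curveRho W p hΔ k).ρ σ = ((EC.Rep.residualRep W p hΔ).ρ σ).baseChange k := rfl

theorem charpoly_curveRho (σ : GQ) : LinearMap.charpoly ((curveRho W p hΔ k).ρ σ) =
    (LinearMap.charpoly ((EC.Rep.residualRep W p hΔ).ρ σ)).map (algebraMap (ZMod p) k) :=
  LinearMap.charpoly_baseChange _ k

theorem charpoly_curveRho_frobenius {ℓ : ℕ} (hℓ : ℓ.Prime) (hgood : W.IsGoodPrimeFor ℓ)
    (hne : ℓ ≠ p) {A : ValuationSubring Q̄} (hA : A.LiesOverPrime ℓ) {σ : GQ}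
    (hσ : A.IsFrobeniusAt σ ℓ) :
    LinearMap.charpoly ((curveRho W p hΔ k).ρ σ) =
      X ^ 2 - C (curveAbar W k ℓ) * X + C (ℓ : k) := by
  rw [charpoly_curveRho, EC.Rep.charpoly_residualRep_frobenius hΔ hℓ hgood hne hA hσ]
  simp [curveAbar]

theorem det_curveRho {σ : GQ} {a : ℕ} (ha : ∀ μ : Q̄, μ ^ p = 1 → σ μ = μ ^ a) :
    LinearMap.det ((curveRho W p hΔ k).ρ σ) = (a : k) := by
  have hn := EC.FrobTrace.card_rootsOfUnity_Qbar p
  refine (LinearMap.det_baseChange (A := k) _).trans ?_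
  rw [EC.Rep.det_residualRep _ hn, Arith.modularCyclotomicCharacter_eq_natCast hn ha, map_natCast]

theorem trace_curveRho (σ : GQ) : LinearMap.trace k _ ((curveRho W p hΔ k).ρ σ) =
    algebraMap (ZMod p) k (LinearMap.trace (ZMod p) _ ((EC.Rep.residualRep W p hΔ).ρ σ)) :=
  LinearMap.trace_baseChange _ k

theorem curveRho_eq_smul_one {σ : GQ} {c : ZMod p}
    (h : (EC.Rep.residualRep W p hΔ).ρ σ = c • 1) :
    (curveRho W p hΔ k).ρ σ = algebraMap (ZMod p) k c • 1 := by
  have e : (c • (1 : Module.End (ZMod p) (EC.Rep.residualRep W p hΔ).V)).baseChange k =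
      algebraMap (ZMod p) k c •
        (1 : Module.End k (k ⊗[ZMod p] (EC.Rep.residualRep W p hΔ).V)) := by
    rw [LinearMap.baseChange_smul, LinearMap.baseChange_one, algebraMap_smul]
  exact (congrArg (LinearMap.baseChange k) h).trans e

theorem isAbsolutelyIrreducible_curveRho (hp2 : p ≠ 2) (hirr : W.ModRepIsIrreducible p) :
    (curveRho W p hΔ k).IsAbsolutelyIrreducible :=
  Assembly.isAbsolutelyIrreducible_baseChange _
    (EC.Rep.baseChange_residualRep_isIrreducible hΔ hp2 hirr)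

theorem curveRho_eq_one_iff (σ : GQ) :
    (curveRho W p hΔ k).ρ σ = 1 ↔ (EC.Rep.residualRep W p hΔ).ρ σ = 1 := by
  refine ⟨fun h => LinearMap.ext fun x => ?_, fun h => ?_⟩
  · exact Module.FaithfullyFlat.tensorProduct_mk_injective (A := ZMod p) (B := k) _
      (LinearMap.congr_fun h ((1 : k) ⊗ₜ[ZMod p] x))
  · rw [curveRho_apply, h, LinearMap.baseChange_one]
    rfl

theorem unramifiedAt_iff (q : ℕ) :
    UnramifiedAt W p hΔ q ↔ (curveRho W p hΔ k).IsUnramifiedAt q :=
  ⟨fun h A hA σ hσ => (curveRho_eq_one_iff hΔ σ).mpr (h A hA σ hσ),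
    fun h A hA σ hσ => (curveRho_eq_one_iff hΔ σ).mp (h A hA σ hσ)⟩

theorem exists_inertia_curveRho_ne_one {q : ℕ} (h : ¬ UnramifiedAt W p hΔ q) :
    ∃ A : ValuationSubring Q̄, A.LiesOverPrime q ∧
      ∃ σ ∈ A.inertiaSubgroupIn ℚ, (curveRho W p hΔ k).ρ σ ≠ 1 := by
  rw [unramifiedAt_iff hΔ (k := k)] at h
  simpa [ResidualGaloisRep.IsUnramifiedAt] using h

theorem unramifiedAt_of_good {q : ℕ} (hq : q.Prime) (hgood : W.IsGoodPrimeFor q) (hqp : q ≠ p) :
    UnramifiedAt W p hΔ q :=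
  EC.Rep.isUnramifiedAt_residualRep hΔ hq hgood hqp

theorem dvd_Δ_of_not_unramifiedAt {q : ℕ} (hq : q.Prime) (hqp : q ≠ p)
    (h : ¬ UnramifiedAt W p hΔ q) : (q : ℤ) ∣ W.Δ :=
  by_contra fun hgood => h (unramifiedAt_of_good hΔ hq hgood hqp)

theorem sub_one_sq_curveRho (hW : W.IsSemistableModel) {q : ℕ} (hq : q.Prime) (hqp : q ≠ p)
    {A : ValuationSubring Q̄} (hA : A.LiesOverPrime q) {σ : GQ}
    (hσ : σ ∈ A.inertiaSubgroupIn ℚ) : ((curveRho W p hΔ k).ρ σ - 1) ^ 2 = 0 := by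
  have h : ((EC.Rep.residualRep W p hΔ).ρ σ - 1) ^ 2 = 0 := LinearMap.ext fun v => by
    rw [pow_two, Module.End.mul_apply, LinearMap.sub_apply, LinearMap.sub_apply,
      Module.End.one_apply, Module.End.one_apply,
      EC.Rep.residualRep_unipotent hΔ hW hq hqp hA hσ v, sub_self]
    rfl
  have := congrArg (LinearMap.baseChange k) h
  rw [LinearMap.baseChange_pow, LinearMap.baseChange_sub, LinearMap.baseChange_one,
    LinearMap.baseChange_zero] at this
  exact this

theorem charpoly_curveRho_inertia (hW : W.IsSemistableModel) {q : ℕ} (hq : q.Prime) (hqp : q ≠ p)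
    {A : ValuationSubring Q̄} (hA : A.LiesOverPrime q) {σ : GQ}
    (hσ : σ ∈ A.inertiaSubgroupIn ℚ) :
    LinearMap.charpoly ((curveRho W p hΔ k).ρ σ) = (X - C 1) ^ 2 := by
  have h := EC.Rep.isUnipotentOnInertiaAt_residualRep hΔ hq hqp
    (EC.Rep.semistable_not_dvd hW q hq) A hA σ hσ
  rw [charpoly_curveRho]
  exact (congrArg (Polynomial.map _) h).trans (by simp)

theorem trace_curveRho_inertia (hW : W.IsSemistableModel) {q : ℕ} (hq : q.Prime) (hqp : q ≠ p)
    {A : ValuationSubring Q̄} (hA : A.LiesOverPrime q) {σ : GQ}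
    (hσ : σ ∈ A.inertiaSubgroupIn ℚ) :
    LinearMap.trace k _ ((curveRho W p hΔ k).ρ σ) = 2 := by
  have h := charpoly_curveRho_inertia hΔ (k := k) hW hq hqp hA hσ
  rw [EC.FrobTrace.charpoly_of_finrank_eq_two (curveRho W p hΔ k).finrank_eq] at h
  have h1 := congrArg (fun f => Polynomial.coeff f 1) h
  rw [show ((X : k[X]) - C 1) ^ 2 = X ^ 2 - C 2 * X + C 1 by
    rw [show (2 : k) = 1 + 1 by norm_num, map_add, map_one]; ring] at h1
  simpa [coeff_C, coeff_one] using h1

/-- The level `M` representation of a congruent form, against the representation of the curve. -/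
theorem charpoly_attached_eq
    {M : ℕ} (hM : M ≠ 0) {g : CuspForm (Gamma0 M) 2} (hg : g.IsNormalizedEigenform)
    (φ : integralClosure ℤ ℂ →+* AlgebraicClosure k) (T : Finset ℕ)
    (hout : ∀ ℓ : ℕ, ℓ.Prime → ℓ ∉ T → ∀ a : integralClosure ℤ ℂ, (a : ℂ) = qCoeff g ℓ →
      φ a = algebraMap k _ (curveAbar W k ℓ)) :
    ∃ ρ : ResidualGaloisRep (AlgebraicClosure k), ρ.IsAttachedTo g φ ∧
      (∀ v : ℕ, v.Prime → ¬ v ∣ M * p → ρ.IsUnramifiedAt v) ∧
      ∀ σ : GQ, LinearMap.charpoly (ρ.ρ σ) =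
        (LinearMap.charpoly ((curveRho W p hΔ k).ρ σ)).map (algebraMap k (AlgebraicClosure k)) := by
  classical
  have hpk : CharP k p := charP_of_injective_algebraMap (algebraMap (ZMod p) k).injective p
  have : CharP (AlgebraicClosure k) p :=
    charP_of_injective_algebraMap (algebraMap k (AlgebraicClosure k)).injective p
  obtain ⟨ρ, hatt, hunr⟩ := GaloisReps.exists_residual_isAttachedTo hg (Fact.out : p.Prime) φ
  refine ⟨ρ, hatt, hunr, fun σ => ?_⟩
  refine (charpoly_eq_of_frobenius ρ ((curveRho W p hΔ k).baseChange (AlgebraicClosure k))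
    (T ∪ insert p (M.primeFactors ∪ W.Δ.natAbs.primeFactors))
    (fun ℓ hℓ hℓT A hA τ hτ => ?_) σ).trans (LinearMap.charpoly_baseChange _ _)
  simp only [Finset.mem_union, Finset.mem_insert, not_or] at hℓT
  have hℓM : ¬ ℓ ∣ M := fun h => hℓT.2.2.1 (Nat.mem_primeFactors.mpr ⟨hℓ, h, hM⟩)
  have hgood : W.IsGoodPrimeFor ℓ := fun h => hℓT.2.2.2 (Nat.mem_primeFactors.mpr
    ⟨hℓ, Int.natCast_dvd.mp h, Int.natAbs_ne_zero.mpr (hΔ)⟩)
  have hℓ0 : (ℓ : AlgebraicClosure k) ≠ 0 := fun h => hℓT.2.1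
    ((Nat.prime_dvd_prime_iff_eq (Fact.out : p.Prime) hℓ).mp ((CharP.cast_eq_zero_iff _ p ℓ).mp h)).symm
  obtain ⟨a, ha, hc⟩ := hatt ℓ hℓ hℓM hℓ0 A hA τ hτ
  rw [hc, hout ℓ hℓ hℓT.1 a ha]
  show _ = LinearMap.charpoly (((curveRho W p hΔ k).ρ τ).baseChange (AlgebraicClosure k))
  rw [LinearMap.charpoly_baseChange, charpoly_curveRho_frobenius hΔ hℓ hgood hℓT.2.1 hA hτ]
  simp

include hΔ in
/-- A congruence outside a finite set extends to all good primes away from the level and `p`. -/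
theorem congr_of_congr_outside
    {M : ℕ} {g : CuspForm (Gamma0 M) 2} (hg : g.IsNormalizedEigenform)
    (φ : integralClosure ℤ ℂ →+* AlgebraicClosure k) (T : Finset ℕ)
    (hout : ∀ ℓ : ℕ, ℓ.Prime → ℓ ∉ T → ∀ a : integralClosure ℤ ℂ, (a : ℂ) = qCoeff g ℓ →
      φ a = algebraMap k _ (curveAbar W k ℓ))
    {ℓ : ℕ} (hℓ : ℓ.Prime) (hgood : W.IsGoodPrimeFor ℓ) (hℓM : ¬ ℓ ∣ M)
    (hℓp : ℓ ≠ p) {a : integralClosure ℤ ℂ} (ha : (a : ℂ) = qCoeff g ℓ) :
    φ a = algebraMap k _ (curveAbar W k ℓ) := by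
  have hpk : CharP k p := charP_of_injective_algebraMap (algebraMap (ZMod p) k).injective p
  have : CharP (AlgebraicClosure k) p :=
    charP_of_injective_algebraMap (algebraMap k (AlgebraicClosure k)).injective p
  have hℓ0 : (ℓ : AlgebraicClosure k) ≠ 0 := fun h => hℓp
    ((Nat.prime_dvd_prime_iff_eq (Fact.out : p.Prime) hℓ).mp ((CharP.cast_eq_zero_iff _ p ℓ).mp h)).symm
  obtain ⟨ρ, hatt, -, hρ⟩ := charpoly_attached_eq (p := p) (k := k) hΔ (M := M) (fun h => hℓM (by rw [h]; exact dvd_zero ℓ)) hg φ T hout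
  obtain ⟨A, hA⟩ := Arith.exists_liesOverPrime hℓ
  obtain ⟨σ, hσ⟩ := Arith.exists_isFrobeniusAt hA hℓ
  obtain ⟨a', ha', hc⟩ := hatt ℓ hℓ hℓM hℓ0 A hA σ hσ
  rw [hρ σ, charpoly_curveRho_frobenius hΔ hℓ hgood hℓp hA hσ] at hc
  have h1 := congrArg (fun f => Polynomial.coeff f 1) hc
  rw [show a = a' from Subtype.ext (ha.trans ha'.symm)]
  simpa [coeff_X_pow] using h1.symm

include hΔ in
/-- A congruent form gives residual modularity of its level. -/
theorem isResiduallyModularOfLevel_of_congruent {S : Finset ℕ} {M : ℕ} {g : CuspForm (Gamma0 M) 2}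
    (h : IsCongruentForm S (curveAbar W k) g) : W.IsResiduallyModularOfLevel p M := by
  obtain ⟨hg, φ, hφ⟩ := h
  have hpk : CharP k p := charP_of_injective_algebraMap (algebraMap (ZMod p) k).injective p
  have : CharP (AlgebraicClosure k) p :=
    charP_of_injective_algebraMap (algebraMap k (AlgebraicClosure k)).injective p
  have hmax : (RingHom.ker φ).IsMaximal := by
    have hP : (RingHom.ker φ).IsPrime := RingHom.ker_isPrime φ
    refine Ideal.isMaximal_of_isIntegral_of_isMaximal_comap (R := ℤ) _ ?_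
    have hle : Ideal.span {(p : ℤ)} ≤ (RingHom.ker φ).comap (algebraMap ℤ _) := by
      rw [Ideal.span_le, Set.singleton_subset_iff, SetLike.mem_coe, Ideal.mem_comap,
        RingHom.mem_ker, map_natCast, map_natCast]
      exact CharP.cast_eq_zero _ _
    have hmax' : (Ideal.span {(p : ℤ)}).IsMaximal :=
      PrincipalIdealRing.isMaximal_of_irreducible
        (Nat.prime_iff_prime_int.mp (Fact.out : p.Prime)).irreducible
    rw [← hmax'.eq_of_le (Ideal.IsPrime.comap _).ne_top hle]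
    exact hmax'
  refine ⟨g, RingHom.ker φ, hg, hmax, ?_, fun ℓ hℓ hgood hℓM hℓp => ?_⟩
  · rw [RingHom.mem_ker, map_natCast]
    exact CharP.cast_eq_zero _ _
  · have : NeZero M := ⟨fun h => hℓM (h ▸ dvd_zero ℓ)⟩
    obtain ⟨θ, hθ⟩ := GaloisReps.exists_eigenform_character hg
    refine ⟨θ (HeckeDuality.heckeOp M 2 ℓ hℓ), hθ ℓ hℓ, ?_⟩
    rw [RingHom.mem_ker, map_sub, sub_eq_zero,
      congr_of_congr_outside hΔ hg φ S hφ hℓ hgood hℓM hℓp (hθ ℓ hℓ), map_intCast]
    exact map_intCast (algebraMap k _) _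

/-- Residual modularity gives a congruent form. -/
theorem isCongruentLevel_of_isResiduallyModular {S : Finset ℕ} {M : ℕ}
    (hS : ∀ ℓ : ℕ, ℓ.Prime → (ℓ = p ∨ ℓ ∣ M ∨ (ℓ : ℤ) ∣ W.Δ) → ℓ ∈ S)
    (hmod : W.IsResiduallyModularOfLevel p M) : IsCongruentLevel S (curveAbar W k) M := by
  classical
  obtain ⟨g, 𝔪, hg, h𝔪, hp𝔪, hcong⟩ := hmod
  let : Field (integralClosure ℤ ℂ ⧸ 𝔪) := Ideal.Quotient.field 𝔪
  have hpF : CharP (integralClosure ℤ ℂ ⧸ 𝔪) p := by
    refine (CharP.charP_iff_prime_eq_zero Fact.out).mpr ?_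
    rw [← map_natCast (Ideal.Quotient.mk 𝔪), Ideal.Quotient.eq_zero_iff_mem]
    exact hp𝔪
  let : Algebra (ZMod p) (integralClosure ℤ ℂ ⧸ 𝔪) := ZMod.algebra _ p
  have : Algebra.IsIntegral ℤ (integralClosure ℤ ℂ ⧸ 𝔪) := inferInstance
  have : Algebra.IsIntegral (ZMod p) (integralClosure ℤ ℂ ⧸ 𝔪) :=
    ⟨fun x => (Algebra.IsIntegral.isIntegral (R := ℤ) x).tower_top⟩
  let j : (integralClosure ℤ ℂ ⧸ 𝔪) →ₐ[ZMod p] AlgebraicClosure k := IsAlgClosed.lift
  refine ⟨g, hg, j.toRingHom.comp (Ideal.Quotient.mk 𝔪), fun ℓ hℓ hℓS a ha => ?_⟩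
  obtain ⟨b, hb, hbm⟩ := hcong ℓ hℓ (fun h => hℓS (hS ℓ hℓ (Or.inr (Or.inr h))))
    (fun h => hℓS (hS ℓ hℓ (Or.inr (Or.inl h)))) (fun h => hℓS (hS ℓ hℓ (Or.inl h)))
  rw [show a = b from Subtype.ext (ha.trans hb.symm), RingHom.comp_apply,
    (Ideal.Quotient.mk_eq_mk_iff_sub_mem _ _).mpr hbm, ← RingHom.comp_apply, map_intCast,
    curveAbar, map_intCast]

include hΔ in
/-- Residual modularity of a level, as a congruence with the residual system. -/
theorem isResiduallyModularOfLevel_iff_isCongruentLevel {S : Finset ℕ} {M : ℕ}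
    (hS : ∀ ℓ : ℕ, ℓ.Prime → (ℓ = p ∨ ℓ ∣ M ∨ (ℓ : ℤ) ∣ W.Δ) → ℓ ∈ S) :
    W.IsResiduallyModularOfLevel p M ↔ IsCongruentLevel S (curveAbar W k) M :=
  ⟨isCongruentLevel_of_isResiduallyModular hS,
    fun ⟨_, hg⟩ => isResiduallyModularOfLevel_of_congruent hΔ hg⟩

set_option maxHeartbeats 800000 in
/-- At a prime `q ∥ M` of the level of a congruent newform the squared trace of a Frobenius
element of the representation on `W[p]` is `(q + 1) ^ 2`. -/
theorem trace_sq_of_special {S : Finset ℕ} {M : ℕ} [NeZero M] {g : CuspForm (Gamma0 M) 2}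
    (hg : g.IsNewform) (hcongr : IsCongruentForm S (curveAbar W k) g) {q : ℕ} (hq : q.Prime)
    (hqp : q ≠ p) (hqM : q ∣ M) (D : GaloisReps.HeckeGaloisModel M p) (hU : UnipotentAt D q)
    (hT : ToricSquareAt D q) {A : ValuationSubring Q̄} (hA : A.LiesOverPrime q) {σ : GQ}
    (hσ : A.IsFrobeniusAt σ q) :
    LinearMap.trace k _ ((curveRho W p hΔ k).ρ σ) ^ 2 = ((q : k) + 1) ^ 2 := by
  classical
  have hpk : CharP k p := charP_of_injective_algebraMap (algebraMap (ZMod p) k).injective p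
  have : CharP (AlgebraicClosure k) p :=
    charP_of_injective_algebraMap (algebraMap k (AlgebraicClosure k)).injective p
  obtain ⟨-, φ, hφ⟩ := hcongr
  -- the eigen character with values in the algebraic integers
  obtain ⟨θ₀, hθ₀⟩ := GaloisReps.exists_eigenform_character hg.1
  have hint : ∀ t, ConductorLevel.eigenChar hg.1 (∅ : Set ℕ) t ∈ integralClosure ℤ ℂ := fun t =>
    ConductorLevel.eigenChar_range_le hg.1 (integralClosure ℤ ℂ)
      (fun ℓ hℓ _ => hθ₀ ℓ hℓ ▸ (θ₀ (HeckeDuality.heckeOp M 2 ℓ hℓ)).2) ⟨t, rfl⟩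
  let θI : GaloisReps.FullHecke M →+* integralClosure ℤ ℂ :=
    (ConductorLevel.eigenChar hg.1 (∅ : Set ℕ)).codRestrict (integralClosure ℤ ℂ) hint
  have : Module.Finite ℤ (GaloisReps.FullHecke M) := IntegralStructure.heckeAlgebra_finite M 2 ∅
  have : Module.Finite ℤ θI.range :=
    Module.Finite.of_surjective θI.rangeRestrict.toIntAlgHom.toLinearMap
      θI.rangeRestrict_surjective
  obtain ⟨O', i1, i2, i3, i4, i5, hpO, θA, ψ, hψ⟩ :=
    GaloisReps.exists_lift_char (p := p) (A := θI.range) (φ.comp θI.range.subtype)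
  have hθA : Function.Injective θA := by
    rw [RingHom.injective_iff_ker_eq_bot]
    have := RingHom.ker_isPrime θA
    refine Ideal.eq_bot_of_comap_eq_bot (R := ℤ) ?_
    rw [eq_bot_iff]
    intro n hn
    rw [Ideal.mem_comap, RingHom.mem_ker, eq_intCast, map_intCast, Int.cast_eq_zero] at hn
    exact hn
  let θ : GaloisReps.FullHecke M →+* O' := θA.comp θI.rangeRestrict
  obtain ⟨ι⟩ := GaloisReps.exists_padicHom O' hpO
  -- the residual representation of the newform
  let : Algebra (IsLocalRing.ResidueField O') (AlgebraicClosure k) := ψ.toAlgebra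
  let ρO := D.rep ι θ hpO
  let ρ' := ρO.residual.baseChange (AlgebraicClosure k)
  have hch : ∀ τ : GQ, LinearMap.charpoly (ρ'.ρ τ) =
      (LinearMap.charpoly (ρO.ρ τ)).map (ψ.comp (IsLocalRing.residue O')) := fun τ => by
    show LinearMap.charpoly (((ρO.ρ τ).baseChange (IsLocalRing.ResidueField O')).baseChange
      (AlgebraicClosure k)) = _
    rw [LinearMap.charpoly_baseChange, LinearMap.charpoly_baseChange, Polynomial.map_map]
    rfl
  have hall := charpoly_eq_of_frobenius ρ' ((curveRho W p hΔ k).baseChange (AlgebraicClosure k))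
    (S ∪ insert p (M.primeFactors ∪ W.Δ.natAbs.primeFactors))
    (fun ℓ hℓ hℓT B hB τ hτ => by
      simp only [Finset.mem_union, Finset.mem_insert, not_or] at hℓT
      have hℓM : ¬ ℓ ∣ M := fun h =>
        hℓT.2.2.1 (Nat.mem_primeFactors.mpr ⟨hℓ, h, NeZero.ne M⟩)
      have hgood : W.IsGoodPrimeFor ℓ := fun h => hℓT.2.2.2
        (Nat.mem_primeFactors.mpr ⟨hℓ, Int.natCast_dvd.mp h,
          Int.natAbs_ne_zero.mpr (hΔ)⟩)
      have hNp : ¬ ℓ ∣ M * p := fun h => (hℓ.dvd_mul.mp h).elim hℓM fun h' =>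
        hℓT.2.1 ((Nat.prime_dvd_prime_iff_eq hℓ (Fact.out : p.Prime)).mp h')
      rw [hch, show LinearMap.charpoly (ρO.ρ τ) = _ from
        D.charpoly_eigenAction_frobenius ι θ GaloisReps.frobeniusDensity hpO hℓ hNp hB hτ]
      show _ = LinearMap.charpoly (((curveRho W p hΔ k).ρ τ).baseChange (AlgebraicClosure k))
      rw [LinearMap.charpoly_baseChange, charpoly_curveRho_frobenius hΔ hℓ hgood hℓT.2.1 hB hτ]
      have ha : ((θI (HeckeDuality.heckeOp M 2 ℓ hℓ) : integralClosure ℤ ℂ) : ℂ) = qCoeff g ℓ := by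
        show ConductorLevel.eigenChar hg.1 (∅ : Set ℕ) _ = _
        rw [HeckeDuality.heckeOp, dif_neg hℓM]
        exact ConductorLevel.eigenChar_T hg.1 hℓ hℓM _
      have e : ψ (IsLocalRing.residue O' (θ (HeckeDuality.heckeOp M 2 ℓ hℓ))) =
          algebraMap k _ (curveAbar W k ℓ) := by
        rw [← hφ ℓ hℓ hℓT.1 _ ha]
        exact RingHom.congr_fun hψ _
      simp [e]) σ
  -- the special Frobenius element
  have hR : M / q ∣ M := Nat.div_dvd_of_dvd hqM
  have hRq : M / q * q = M := Nat.div_mul_cancel hqM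
  have : NeZero (M / q) := ⟨fun h => NeZero.ne M (by rw [← hRq, h, zero_mul])⟩
  obtain ⟨t, ht, htg⟩ := NewformLocal.exists_killsOld_ne_zero hg hR
    (Nat.div_lt_self (Nat.pos_of_ne_zero (NeZero.ne M)) hq.one_lt).ne
  obtain ⟨ℓ, hℓ, hℓT, hne⟩ := NewformLocal.exists_coeff_ne_succ hg.1 (M * p).primeFactors
  have hℓN : ¬ ℓ ∣ M * p := fun h => hℓT (Nat.mem_primeFactors.mpr
    ⟨hℓ, h, mul_ne_zero (NeZero.ne M) (Fact.out : p.Prime).ne_zero⟩)
  have hθt : θ (toricOp t hℓ) ≠ 0 := fun h0 => by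
    have h1 : θI.rangeRestrict (toricOp t hℓ) = 0 := hθA (by rw [map_zero]; exact h0)
    have h2 : ConductorLevel.eigenChar hg.1 (∅ : Set ℕ) (toricOp t hℓ) = 0 :=
      congrArg (fun x : θI.range => ((x : integralClosure ℤ ℂ) : ℂ)) h1
    rw [toricOp, map_mul, map_sub, map_natCast, NewformLocal.eigenChar_toFull, mul_eq_zero] at h2
    have hℓM : ¬ ℓ ∣ M := fun h => hℓN (dvd_mul_of_dvd_left h p)
    have h3 : ConductorLevel.eigenChar hg.1 ∅ (HeckeDuality.heckeOp M 2 ℓ hℓ) = qCoeff g ℓ := by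
      rw [HeckeDuality.heckeOp, dif_neg hℓM]
      exact ConductorLevel.eigenChar_T hg.1 hℓ hℓM _
    rw [h3, sub_eq_zero, Nat.cast_add, Nat.cast_one] at h2
    exact h2.elim htg hne
  have key := NewformLocal.charpoly_frobenius_bad D ι θ hpO hq hqp hR hRq hU hT t ht hℓ hℓN hθt
    hA hσ
  have h4 : LinearMap.charpoly (ρ'.ρ σ) =
      LinearMap.charpoly (((curveRho W p hΔ k).ρ σ).baseChange (AlgebraicClosure k)) := hall
  rw [hch, LinearMap.charpoly_baseChange,
    EC.FrobTrace.charpoly_of_finrank_eq_two (curveRho W p hΔ k).finrank_eq] at h4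
  have h5 := congrArg (fun f => Polynomial.coeff f 1) h4
  refine (algebraMap k (AlgebraicClosure k)).injective ?_
  rw [map_pow, map_pow, map_add, map_natCast, map_one]
  rcases key with h | h
  · rw [show LinearMap.charpoly (ρO.ρ σ) = _ from h] at h5
    simp [coeff_X_pow] at h5
    linear_combination ((algebraMap k (AlgebraicClosure k)
      (LinearMap.trace k (curveRho W p hΔ k).V ((curveRho W p hΔ k).ρ σ))) + ((q : AlgebraicClosure k) + 1)) * h5
  · rw [show LinearMap.charpoly (ρO.ρ σ) = _ from h] at h5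
    simp [coeff_X_pow] at h5
    linear_combination ((algebraMap k (AlgebraicClosure k)
      (LinearMap.trace k (curveRho W p hΔ k).V ((curveRho W p hΔ k).ρ σ))) - ((q : AlgebraicClosure k) + 1)) * h5

omit [Fact p.Prime] [Algebra (ZMod p) k] in
/-- A newform below a congruent form. -/
theorem exists_congruent_newform {S : Finset ℕ} {M : ℕ} (hM : M ≠ 0)
    (h : IsCongruentLevel S (curveAbar W k) M) :
    ∃ M' : ℕ, M' ∣ M ∧ ∃ g : CuspForm (Gamma0 M') 2, g.IsNewform ∧
      IsCongruentForm (S ∪ M.primeFactors) (curveAbar W k) g := by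
  obtain ⟨f, hf, φ, hφ⟩ := h
  obtain ⟨M', hM', g, hg, hgf⟩ := ConductorLevel.exists_newform_below hM hf
  refine ⟨M', hM', g, hg, hg.1, φ, fun ℓ hℓ hℓS a ha => ?_⟩
  simp only [Finset.mem_union, not_or] at hℓS
  exact hφ ℓ hℓ hℓS.1 a (ha.trans (hgf ℓ hℓ fun hd =>
    hℓS.2 (Nat.mem_primeFactors.mpr ⟨hℓ, hd, hM⟩)))

/-- The primes `p`, those of `M` and those of `Δ`. -/
def badPrimes (W : WeierstrassCurve ℤ) (p M : ℕ) : Finset ℕ :=
  insert p (M.primeFactors ∪ W.Δ.natAbs.primeFactors)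

omit [Fact p.Prime] in
include hΔ in
theorem mem_badPrimes {M ℓ : ℕ} (hM : M ≠ 0) (hℓ : ℓ.Prime)
    (h : ℓ = p ∨ ℓ ∣ M ∨ (ℓ : ℤ) ∣ W.Δ) : ℓ ∈ badPrimes W p M := by
  rcases h with h | h | h <;> simp only [badPrimes, Finset.mem_insert, Finset.mem_union]
  · exact Or.inl h
  · exact Or.inr (Or.inl (Nat.mem_primeFactors.mpr ⟨hℓ, h, hM⟩))
  · exact Or.inr (Or.inr (Nat.mem_primeFactors.mpr
      ⟨hℓ, Int.natCast_dvd.mp h, Int.natAbs_ne_zero.mpr hΔ⟩))

include hΔ in
/-- A residually modular level has a congruent newform below it. -/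
theorem exists_newform_of_isResiduallyModular {M : ℕ} (hM : M ≠ 0)
    (hmod : W.IsResiduallyModularOfLevel p M) :
    ∃ M' : ℕ, M' ∣ M ∧ ∃ g : CuspForm (Gamma0 M') 2, g.IsNewform ∧
      IsCongruentForm (badPrimes W p M ∪ M.primeFactors) (curveAbar W k) g :=
  exists_congruent_newform hM (isCongruentLevel_of_isResiduallyModular
    (fun _ hℓ => mem_badPrimes hΔ hM hℓ) hmod)

/-- An avoiding prime is dropped from a squarefree level. -/
theorem congBelow_of_isAvoidingPrime {r M : ℕ}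
    (hr : IsAvoidingPrime W p hΔ r) (hsq : Squarefree (r * M))
    (hmod : W.IsResiduallyModularOfLevel p (r * M)) : CongBelow W p M := by
  obtain ⟨hrP, hrp, -, hr'⟩ := hr
  obtain ⟨M', hM', g, hg, hcongr⟩ :=
    exists_newform_of_isResiduallyModular hΔ (k := ZMod p) hsq.ne_zero hmod
  by_cases hrM' : r ∣ M'
  · exfalso
    have : NeZero M' := ⟨ne_zero_of_dvd_ne_zero hsq.ne_zero hM'⟩
    have hr2 : ¬ r ^ 2 ∣ M' := fun h => hrP.not_isUnit (hsq r (by
      rw [← pow_two]; exact h.trans hM'))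
    obtain ⟨D, hD⟩ := Semistable.exists_localModel M' p
    obtain ⟨hU, hT⟩ := hD r hrP hrp hrM' hr2
    obtain ⟨A, hA⟩ := Arith.exists_liesOverPrime hrP
    obtain ⟨σ, hσ⟩ := Arith.exists_isFrobeniusAt hA hrP
    have h := trace_sq_of_special hΔ hg hcongr hrP hrp hrM' D hU hT hA hσ
    rw [trace_curveRho, Algebra.algebraMap_self_apply] at h
    exact hr' A hA σ hσ h
  · exact ⟨M', (Nat.Coprime.dvd_of_dvd_mul_left ((hrP.coprime_iff_not_dvd.mpr hrM').symm) hM'),
      isResiduallyModularOfLevel_of_congruent hΔ hcongr⟩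

/-- An endomorphism `N` of square zero with `tr (N ρ g) = 0` for all `g` vanishes when `ρ` is
irreducible. -/
theorem eq_zero_of_trace_mul_eq_zero {F : Type} [Field F] (ρ : ResidualGaloisRep F)
    (hirr : ρ.IsIrreducible) {N : Module.End F ρ.V} (hN : N ^ 2 = 0)
    (h : ∀ g : GQ, LinearMap.trace F _ (N * ρ.ρ g) = 0) : N = 0 := by
  classical
  by_contra hne
  obtain ⟨x, hx⟩ : ∃ x, N x ≠ 0 := by
    by_contra h0
    push Not at h0
    exact hne (LinearMap.ext h0)
  have hNN : ∀ y, N (N y) = 0 := fun y => by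
    have := LinearMap.congr_fun hN y
    rwa [pow_two, Module.End.mul_apply] at this
  set v := N x with hv
  -- the range of `N` is the line of `v`, which is also its kernel
  have hle : (LinearMap.range N) ≤ LinearMap.ker N := by
    rintro _ ⟨y, rfl⟩
    exact hNN y
  have hr1 : Module.finrank F (LinearMap.range N) = 1 := by
    have h1 := LinearMap.finrank_range_add_finrank_ker N
    rw [ρ.finrank_eq] at h1
    have h2 := Submodule.finrank_mono hle
    have h3 : 0 < Module.finrank F (LinearMap.range N) :=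
      Module.finrank_pos_iff.mpr ⟨⟨v, x, rfl⟩, 0, fun he => hx (congrArg Subtype.val he)⟩
    omega
  have hrange : ∀ y, ∃ c : F, c • v = N y := fun y => by
    obtain ⟨c, hc⟩ := (finrank_eq_one_iff_of_nonzero' (⟨v, x, rfl⟩ : LinearMap.range N)
      (fun he => hx (congrArg Subtype.val he))).mp hr1 ⟨N y, y, rfl⟩
    exact ⟨c, congrArg Subtype.val hc⟩
  choose f hf using hrange
  let fl : ρ.V →ₗ[F] F :=
    { toFun := f
      map_add' := fun y z => smul_left_injective F hx (by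
        simp only [add_smul, hf, map_add])
      map_smul' := fun a y => smul_left_injective F hx (by
        simp only [RingHom.id_apply, smul_eq_mul, mul_smul, hf, map_smul]) }
  have hN' : N = fl.smulRight v := LinearMap.ext fun y => (hf y).symm
  have horb : ∀ g : GQ, N (ρ.ρ g v) = 0 := fun g => by
    have h' := h g
    rw [hN', show fl.smulRight v * ρ.ρ g = (fl ∘ₗ ρ.ρ g).smulRight v from rfl,
      LinearMap.trace_smulRight] at h'
    rw [← hf, show f (ρ.ρ g v) = (fl ∘ₗ ρ.ρ g) v from rfl, h', zero_smul]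
  let K : Submodule F ρ.V := Submodule.span F (Set.range fun g => ρ.ρ g v)
  have hK : K ≤ LinearMap.ker N := Submodule.span_le.mpr (by
    rintro _ ⟨g, rfl⟩
    exact horb g)
  rcases hirr K (fun σ y hy => by
      induction hy using Submodule.span_induction with
      | mem z hz =>
        obtain ⟨g, rfl⟩ := hz
        exact Submodule.subset_span ⟨σ * g, by simp [map_mul]⟩
      | zero => simp
      | add z w _ _ hz hw => simpa using K.add_mem hz hw
      | smul c z _ hz => simpa using K.smul_mem c hz) with h' | h'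
  · refine hx ?_
    have hmem : v ∈ K := Submodule.subset_span ⟨1, by simp⟩
    rw [h', Submodule.mem_bot] at hmem
    exact hmem
  · exact hx (hK (h' ▸ Submodule.mem_top : x ∈ K))

/-- A ramified prime other than `p` divides every level of residual modularity. -/
theorem dvd_of_not_unramifiedAt (hp2 : p ≠ 2) (hW : W.IsSemistableModel)
    (hirr : W.ModRepIsIrreducible p) {M v : ℕ} (hmod : W.IsResiduallyModularOfLevel p M)
    (hv : v.Prime) (hvp : v ≠ p) (hram : ¬ UnramifiedAt W p hΔ v) : v ∣ M := by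
  by_contra hvM
  have hM : M ≠ 0 := fun h => hvM (h ▸ dvd_zero v)
  refine hram fun A hA σ hσ => ?_
  obtain ⟨g, hg, φ, hφ⟩ := isCongruentLevel_of_isResiduallyModular (k := ZMod p)
    (fun _ hℓ => mem_badPrimes hΔ hM hℓ) hmod
  obtain ⟨ρ, -, hunr, hρ⟩ := charpoly_attached_eq (p := p) (k := ZMod p) hΔ hM hg φ (badPrimes W p M) hφ
  have h1 : ρ.ρ σ = 1 := hunr v hv (fun h => (hv.dvd_mul.mp h).elim hvM fun h' =>
    hvp ((Nat.prime_dvd_prime_iff_eq hv Fact.out).mp h')) A hA σ hσ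
  set ρ₀ := curveRho W p hΔ (ZMod p)
  have htr : ∀ τ : GQ, LinearMap.trace (ZMod p) _ ((ρ₀.ρ σ - 1) * ρ₀.ρ τ) = 0 := fun τ => by
    have he : LinearMap.charpoly (ρ₀.ρ (σ * τ)) = LinearMap.charpoly (ρ₀.ρ τ) :=
      Polynomial.map_injective _ (algebraMap _ (AlgebraicClosure (ZMod p))).injective
        (by rw [← hρ, ← hρ, map_mul, h1, one_mul])
    rw [EC.FrobTrace.charpoly_of_finrank_eq_two ρ₀.finrank_eq,
      EC.FrobTrace.charpoly_of_finrank_eq_two ρ₀.finrank_eq] at he
    have he' := congrArg (fun f => Polynomial.coeff f 1) he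
    simp [coeff_X_pow, coeff_C] at he'
    rw [sub_mul, one_mul, map_sub, sub_eq_zero]
    exact he'
  refine (curveRho_eq_one_iff hΔ σ).mp (sub_eq_zero.mp (eq_zero_of_trace_mul_eq_zero ρ₀ ?_
    (sub_one_sq_curveRho hΔ hW hv hvp hA hσ) htr))
  exact EC.Rep.baseChange_residualRep_isIrreducible hΔ hp2 hirr (ZMod p)

theorem dropAvoiding : DropAvoiding :=
  fun _ _ _ hΔ _ _ _ _ _ hr hsq hmod => congBelow_of_isAvoidingPrime hΔ hr hsq hmod

theorem ramifiedDvdLevel : RamifiedDvdLevel :=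
  fun _ _ _ hΔ hp2 hW hirr _ _ hv hvp _ hram hmod =>
    dvd_of_not_unramifiedAt hΔ hp2 hW hirr hmod hv hvp hram

end Fermat.Agent.RT.Lower

end
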