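import Fermat.Agent.RT.Lower.Defs
import Fermat.Agent.ConductorLevel.Raise

/-!
# Ribet's lowering for a squarefree level, from lowering to the ramified primes
-/

set_option autoImplicit false

noncomputable section

open WeierstrassCurve WeierstrassCurve.Affine WeierstrassCurve.Affine.Point

namespace Fermat.Agent.RT.Lower

/-- Residual modularity passes to squarefree multiples of the level. -/
theorem residuallyModular_raise {W : WeierstrassCurve ℤ} {p M L : ℕ} (hL : Squarefree L)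
    (hM : M ∣ L) (h : W.IsResiduallyModularOfLevel p M) : W.IsResiduallyModularOfLevel p L := by
  obtain ⟨f, 𝔪, hf, h𝔪, hp, hc⟩ := h
  obtain ⟨g, hg, hgf⟩ := ConductorLevel.exists_raise hL hM hf
  refine ⟨g, 𝔪, hg, h𝔪, hp, fun ℓ hℓ hgood hℓL hℓp => ?_⟩
  obtain ⟨a, ha, ha'⟩ := hc ℓ hℓ hgood (fun h => hℓL (h.trans hM)) hℓp
  exact ⟨a, ha.trans (hgf ℓ hℓ hℓL).symm, ha'⟩

/-- The statement of S38. -/
theorem lower_ribet (hlow : LowerToRamified)
    (p : ℕ) [Fact p.Prime] (hp2 : p ≠ 2) (W : WeierstrassCurve ℤ) (hΔ : W.Δ ≠ 0)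
    (hW : W.IsSemistableModel)
    (hcard₁ : Nat.card (Submodule.torsionBy ℤ
      ((W.map (Int.castRingHom ℚ))⁄(AlgebraicClosure ℚ)).Point p) = p ^ 2)
    (hker : GaloisFactorsThroughFiniteLevel
      (WeierstrassCurve.Affine.Point.galoisRepModuleEnd (K := AlgebraicClosure ℚ) ℚ
        (W.map (Int.castRingHom ℚ)) p))
    (hirr : W.ModRepIsIrreducible p) (M q : ℕ) (hq : q.Prime) (hqp : q ≠ p)
    (hqM : q ∣ M) (hM : Squarefree M)
    (hunr : ((W.map (Int.castRingHom ℚ)).residualGaloisRepOf p hcard₁ hker).IsUnramifiedAt q)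
    (hres : W.IsResiduallyModularOfLevel p M) :
    W.IsResiduallyModularOfLevel p (M / q) := by
  obtain ⟨M', hM', hres', hram⟩ := hlow W p hΔ hp2 hW hirr M hM hres
  have hq' : ¬ q ∣ M' := fun h => hram q hq h hqp hunr
  have hdvd : M' ∣ M / q := by
    have h : M' ∣ q * (M / q) := by rwa [Nat.mul_div_cancel' hqM]
    exact ((hq.coprime_iff_not_dvd.2 hq').symm).dvd_of_dvd_mul_left h
  exact residuallyModular_raise (hM.squarefree_of_dvd (Nat.div_dvd_of_dvd hqM)) hdvd hres'

end Fermat.Agent.RT.Lower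

end
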