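import Fermat.Agent.RT.Glue.FlatDescent
import Fermat.Agent.RT.Assembly.Entries
import Fermat.Agent.CFT.Tangent.BaseChange
import Fermat.Agent.CFT.Tangent.Dictionary
import Fermat.Agent.CFT.Tangent.LocalBounds
import Fermat.Agent.GaloisReps.PadicHom
import Fermat.Agent.Mazur.Eisenstein.Datum
import Fermat.Agent.Mazur.Eisenstein.CycInertia

/-!
# Descent of the conditions at `p` to a subalgebra

A cyclotomic determinant takes its values in the image of `ℤ_p`; flatness and strict ordinarity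
descend to a finite local subalgebra, the ordinary line being spanned by a column of `r τ - 1` for
an inertia element `τ` inverting the `p`-th roots of unity.
-/

set_option autoImplicit false
set_option linter.style.haveILetI false

noncomputable section

namespace Fermat.Agent.RT.Lower

open IsLocalRing Module Fermat.Agent.Deform Fermat.Agent.Arith

variable {p : ℕ} [Fact p.Prime]

/-- The cyclotomic character with values in a complete local ring of residue characteristic `p`. -/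
theorem exists_cycValues {O : Type} [CommRing O] [IsLocalRing O]
    [IsAdicComplete (maximalIdeal O) O] (hp : (p : O) ∈ maximalIdeal O) :
    ∃ c : Gal → O, ∀ (σ : Gal) (n a : ℕ), (∀ μ : QBar, μ ^ p ^ n = 1 → σ μ = μ ^ a) →
      c σ - (a : O) ∈ Ideal.span {((p ^ n : ℕ) : O)} := by
  obtain ⟨ι⟩ := GaloisReps.exists_padicHom O hp
  refine ⟨fun σ => ι (Mazur.Eisenstein.chi p σ : ℤ_[p]), fun σ n a ha => ?_⟩
  have h : (Mazur.Eisenstein.chi p σ : ℤ_[p]) - (a : ℤ_[p]) ∈
      RingHom.ker (PadicInt.toZModPow n : ℤ_[p] →+* ZMod (p ^ n)) := by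
    rw [RingHom.mem_ker, map_sub, map_natCast, Mazur.Eisenstein.toZModPow_chi_eq σ ha, sub_self]
  rw [PadicInt.ker_toZModPow, Ideal.mem_span_singleton] at h
  rw [Ideal.mem_span_singleton, ← map_natCast ι a, ← map_sub, Nat.cast_pow, ← map_natCast ι p,
    ← map_pow]
  exact map_dvd ι h

variable {A : Type} [CommRing A] [IsLocalRing A]

/-- A congruence with the cyclotomic character modulo every power of `p` is an equality. -/
theorem eq_mul_of_congr [IsNoetherianRing A] (hp : (p : A) ∈ maximalIdeal A) {c : Gal → A}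
    (hc : ∀ (σ : Gal) (n a : ℕ), (∀ μ : QBar, μ ^ p ^ n = 1 → σ μ = μ ^ a) →
      c σ - (a : A) ∈ Ideal.span {((p ^ n : ℕ) : A)}) {σ : Gal} {x z : A}
    (h : ∀ (n a : ℕ), (∀ μ : QBar, μ ^ p ^ n = 1 → σ μ = μ ^ a) →
      x - (a : A) * z ∈ Ideal.span {((p ^ n : ℕ) : A)}) :
    x = c σ * z := by
  refine sub_eq_zero.mp (Submodule.mem_bot A |>.mp ?_)
  rw [← Ideal.iInf_pow_eq_bot_of_isLocalRing (maximalIdeal A) (maximalIdeal.isMaximal A).ne_top]
  refine Submodule.mem_iInf _ |>.mpr fun n => ?_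
  haveI : NeZero (p ^ n) := ⟨pow_ne_zero _ (Fact.out : p.Prime).ne_zero⟩
  obtain ⟨a, ha⟩ := CFT.Tangent.exists_pow_eq_on_roots (p ^ n) σ
  have hle : Ideal.span {((p ^ n : ℕ) : A)} ≤ maximalIdeal A ^ n := by
    rw [Ideal.span_le, Set.singleton_subset_iff, SetLike.mem_coe, Nat.cast_pow]
    exact Ideal.pow_mem_pow hp n
  rw [show x - c σ * z = (x - (a : A) * z) - (c σ - (a : A)) * z by ring]
  exact sub_mem (hle (h n a ha)) (Ideal.mul_mem_right _ _ (hle (hc σ n a ha)))

omit [Fact p.Prime] in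
theorem det_toRep_apply {r : Gal →* M2 A} (hr : IsCont r) (σ : Gal) :
    LinearMap.det ((toRep r hr).ρ σ) = (r σ).det :=
  LinearMap.det_toLin' (r σ)

theorem det_eq_of_detIsCyclotomic [IsNoetherianRing A] {r : Gal →* M2 A} {hr : IsCont r}
    (h : (toRep r hr).DetIsCyclotomic p) {c : Gal → A}
    (hc : ∀ (σ : Gal) (n a : ℕ), (∀ μ : QBar, μ ^ p ^ n = 1 → σ μ = μ ^ a) →
      c σ - (a : A) ∈ Ideal.span {((p ^ n : ℕ) : A)}) (σ : Gal) : (r σ).det = c σ := by
  rw [eq_mul_of_congr h.1 hc (σ := σ) (x := (r σ).det) (z := 1) fun n a ha => ?_, mul_one]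
  rw [mul_one, ← det_toRep_apply hr]
  exact h.2 n σ a ha

/-! ### An injective local homomorphism `φ : S →+* A` -/

variable {S : Type} [CommRing S] [IsLocalRing S] (φ : S →+* A) [IsLocalHom φ]
  {r : Gal →* M2 S} (hr : IsCont r) (hrA : IsCont (mapM φ r))

include φ in
omit [IsLocalHom φ] in
theorem natCast_mem_of_map (a : ℕ) (h : (a : A) ∈ maximalIdeal A) : (a : S) ∈ maximalIdeal S :=
  fun hu => h (map_natCast φ a ▸ hu.map φ)

variable {φ}

omit [IsLocalHom φ] in
theorem detIsCyclotomic_of_injective [IsNoetherianRing A] (hinj : Function.Injective φ)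
    (h : (toRep (mapM φ r) hrA).DetIsCyclotomic p) {c : Gal → S}
    (hc : ∀ (σ : Gal) (n a : ℕ), (∀ μ : QBar, μ ^ p ^ n = 1 → σ μ = μ ^ a) →
      c σ - (a : S) ∈ Ideal.span {((p ^ n : ℕ) : S)}) : (toRep r hr).DetIsCyclotomic p := by
  refine ⟨natCast_mem_of_map φ p h.1, fun n σ a ha => ?_⟩
  have hdet : (r σ).det = c σ := hinj (by
    rw [RingHom.map_det]
    exact det_eq_of_detIsCyclotomic h (fun σ n a ha => by
      have := CFT.Tangent.map_mem_span_natCast φ (hc σ n a ha)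
      rwa [map_sub, map_natCast] at this) σ)
  rw [det_toRep_apply hr, hdet]
  exact hc σ n a ha

/-- Strict ordinarity descends. -/
theorem isStrictOrdinaryAt_of_injective [IsNoetherianRing A] (hinj : Function.Injective φ)
    (hp2 : p ≠ 2) (h : (toRep (mapM φ r) hrA).IsStrictOrdinaryAt p) {c : Gal → S}
    (hc : ∀ (σ : Gal) (n a : ℕ), (∀ μ : QBar, μ ^ p ^ n = 1 → σ μ = μ ^ a) →
      c σ - (a : S) ∈ Ideal.span {((p ^ n : ℕ) : S)}) : (toRep r hr).IsStrictOrdinaryAt p := by
  have hp : p.Prime := Fact.out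
  refine ⟨natCast_mem_of_map φ p h.1, fun P hP => ?_⟩
  obtain ⟨L, ⟨b, hb⟩, hD, hI, hxz⟩ : ∃ L : Submodule A (Fin 2 → A),
      (∃ b : Basis (Fin 2) A (Fin 2 → A), L = A ∙ b 0) ∧
      (∀ σ ∈ P.decompositionSubgroup ℚ, ∀ v ∈ L, (mapM φ r σ).mulVec v ∈ L) ∧
      (∀ σ ∈ P.inertiaSubgroupIn ℚ, ∀ v, (mapM φ r σ).mulVec v - v ∈ L) ∧
      (∀ σ ∈ P.decompositionSubgroup ℚ, ∃ x z : A,
        (∀ w ∈ L, (mapM φ r σ).mulVec w = x • w) ∧
        (∀ v, (mapM φ r σ).mulVec v - z • v ∈ L) ∧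
        ∀ (n a : ℕ), (∀ μ : QBar, μ ^ p ^ n = 1 → σ μ = μ ^ a) →
          x - (a : A) * z ∈ Ideal.span {((p ^ n : ℕ) : A)}) := h.2 P hP
  suffices ∃ LS : Submodule S (Fin 2 → S),
      (∃ b : Basis (Fin 2) S (Fin 2 → S), LS = S ∙ b 0) ∧
      (∀ σ ∈ P.decompositionSubgroup ℚ, ∀ v ∈ LS, (r σ).mulVec v ∈ LS) ∧
      (∀ σ ∈ P.inertiaSubgroupIn ℚ, ∀ v, (r σ).mulVec v - v ∈ LS) ∧
      (∀ σ ∈ P.decompositionSubgroup ℚ, ∃ x z : S,
        (∀ w ∈ LS, (r σ).mulVec w = x • w) ∧
        (∀ v, (r σ).mulVec v - z • v ∈ LS) ∧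
        ∀ (n a : ℕ), (∀ μ : QBar, μ ^ p ^ n = 1 → σ μ = μ ^ a) →
          x - (a : S) * z ∈ Ideal.span {((p ^ n : ℕ) : S)}) from this
  have hcA : ∀ (σ : Gal) (n a : ℕ), (∀ μ : QBar, μ ^ p ^ n = 1 → σ μ = μ ^ a) →
      φ (c σ) - (a : A) ∈ Ideal.span {((p ^ n : ℕ) : A)} := fun σ n a ha => by
    have := CFT.Tangent.map_mem_span_natCast φ (hc σ n a ha)
    rwa [map_sub, map_natCast] at this
  -- vectors
  let ι : (Fin 2 → S) → (Fin 2 → A) := fun v => φ ∘ v
  have hι : ∀ σ (v : Fin 2 → S), (mapM φ r σ).mulVec (ι v) = ι ((r σ).mulVec v) := fun σ v =>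
    funext fun i => (φ.map_mulVec (r σ) v i).symm
  -- an inertia element inverting the roots of unity
  obtain ⟨τ, hτ, hτζ⟩ := Mazur.Eisenstein.exists_inertia_inv hP hp 1
  have hτD : τ ∈ P.decompositionSubgroup ℚ := CFT.Tangent.inertia_le_decomposition P hτ
  obtain ⟨x, z, hx, hz, hcyc⟩ := hxz τ hτD
  have hb0L : b 0 ∈ L := hb ▸ Submodule.mem_span_singleton_self _
  have hrepr1 : ∀ w ∈ L, b.repr w 1 = 0 := fun w hw => by
    rw [hb] at hw
    obtain ⟨t, rfl⟩ := Submodule.mem_span_singleton.mp hw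
    simp
  have hz1 : z = 1 := by
    have h1 := hrepr1 _ (hz (b 1))
    have h2 := hrepr1 _ (hI τ hτ (b 1))
    simp only [map_sub, map_smul, Finsupp.sub_apply, Finsupp.smul_apply, Basis.repr_self,
      Finsupp.single_eq_same, smul_eq_mul, mul_one] at h1 h2
    linear_combination h2 - h1
  have hxu : IsUnit (x - 1) := by
    have hroots : ∀ μ : QBar, μ ^ p ^ 1 = 1 → τ μ = μ ^ (p - 1) := fun μ hμ => by
      have hμ0 : μ ≠ 0 := fun e => by
        rw [e, zero_pow (pow_ne_zero _ hp.ne_zero)] at hμ; exact zero_ne_one hμ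
      rw [hτζ μ hμ, pow_sub₀ μ hμ0 hp.one_le, pow_one μ, ← pow_one p, hμ, one_mul]
    have h1 := hcyc 1 (p - 1) hroots
    rw [hz1, mul_one, pow_one] at h1
    by_contra hu
    have h2 : x - 1 - (x - ((p - 1 : ℕ) : A)) ∈ maximalIdeal A :=
      sub_mem hu ((Ideal.span_le.mpr (Set.singleton_subset_iff.mpr h.1)) h1)
    rw [Nat.cast_sub hp.one_le, Nat.cast_one,
      show x - 1 - (x - ((p : A) - 1)) = (p : A) - ((2 : ℕ) : A) by push_cast; ring] at h2
    have h3 : ((2 : ℕ) : A) ∈ maximalIdeal A := by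
      simpa using sub_mem h.1 h2
    have hcop : IsCoprime ((2 : ℕ) : ℤ) (p : ℤ) :=
      Nat.isCoprime_iff_coprime.mpr ((Nat.coprime_primes Nat.prime_two hp).mpr (Ne.symm hp2))
    obtain ⟨u, v, huv⟩ := hcop
    have h4 : ((1 : ℤ) : A) ∈ maximalIdeal A := by
      rw [← huv]; push_cast
      exact add_mem (Ideal.mul_mem_left _ _ (by simpa using h3)) (Ideal.mul_mem_left _ _ h.1)
    rw [Int.cast_one] at h4
    exact h4 isUnit_one
  -- a column of `r τ - 1` with a unit entry
  set M : M2 S := r τ - 1 with hMdef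
  have hML : ∀ v : Fin 2 → S, ι (M.mulVec v) ∈ L := fun v => by
    have e : ι (M.mulVec v) = (mapM φ r τ).mulVec (ι v) - ι v := by
      refine Eq.trans ?_ (congrArg (· - ι v) (hι τ v).symm)
      funext i
      simp only [ι, hMdef, Matrix.sub_mulVec, Matrix.one_mulVec, Function.comp_apply, Pi.sub_apply, map_sub]
    exact e ▸ hI τ hτ _
  obtain ⟨i, j, hij⟩ : ∃ i j, IsUnit (M i j) := by
    by_contra hne
    push Not at hne
    have hmem : ∀ i, (x - 1) * b 0 i ∈ maximalIdeal A := fun i => by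
      have h1 := congrFun (hx _ hb0L) i
      have e : (x - 1) * b 0 i = ∑ l, φ (M i l) * b 0 l := by
        rw [sub_mul, one_mul, ← smul_eq_mul, ← Pi.smul_apply, ← h1]
        simp only [hMdef, Matrix.sub_apply, map_sub, sub_mul, Finset.sum_sub_distrib]
        congr 1
        simp [Matrix.one_apply]
      rw [e]
      exact sum_mem fun l _ => Ideal.mul_mem_right _ _ (map_nonunit φ _ (hne i l))
    have hb0m : ∀ i, b 0 i ∈ maximalIdeal A := fun i => by
      obtain ⟨u, hu⟩ := hxu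
      have := Ideal.mul_mem_left _ (↑u⁻¹ : A) (hmem i)
      rwa [← mul_assoc, ← hu, Units.inv_mul, one_mul] at this
    have h2 : b 0 ∈ maximalIdeal A • (⊤ : Submodule A (Fin 2 → A)) := by
      rw [CFT.Tangent.mem_ideal_smul_top_iff_repr (Pi.basisFun A (Fin 2))]
      simpa using hb0m
    have h3 := (CFT.Tangent.mem_ideal_smul_top_iff_repr b _ _).mp h2 0
    simp at h3
  set w : Fin 2 → S := fun l => M l j with hwdef
  obtain ⟨u, hu⟩ := hij
  have hwi : w i = u := hu.symm
  have hwL : ι w ∈ L := by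
    have := hML (Pi.single j 1)
    rwa [show M.mulVec (Pi.single j 1) = w from by rw [Matrix.mulVec_single_one]; rfl] at this
  -- the line over `S`
  have hspan : ∀ v : Fin 2 → S, ι v ∈ L → v = (v i * ↑u⁻¹) • w := fun v hv => by
    rw [hb] at hv hwL
    obtain ⟨s, hs⟩ := Submodule.mem_span_singleton.mp hv
    obtain ⟨t, ht⟩ := Submodule.mem_span_singleton.mp hwL
    funext l
    refine hinj ?_
    have e1 : ∀ k, φ (v k) = s * b 0 k := fun k => (congrFun hs k).symm
    have e2 : ∀ k, φ (w k) = t * b 0 k := fun k => (congrFun ht k).symm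
    have e3 : φ (↑u⁻¹ : S) * (t * b 0 i) = 1 := by
      rw [← e2 i, hwi, ← map_mul, Units.inv_mul, map_one]
    simp only [Pi.smul_apply, smul_eq_mul, map_mul, e1, e2]
    linear_combination -(s * b 0 l) * e3
  obtain ⟨k, hki⟩ : ∃ k : Fin 2, k ≠ i := ⟨i + 1, by fin_cases i <;> decide⟩
  let Pm : M2 S := Matrix.of fun a b' => if b' = 0 then w a else (if a = k then 1 else 0)
  have hPm : IsUnit Pm.det := by
    have hk2 : ∀ a : Fin 2, a ≠ k → a = i := fun a ha => by omega
    rcases Fin.exists_fin_two.mp ⟨k, rfl⟩ with e | e <;> subst e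
    · have hi : i = 1 := (hk2 1 (by decide)).symm
      subst hi
      simp [Matrix.det_fin_two, Pm, hwi]
    · have hi : i = 0 := (hk2 0 (by decide)).symm
      subst hi
      simp [Matrix.det_fin_two, Pm, hwi]
  let bS : Basis (Fin 2) S (Fin 2 → S) :=
    (Pi.basisFun S (Fin 2)).map (Matrix.toLinearEquiv' Pm (Pm.invertibleOfIsUnitDet hPm))
  have hbS : bS 0 = w := by
    funext l
    show Pm.mulVec (Pi.basisFun S (Fin 2) 0) l = w l
    rw [Pi.basisFun_apply, Matrix.mulVec_single_one]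
    simp [Pm]
  let LS : Submodule S (Fin 2 → S) := S ∙ bS 0
  have hmem : ∀ v : Fin 2 → S, ι v ∈ L → v ∈ LS := fun v hv =>
    Submodule.mem_span_singleton.mpr ⟨v i * ↑u⁻¹, by rw [hbS]; exact (hspan v hv).symm⟩
  have hofmem : ∀ v : Fin 2 → S, v ∈ LS → ι v ∈ L := fun v hv => by
    obtain ⟨s, hs⟩ := Submodule.mem_span_singleton.mp hv
    rw [hbS] at hs
    have e : ι v = φ s • ι w := funext fun l => by
      show φ (v l) = φ s * φ (w l)
      rw [← map_mul, ← congrFun hs l]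
      rfl
    exact e ▸ L.smul_mem _ hwL
  have hρ : ∀ σ (v : Fin 2 → S), ι ((r σ).mulVec v) = (mapM φ r σ).mulVec (ι v) :=
    fun σ v => (hι σ v).symm
  refine ⟨LS, ⟨bS, rfl⟩, fun σ hσ v hv => ?_, fun σ hσ v => ?_, fun σ hσ => ?_⟩
  · exact hmem _ (hρ σ v ▸ hD σ hσ _ (hofmem v hv))
  · refine hmem _ ?_
    have e : ι ((r σ).mulVec v - v) = (mapM φ r σ).mulVec (ι v) - ι v := by
      rw [← hρ]
      exact funext fun l => map_sub φ _ _
    exact e ▸ hI σ hσ _
  · obtain ⟨x, z, hx, hz, hcyc⟩ := hxz σ hσ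
    let e : Fin 2 → S := Pi.single k 1
    let g : Fin 2 → S := (r σ).mulVec e
    let zS : S := g k - g i * ↑u⁻¹ * w k
    have hzA : φ zS = z := by
      have h1 : ι g - z • ι e ∈ L := by
        rw [hρ]; exact hz _
      rw [hb] at h1 hwL
      obtain ⟨s, hs⟩ := Submodule.mem_span_singleton.mp h1
      obtain ⟨t, ht⟩ := Submodule.mem_span_singleton.mp hwL
      have a1 : s * b 0 i = φ (g i) := by
        have := congrFun hs i
        simpa [ι, e, Pi.single_eq_of_ne hki.symm] using this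
      have a2 : s * b 0 k = φ (g k) - z := by
        have := congrFun hs k
        simpa [ι, e] using this
      have a3 : t * b 0 i = φ (u : S) := hwi ▸ congrFun ht i
      have a4 : t * b 0 k = φ (w k) := congrFun ht k
      have a5 : φ (↑u⁻¹ : S) * φ (u : S) = 1 := by rw [← map_mul, Units.inv_mul, map_one]
      rw [map_sub, map_mul, map_mul, ← a1, ← a4]
      linear_combination (-(s * b 0 k)) * a5 - a2 -
        (φ (↑u⁻¹ : S) * s * b 0 k) * a3
    refine ⟨c σ * zS, zS, fun v hv => ?_, fun v => hmem _ ?_, fun n a ha => ?_⟩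
    · refine funext fun l => hinj ?_
      have h1 := congrFun ((hρ σ v).trans (hx _ (hofmem v hv))) l
      refine Eq.trans h1 ?_
      show x * φ (v l) = φ (c σ * zS * v l)
      rw [eq_mul_of_congr h.1 hcA hcyc, map_mul, map_mul, hzA]
    · have e' : ι ((r σ).mulVec v - zS • v) =
          (mapM φ r σ).mulVec (ι v) - z • ι v := by
        rw [← hρ, ← hzA]
        funext l
        show φ (_ - zS * v l) = φ _ - φ zS * φ _
        rw [map_sub, map_mul]
      exact e' ▸ hz _
    · rw [show c σ * zS - (a : S) * zS = (c σ - (a : S)) * zS by ring]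
      exact Ideal.mul_mem_right _ _ (hc σ n a ha)

omit [Fact p.Prime] in
/-- Flatness is invariant under equivalence. -/
theorem isFlatAt_congr {ρ ρ' : GaloisRepAdic A} (e : ρ.IsEquiv ρ') (h : ρ.IsFlatAt p) :
    ρ'.IsFlatAt p := by
  obtain ⟨e⟩ := e
  refine ⟨h.1, fun I hI => ?_⟩
  obtain ⟨H, instH, instHopf, h1, h2, h3, f, hf, hfσ⟩ := h.2 I hI
  let g := Submodule.Quotient.equiv (I • (⊤ : Submodule A ρ.V)) (I • (⊤ : Submodule A ρ'.V))
    e.toLinearEquiv (by rw [Submodule.map_smul'', Submodule.map_top, LinearEquiv.range])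
  refine ⟨H, instH, instHopf, h1, h2, h3, f.trans g.toEquiv, fun u v => ?_, fun σ u v huv => ?_⟩
  · show g (f (u * v)) = g (f u) + g (f v)
    rw [hf, map_add]
  · show g (f v) = ρ'.levelAction I σ (g (f u))
    rw [hfσ σ u v huv]
    obtain ⟨x, hx⟩ := Submodule.Quotient.mk_surjective _ (f u)
    rw [← hx]
    show Submodule.Quotient.mk (e.toLinearEquiv (ρ.ρ σ x)) =
      Submodule.Quotient.mk (ρ'.ρ σ (e.toLinearEquiv x))
    exact congrArg _ (e.map_apply σ x)

omit [Fact p.Prime] in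
/-- Flatness descends. -/
theorem isFlatAt_of_injective [IsNoetherianRing S] [IsNoetherianRing A]
    (hinj : Function.Injective φ) (hfin : φ.Finite) (h : (toRep (mapM φ r) hrA).IsFlatAt p) :
    (toRep r hr).IsFlatAt p :=
  Glue.isFlatAt_of_baseChange φ inferInstance hinj hfin _
    (isFlatAt_congr (isEquiv_symm (isEquiv_baseChangeAlong_toRep φ inferInstance r hr)) h)

end Fermat.Agent.RT.Lower
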