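import Fermat.Agent.FiniteFlat.ModelFlat
import Fermat.Agent.GaloisReps.Models
import Fermat.Agent.OrdinaryAtP.Flat.Strict
import Fermat.Agent.RT.Glue.Flat
import Fermat.Agent.RT.Glue.Inertia
import Fermat.Agent.RT.Glue.Ordinary
import Fermat.Agent.RT.Glue.Transfer

/-!
# The condition at `p` of the glued representation

If `p` does not divide the level all the models at the points have level prime to `p` and the
glued representation is flat at `p`. If `p` divides the level and no congruent system has the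
level without `p`, all points are new at `p`, their representations are strictly ordinary at `p`,
hence so is the glued one.
-/

set_option autoImplicit false
set_option linter.style.haveILetI false

noncomputable section

namespace Fermat.Agent.RT.Lower

open IsLocalRing Module CongruenceSubgroup
open GaloisReps (HeckeGaloisModel FullHecke ModelLevel heckeGaloisModel)
open Glue (KBar Point Glued)
open FiniteFlat (GalOrder)

variable {p : ℕ} [Fact p.Prime]

/-- The eigen-representations of newforms of level exactly divisible by `p` are strictly ordinary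
at `p`. -/
def StrictAtLevels (D : ∀ (M : ℕ) [NeZero M], HeckeGaloisModel M p) : Prop :=
  ∀ (M : ℕ) [NeZero M] (g : CuspForm (Gamma0 M) 2) (hg : g.IsNewform), p ∣ M → ¬ p ^ 2 ∣ M →
    ∀ (R : Type) [CommRing R] [IsDomain R] [IsDiscreteValuationRing R] [CharZero R]
      [IsAdicComplete (maximalIdeal R) R] [Finite (ResidueField R)] (ι : ℤ_[p] →+* R)
      (θ : FullHecke M →+* R) (hpR : (p : R) ∈ maximalIdeal R) (e : R →+* ℂ),
      (∀ t, e (θ t) = ConductorLevel.eigenChar hg.1 ∅ t) →
        ((D M).rep ι θ hpR).IsStrictOrdinaryAt p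

/-- The models of `J₀(M)` satisfy `StrictAtLevels` at an odd prime. -/
theorem strictAtLevels_heckeModel (hp2 : p ≠ 2) :
    StrictAtLevels (p := p) fun (M : ℕ) [NeZero M] => heckeGaloisModel M p :=
  fun M _ g hg hpM hp2M R _ _ _ _ _ _ ι θ hpR e he =>
    OrdinaryAtP.rep_isStrictOrdinaryAt_of_newform hp2 hpM hp2M hg ι θ
      (fun t ht => by rw [← he, ht, map_zero]) hpR

/-- The levels of the model of `J₀(M)` carry Galois orders at `p ∤ M`. -/
theorem nonempty_galOrder_heckeModel {M : ℕ} [NeZero M]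
    (hM : Mazur.Eisenstein.OrderProperty M) (hpM : ¬ p ∣ M) (k : ℕ) :
    Nonempty (GalOrder p (ModelLevel (heckeGaloisModel M p) k)) := by
  obtain ⟨X, a, b, -, i, OX, hi, hσ, hrange⟩ :=
    FiniteFlat.exists_galOrder_torsion hM (Fact.out : p.Prime) hpM k
  have hmem : ∀ x : GaloisReps.JTors M p k, (x : ModularCurve.JZero M) ∈ i.range := fun x =>
    hrange _ (AlgebraicCurve.Pic0.mem_torsion.mp x.2)
  choose j hj using hmem
  exact GaloisReps.nonempty_galOrder_modelLevel (GaloisReps.torsionIso M p (GaloisReps.conjProperty M))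
    (GaloisReps.torsionGalois M p (GaloisReps.congruenceProperty M p)) k
    (AddMonoidHom.mk' j fun x y => hi (by rw [map_add, hj, hj, hj]; rfl))
    (fun x y h => Subtype.ext (by rw [← hj x, ← hj y]; exact congrArg i h))
    (fun σ x => hi (by
      show i (j _) = i (σ • j x)
      rw [hσ, hj, hj]; rfl)) OX

variable {O : Type} [CommRing O] [IsDomain O] [IsDiscreteValuationRing O]
  [IsAdicComplete (maximalIdeal O) O] [Finite (ResidueField O)] [CharZero O]
  {L : ℕ} [NeZero L] {Δ : Type} [CommGroup Δ] [Finite Δ] {ψ : (ZMod L)ˣ →* Δ} {S : Finset ℕ}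
  {abar : ℕ → ResidueField O} (hp : (p : O) ∈ maximalIdeal O) (hΔ : IsPGroup p Δ)
  {H : HeckeModule L ψ S abar} {hS : ∀ q : ℕ, q.Prime → q ∣ L → q ∈ S}
  [IsLocalRing H.algebra] {D : ∀ (M : ℕ) [NeZero M], HeckeGaloisModel M p}
  {pt : ∀ θ : H.algebra →ₐ[O] KBar O, Point (p := p) H hS θ.toRingHom}

omit [IsLocalRing H.algebra] [NeZero L] [IsAdicComplete (maximalIdeal O) O]
  [Finite (ResidueField O)] [CharZero O] [Finite Δ] in
/-- The representation at a point has cyclotomic determinant. -/
theorem detIsCyclotomic_adicRep {θK : H.algebra →+* KBar O} (P : Point (p := p) H hS θK) :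
    (P.adicRep (D := D)).DetIsCyclotomic p := by
  refine ⟨P.p_mem, fun n σ a ha => ?_⟩
  rw [Ideal.mem_span_singleton, Nat.cast_pow]
  exact (D P.M).det_eigenAction_congr P.ι P.θ' P.p_mem ha

include hp hΔ in
/-- Level prime to `p`: flat. -/
theorem isFlatAt_of_not_dvd [IsLocalHom (algebraMap O H.algebra)]
    (hX : ∀ (M : ℕ) [NeZero M], ¬ p ∣ M → ∀ N, Nonempty (GalOrder p (ModelLevel (D M) N)))
    (G : Glued D pt) (hpL : ¬ p ∣ L) : G.rep.IsFlatAt p :=
  G.isFlatAt hp hΔ fun M _ N hM => hX M
    (fun h => hpL ((Fact.out : p.Prime).dvd_of_dvd_pow (h.trans hM))) N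

include hp hΔ in
/-- Level divisible by `p`, no congruent system of the level without `p`: strictly ordinary. -/
theorem isStrictOrdinaryAt_of_dvd (hp2 : p ≠ 2) (hB : StrictAtLevels D) (G : Glued D pt)
    (hpL : p ∣ L) (hncl : ¬ IsCongruentLevel S abar (L / p))
    (hψ : ∀ u : (ZMod L)ˣ, ((u : ZMod L).cast : ZMod (L / p)) = 1 → ψ u = 1) :
    G.rep.IsStrictOrdinaryAt p := by
  have hpt : ∀ θ, ((pt θ).adicRep (D := D)).IsStrictOrdinaryAt p := fun θ => by
    refine hB (pt θ).M (pt θ).g (pt θ).isNewform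
      (by_contra fun h => hncl ((pt θ).congruent p Fact.out hpL h))
      ((pt θ).sq_not_dvd Fact.out hpL fun u hu => by rw [hψ u hu, map_one, map_one])
      (pt θ).R (pt θ).ι (pt θ).θ' (pt θ).p_mem
      ((pt θ).emb.toRingHom.comp (pt θ).j) fun t => (pt θ).emb_θ' t
  have hspan : Submodule.span H.algebra (Set.range G.rep.ρ) = ⊤ := by
    have h := congrArg (Submodule.map (Matrix.toLinAlgEquiv' (R := H.algebra)
      (n := Fin 2)).toLinearEquiv.toLinearMap) G.span_eq_top
    rw [Submodule.map_span, ← Set.range_comp, Submodule.map_top, LinearEquiv.range] at h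
    exact h
  refine Glue.isStrictOrdinaryAt_of_points (O := O) G.rep (fun θ => (pt θ).adicRep (D := D)) hp hp2
    (G.detIsCyclotomic hp hΔ) hspan (f := fun θ => θ.toRingHom) (j := fun θ => (pt θ).j)
    (fun x hx => Glue.eq_zero_of_forall_point hx) (fun θ x => ?_)
    (fun θ σ => (G.trace_adicRep θ σ).symm) (fun θ σ => ?_)
    (fun θ => detIsCyclotomic_adicRep (pt θ)) hpt
  · exact (θ.commutes x).trans (RingHom.congr_fun (pt θ).j_algebraMap x).symm
  · show θ _ = _
    rw [G.det_rep, G.det_eq, (pt θ).det_rep D]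
    rfl

include hp hΔ in
/-- The condition at `p` in the patching levels. -/
theorem glued_atP [IsLocalHom (algebraMap O H.algebra)] (hp2 : p ≠ 2)
    (hord : ∀ (M : ℕ) [NeZero M], ¬ p ∣ M → Mazur.Eisenstein.OrderProperty M)
    {pt : ∀ θ : H.algebra →ₐ[O] KBar O, Point (p := p) H hS θ.toRingHom}
    (G : Glued (fun (M : ℕ) [NeZero M] => heckeGaloisModel M p) pt)
    (hB : StrictAtLevels (p := p) fun (M : ℕ) [NeZero M] => heckeGaloisModel M p)
    (hncl : p ∣ L → ¬ IsCongruentLevel S abar (L / p))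
    (hψ : p ∣ L → ∀ u : (ZMod L)ˣ, ((u : ZMod L).cast : ZMod (L / p)) = 1 → ψ u = 1) :
    G.rep.IsFlatAt p ∨ G.rep.IsStrictOrdinaryAt p := by
  by_cases hpL : p ∣ L
  · exact Or.inr (isStrictOrdinaryAt_of_dvd hp hΔ hp2 hB G hpL (hncl hpL) (hψ hpL))
  · exact Or.inl (isFlatAt_of_not_dvd hp hΔ
      (fun M _ hM N => nonempty_galOrder_heckeModel (hord M hM) hM N) G hpL)

end Fermat.Agent.RT.Lower
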