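import Mathlib.LinearAlgebra.Eigenspace.Pi
import Fermat.Agent.Newforms.Semisimple

/-!
# A bound for the forms with a good eigensystem, by the main lemma of Atkin and Lehner

If every newform of level dividing the squarefree `L` whose system away from `S` lies in `P` has
level dividing `L₀`, the forms of level `L` with system in `P` span a space whose dimension is
bounded in terms of `L₀` and the number of primes of `L` only.
-/

set_option autoImplicit false
set_option linter.style.haveILetI false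

noncomputable section

open CongruenceSubgroup ModularFormClass
open Fermat.Agent.Newforms

namespace Fermat.Agent.RT.Lower

/-- The primes outside `S`. -/
abbrev GoodIdx (S : Finset ℕ) : Type := {ℓ : ℕ // ℓ.Prime ∧ ℓ ∉ S}

/-- Forms of level `N` with a given system away from `S`. -/
def sysSpace (N : ℕ) [NeZero N] (S : Finset ℕ) (lam : GoodIdx S → ℂ) :
    Submodule ℂ (CuspForm (Gamma0 N) 2) :=
  ⨅ s : GoodIdx S, Module.End.eigenspace (hOp N s.2.1) (lam s)

/-- The span of the forms with a system in `P`. -/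
def sysSup (N : ℕ) [NeZero N] (S : Finset ℕ) (P : Set (GoodIdx S → ℂ)) :
    Submodule ℂ (CuspForm (Gamma0 N) 2) :=
  ⨆ lam ∈ P, sysSpace N S lam

variable {N : ℕ} [NeZero N] {S : Finset ℕ}

theorem mem_sysSpace {lam : GoodIdx S → ℂ} {f : CuspForm (Gamma0 N) 2} :
    f ∈ sysSpace N S lam ↔ ∀ s : GoodIdx S, hOp N s.2.1 f = lam s • f := by
  simp [sysSpace, Submodule.mem_iInf]

theorem mem_sysSup_of_eigen {P : Set (GoodIdx S → ℂ)} {lam : GoodIdx S → ℂ} (hP : lam ∈ P)
    {f : CuspForm (Gamma0 N) 2} (hf : ∀ s : GoodIdx S, hOp N s.2.1 f = lam s • f) :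
    f ∈ sysSup N S P :=
  Submodule.mem_iSup_of_mem lam (Submodule.mem_iSup_of_mem hP (mem_sysSpace.2 hf))

theorem iSupIndep_sysSpace : iSupIndep (sysSpace N S) := by
  refine (Module.End.independent_iInf_maxGenEigenspace_of_forall_mapsTo
    (fun s : GoodIdx S => hOp N s.2.1) fun i j φ =>
      Module.End.mapsTo_maxGenEigenspace_of_comm (hOp_commute j.2.1 i.2.1) φ).mono fun lam => ?_
  exact iInf_mono fun s => Module.End.eigenspace_le_maxGenEigenspace

theorem disjoint_sysSup (P : Set (GoodIdx S → ℂ)) :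
    Disjoint (sysSup N S P) (sysSup N S Pᶜ) :=
  iSupIndep_sysSpace.disjoint_biSup_biSup disjoint_compl_right

/-- Every eigenvector of all `T_ℓ`, `ℓ ∤ N`, has a system away from `S`. -/
theorem mem_sysSup_or_compl (hS : ∀ q : ℕ, q.Prime → q ∣ N → q ∈ S) (P : Set (GoodIdx S → ℂ))
    {v : CuspForm (Gamma0 N) 2}
    (hv : ∀ ℓ (hℓ : ℓ.Prime), ¬ ℓ ∣ N → ∃ c : ℂ, hOp N hℓ v = c • v) :
    v ∈ sysSup N S P ∨ v ∈ sysSup N S Pᶜ := by
  choose c hc using fun s : GoodIdx S => hv s.1 s.2.1 fun h => s.2.2 (hS _ s.2.1 h)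
  by_cases hP : c ∈ P
  · exact Or.inl (mem_sysSup_of_eigen hP hc)
  · exact Or.inr (mem_sysSup_of_eigen hP hc)

/-- An element of `sysSup P` which is a combination of good and bad vectors is a combination of
the good ones. -/
theorem mem_of_mem_sup_compl {P : Set (GoodIdx S → ℂ)} {x : CuspForm (Gamma0 N) 2}
    (hx : x ∈ sysSup N S P) {A B : Submodule ℂ (CuspForm (Gamma0 N) 2)}
    (hA : A ≤ sysSup N S P) (hB : B ≤ sysSup N S Pᶜ) (h : x ∈ A ⊔ B) : x ∈ A := by
  obtain ⟨a, ha, b, hb, rfl⟩ := Submodule.mem_sup.1 h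
  have hb0 : b = 0 := Submodule.disjoint_def.1 (disjoint_sysSup P) b
    (by simpa using sub_mem hx (hA ha)) (hB hb)
  simpa [hb0] using ha

/-- The eigenvectors of all `T_ℓ`, `ℓ ∤ N`. -/
def eigenVecs (N : ℕ) [NeZero N] : Set (CuspForm (Gamma0 N) 2) :=
  {f | ∀ ℓ (hℓ : ℓ.Prime), ¬ ℓ ∣ N → ∃ c : ℂ, hOp N hℓ f = c • f}

theorem sysSup_le_span (hS : ∀ q : ℕ, q.Prime → q ∣ N → q ∈ S) (P : Set (GoodIdx S → ℂ)) :
    sysSup N S P ≤ Submodule.span ℂ (eigenVecs N ∩ sysSup N S P) := fun x hx => by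
  refine mem_of_mem_sup_compl hx (A := Submodule.span ℂ (eigenVecs N ∩ sysSup N S P))
    (B := Submodule.span ℂ (eigenVecs N ∩ sysSup N S Pᶜ))
    (Submodule.span_le.2 fun _ h => h.2) (Submodule.span_le.2 fun _ h => h.2) ?_
  have htop : x ∈ Submodule.span ℂ (eigenVecs N) :=
    (Newforms.span_eigenvectors_eq_top (N := N)).symm ▸ Submodule.mem_top
  rw [← Submodule.span_union, ← Set.inter_union_distrib_left]
  refine Submodule.span_mono (fun v hv => Set.mem_inter hv ?_) htop
  exact mem_sysSup_or_compl hS P hv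

theorem levelRaise_mem_sysSpace (hS : ∀ q : ℕ, q.Prime → q ∣ N → q ∈ S) {d M : ℕ} [NeZero M]
    (h : d * M ∣ N) {lam : GoodIdx S → ℂ} {f : CuspForm (Gamma0 M) 2}
    (hf : f ∈ sysSpace M S lam) : levelRaise d h f ∈ sysSpace N S lam := by
  rw [mem_sysSpace] at hf ⊢
  intro s
  have hsN : ¬ s.1 ∣ N := fun hc => s.2.2 (hS _ s.2.1 hc)
  rw [hOp_levelRaise s.2.1 h (fun hc => hsN (hc.trans ((dvd_mul_right d M).trans h)))
      ⟨fun hc => absurd hc hsN, fun hc => hc.trans ((dvd_mul_left M d).trans h)⟩, hf, map_smul]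

theorem levelRaise_mem_sysSup (hS : ∀ q : ℕ, q.Prime → q ∣ N → q ∈ S) {d M : ℕ} [NeZero M]
    (h : d * M ∣ N) {P : Set (GoodIdx S → ℂ)} {f : CuspForm (Gamma0 M) 2}
    (hf : f ∈ sysSup M S P) : levelRaise d h f ∈ sysSup N S P := by
  have hle : (sysSup M S P).map (levelRaise d h) ≤ sysSup N S P := by
    rw [sysSup, Submodule.map_iSup]
    refine iSup_le fun lam => ?_
    rw [Submodule.map_iSup]
    refine iSup_le fun hlam => ?_
    rintro _ ⟨g, hg, rfl⟩
    exact Submodule.mem_iSup_of_mem lam (Submodule.mem_iSup_of_mem hlam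
      (levelRaise_mem_sysSpace hS h hg))
  exact hle (Submodule.mem_map_of_mem hf)

/-- The coefficients at the indices prime to `N`. -/
def coprimeCoeff (N M : ℕ) [NeZero M] : CuspForm (Gamma0 M) 2 →ₗ[ℂ] (ℕ → ℂ) :=
  LinearMap.pi fun n => if n.Coprime N then coeffLin n else 0

theorem coprimeCoeff_apply {N M : ℕ} [NeZero M] (f : CuspForm (Gamma0 M) 2) (n : ℕ) :
    coprimeCoeff N M f n = if n.Coprime N then qCoeff f n else 0 := by
  rw [coprimeCoeff, LinearMap.pi_apply]
  split_ifs <;> rfl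

/-- The sum of the dimensions at the divisors of `L₀`. -/
def newBound (L₀ : ℕ) : ℕ :=
  ∑ M ∈ L₀.divisors, Module.finrank ℂ (CuspForm (Gamma0 M) 2)

/-- The bound for a level with `k` primes. -/
def rankBoundAux (n₀ : ℕ) : ℕ → ℕ
  | 0 => n₀
  | k + 1 => n₀ + (k + 1) * rankBoundAux n₀ k

variable {L₀ L : ℕ} {P : Set (GoodIdx S → ℂ)}

theorem finrank_map_coprimeCoeff_le [NeZero L₀] (hS : ∀ q : ℕ, q.Prime → q ∣ N → q ∈ S)
    (hNL : N ∣ L)
    (hP : ∀ lam ∈ P, ∀ (M : ℕ) (g : CuspForm (Gamma0 M) 2), g.IsNewform → M ∣ L →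
      (∀ s : GoodIdx S, qCoeff g s.1 = lam s) → M ∣ L₀) :
    Module.finrank ℂ ((sysSup N S P).map (coprimeCoeff N N)) ≤ newBound L₀ := by
  classical
  have hne : ∀ M : {M // M ∈ L₀.divisors}, NeZero (M : ℕ) :=
    fun M => ⟨(Nat.pos_of_mem_divisors M.2).ne'⟩
  have hfd : ∀ M : {M // M ∈ L₀.divisors}, FiniteDimensional ℂ (CuspForm (Gamma0 (M : ℕ)) 2) :=
    fun M => IntegralStructure.finiteDimensional_cuspForm _
  let T : (∀ M : {M // M ∈ L₀.divisors}, CuspForm (Gamma0 M.1) 2) →ₗ[ℂ] (ℕ → ℂ) :=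
    ∑ M : {M // M ∈ L₀.divisors}, (coprimeCoeff N (M : ℕ)).comp (LinearMap.proj M)
  have hle : (sysSup N S P).map (coprimeCoeff N N) ≤ LinearMap.range T := by
    refine (Submodule.map_mono (sysSup_le_span hS P)).trans ?_
    rw [Submodule.map_span_le]
    rintro v ⟨hv, hvP⟩
    rcases eq_or_ne v 0 with rfl | hv0
    · rw [map_zero]; exact zero_mem _
    choose! c hc using hv
    -- the system of `v` is good
    have hgood : (fun s : GoodIdx S => c s.1) ∈ P := by
      by_contra hn
      exact hv0 (Submodule.disjoint_def.1 (disjoint_sysSup P) v hvP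
        (mem_sysSup_of_eigen hn fun s => hc s.1 s.2.1 fun h => s.2.2 (hS _ s.2.1 h)))
    obtain ⟨f, hf, hfc⟩ := exists_eigenform_of_eigen hv0 (fun ℓ => ¬ ℓ ∣ N) c
      fun ℓ hℓ hℓN => hc ℓ hℓ hℓN
    obtain ⟨M, g, hMN, hg, hgc⟩ := exists_newform hf
    have hgs : ∀ ℓ, ℓ.Prime → ¬ ℓ ∣ N → qCoeff g ℓ = c ℓ := fun ℓ hℓ hℓN =>
      (hgc ℓ hℓ hℓN).trans (hfc ℓ hℓ hℓN)
    have hM0 : M ∈ L₀.divisors := Nat.mem_divisors.2
      ⟨hP _ hgood M g hg (hMN.trans hNL) fun s =>
        hgs s.1 s.2.1 fun h => s.2.2 (hS _ s.2.1 h), NeZero.ne L₀⟩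
    haveI : NeZero M := ⟨(Nat.pos_of_mem_divisors hM0).ne'⟩
    refine ⟨Pi.single ⟨M, hM0⟩ (qCoeff v 1 • g), ?_⟩
    rw [show T _ = _ from LinearMap.sum_apply _ _ _, Finset.sum_eq_single ⟨M, hM0⟩
      (fun M' _ hM' => by rw [LinearMap.comp_apply, LinearMap.proj_apply,
        Pi.single_eq_of_ne hM', map_zero]) (fun h => absurd (Finset.mem_univ _) h),
      LinearMap.comp_apply, LinearMap.proj_apply, Pi.single_eq_same]
    funext n
    rw [coprimeCoeff_apply, coprimeCoeff_apply]
    split_ifs with hn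
    swap
    · rfl
    have hu : ∀ ℓ (hℓ : ℓ.Prime), ¬ ℓ ∣ N →
        hOp N hℓ (v - qCoeff v 1 • levelIncl hMN g) =
          c ℓ • (v - qCoeff v 1 • levelIncl hMN g) := fun ℓ hℓ hℓN => by
      rw [map_sub, map_smul, hOp_levelIncl hℓ hMN
          ⟨fun h => absurd h hℓN, fun h => h.trans hMN⟩ g,
        hOp_of_isNormalizedEigenform hg.1 hℓ, hgs ℓ hℓ hℓN, map_smul, hc ℓ hℓ hℓN, smul_sub,
        smul_comm (qCoeff v 1)]
    have hz := qCoeff_eq_zero_of_coprime hu
      (by rw [← coeffLin_apply, map_sub, map_smul, coeffLin_apply, coeffLin_apply,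
        qCoeff_levelIncl, hg.1.qCoeff_one, smul_eq_mul, mul_one, sub_self]) n hn
    rw [← coeffLin_apply, map_sub, map_smul, coeffLin_apply, coeffLin_apply, qCoeff_levelIncl,
      sub_eq_zero] at hz
    rw [qCoeff_smul, hz, smul_eq_mul]
  refine (Submodule.finrank_mono hle).trans ((LinearMap.finrank_range_le T).trans (le_of_eq ?_))
  rw [Module.finrank_pi_fintype, newBound]
  exact Finset.sum_attach L₀.divisors fun M => Module.finrank ℂ (CuspForm (Gamma0 M) 2)

/-- **The bound.** -/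
theorem finrank_sysSup_le [NeZero L₀] (hsq : Squarefree L)
    (hS : ∀ q : ℕ, q.Prime → q ∣ L → q ∈ S)
    (hP : ∀ lam ∈ P, ∀ (M : ℕ) (g : CuspForm (Gamma0 M) 2), g.IsNewform → M ∣ L →
      (∀ s : GoodIdx S, qCoeff g s.1 = lam s) → M ∣ L₀) :
    ∀ (k N : ℕ) [NeZero N], N ∣ L → N.primeFactors.card = k →
      Module.finrank ℂ (sysSup N S P) ≤ rankBoundAux (newBound L₀) k := by
  classical
  intro k
  induction k with
  | zero =>
    intro N _ hNL hk
    haveI := IntegralStructure.finiteDimensional_cuspForm N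
    have hN : N = 1 := by
      rw [← Nat.prod_primeFactors_of_squarefree (hsq.squarefree_of_dvd hNL),
        Finset.card_eq_zero.1 hk, Finset.prod_empty]
    refine le_trans ?_ (finrank_map_coprimeCoeff_le (fun q hq h => hS q hq (h.trans hNL)) hNL hP)
    have hinj : Function.Injective (coprimeCoeff N N) := fun f g h =>
      eq_of_forall_qCoeff fun n => by
        have := congrFun h n
        rw [coprimeCoeff_apply, coprimeCoeff_apply] at this
        have hn : n.Coprime N := by rw [hN]; exact Nat.coprime_one_right n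
        rwa [if_pos hn, if_pos hn] at this
    exact le_of_eq (Submodule.equivMapOfInjective _ hinj _).finrank_eq
  | succ k ih =>
    intro N _ hNL hk
    haveI := IntegralStructure.finiteDimensional_cuspForm N
    have hSN : ∀ q : ℕ, q.Prime → q ∣ N → q ∈ S := fun q hq h => hS q hq (h.trans hNL)
    set W := sysSup N S P
    have hd : ∀ p : {p // p ∈ N.primeFactors}, NeZero (N / (p : ℕ)) := fun p =>
      ⟨(Nat.div_pos (Nat.le_of_dvd (Nat.pos_of_ne_zero (NeZero.ne N))
        (Nat.dvd_of_mem_primeFactors p.2)) (Nat.prime_of_mem_primeFactors p.2).pos).ne'⟩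
    have : ∀ p : {p // p ∈ N.primeFactors},
        FiniteDimensional ℂ (CuspForm (Gamma0 (N / (p : ℕ))) 2) := fun p =>
      IntegralStructure.finiteDimensional_cuspForm _
    let T : (∀ p : {p // p ∈ N.primeFactors}, sysSup (N / (p : ℕ)) S P) →ₗ[ℂ]
        CuspForm (Gamma0 N) 2 := ∑ p : {p // p ∈ N.primeFactors},
      ((levelRaise (p : ℕ) (Nat.mul_div_cancel' (Nat.dvd_of_mem_primeFactors p.2)).dvd).comp
        (Submodule.subtype _)).comp (LinearMap.proj p)
    have hker : W ⊓ LinearMap.ker (coprimeCoeff N N) ≤ LinearMap.range T := by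
      rintro x ⟨hxW, hx0⟩
      obtain ⟨u, hu⟩ := exists_eq_sum_levelRaise x fun n hn => by
        have := congrFun (LinearMap.mem_ker.1 hx0) n
        rwa [coprimeCoeff_apply, if_pos hn] at this
      let B : Submodule ℂ (CuspForm (Gamma0 N) 2) := sysSup N S Pᶜ
      have hT : ∀ (p : {p // p ∈ N.primeFactors}) (y : sysSup (N / (p : ℕ)) S P),
          levelRaise (p : ℕ) (Nat.mul_div_cancel' (Nat.dvd_of_mem_primeFactors p.2)).dvd
            (y : CuspForm (Gamma0 (N / (p : ℕ))) 2) ∈ LinearMap.range T := fun p y => by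
        refine ⟨Pi.single p y, ?_⟩
        rw [show T _ = _ from LinearMap.sum_apply _ _ _, Finset.sum_eq_single p
          (fun p' _ hp' => by rw [LinearMap.comp_apply, LinearMap.proj_apply,
            Pi.single_eq_of_ne hp', map_zero]) (fun h => absurd (Finset.mem_univ _) h),
          LinearMap.comp_apply, LinearMap.proj_apply, Pi.single_eq_same]
        rfl
      have hTW : LinearMap.range T ≤ W := by
        rintro _ ⟨y, rfl⟩
        rw [show T y = _ from LinearMap.sum_apply _ _ _]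
        exact sum_mem fun p _ => levelRaise_mem_sysSup hSN
          (Nat.mul_div_cancel' (Nat.dvd_of_mem_primeFactors p.2)).dvd (y p).2
      refine mem_of_mem_sup_compl hxW hTW (le_refl B) ?_
      rw [hu]
      refine sum_mem fun p _ => ?_
      have hSp : ∀ q : ℕ, q.Prime → q ∣ N / (p : ℕ) → q ∈ S := fun q hq h =>
        hSN q hq (h.trans (Nat.div_dvd_of_dvd (Nat.dvd_of_mem_primeFactors p.2)))
      have htop : u p ∈ Submodule.span ℂ (eigenVecs (N / (p : ℕ))) :=
        (Newforms.span_eigenvectors_eq_top (N := N / (p : ℕ))).symm ▸ Submodule.mem_top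
      have hle : Submodule.span ℂ (eigenVecs (N / (p : ℕ))) ≤
          (LinearMap.range T ⊔ B).comap
            (levelRaise (p : ℕ) (Nat.mul_div_cancel' (Nat.dvd_of_mem_primeFactors p.2)).dvd) := by
        refine Submodule.span_le.2 fun v hv => ?_
        rcases mem_sysSup_or_compl hSp P hv with h | h
        · exact Submodule.mem_sup_left (hT p ⟨v, h⟩)
        · exact Submodule.mem_sup_right
            (levelRaise_mem_sysSup hSN _ h)
      exact hle htop
    have h1 := LinearMap.finrank_range_add_finrank_ker ((coprimeCoeff N N).domRestrict W)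
    rw [LinearMap.range_domRestrict, LinearMap.ker_domRestrict,
      (Submodule.equivSubtypeMap W _).finrank_eq, Submodule.map_comap_subtype] at h1
    have h2 : Module.finrank ℂ ↥(W ⊓ LinearMap.ker (coprimeCoeff N N)) ≤
        (k + 1) * rankBoundAux (newBound L₀) k := by
      refine (Submodule.finrank_mono hker).trans ((LinearMap.finrank_range_le T).trans ?_)
      rw [Module.finrank_pi_fintype]
      refine (Finset.sum_le_card_nsmul _ _ (rankBoundAux (newBound L₀) k) fun p _ => ?_).trans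
        (le_of_eq (by rw [Finset.card_univ, Fintype.card_coe, hk, smul_eq_mul]))
      have hp := Nat.prime_of_mem_primeFactors p.2
      have hpd := Nat.dvd_of_mem_primeFactors p.2
      refine ih _ ((Nat.div_dvd_of_dvd hpd).trans hNL) ?_
      have hco : ¬ (p : ℕ) ∣ N / (p : ℕ) := fun h => hp.not_isUnit
        ((hsq.squarefree_of_dvd hNL) _ ((Nat.dvd_div_iff_mul_dvd hpd).1 h))
      have hpf : N.primeFactors = insert (p : ℕ) (N / (p : ℕ)).primeFactors := by
        conv_lhs => rw [← Nat.mul_div_cancel' hpd]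
        rw [Nat.primeFactors_mul hp.ne_zero (NeZero.ne _), hp.primeFactors, Finset.insert_eq]
      rw [hpf, Finset.card_insert_of_notMem fun h => hco (Nat.dvd_of_mem_primeFactors h)] at hk
      omega
    have h3 : Module.finrank ℂ ↥(W.map (coprimeCoeff N N)) ≤ newBound L₀ :=
      finrank_map_coprimeCoeff_le hSN hNL hP
    show Module.finrank ℂ W ≤ newBound L₀ + (k + 1) * rankBoundAux (newBound L₀) k
    omega

end Fermat.Agent.RT.Lower
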