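import Mathlib.LinearAlgebra.Eigenspace.Triangularizable
import Fermat.Agent.RT.GammaH.Lattice
import Fermat.Agent.RT.GammaH.Embed
import Fermat.Agent.RT.GammaH.Residual
import Fermat.Agent.RT.Lower.RankBound

/-!
# The localised module of `Γ₀(L)` against the congruent forms of level `L`

Its rank is at most twice the dimension of the span of the forms whose system reduces to the
residual one (Eichler–Shimura), hence bounded by the main lemma in terms of a divisor `L₀` containing
the levels of all congruent newforms and the number of primes of `L`.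
-/

set_option autoImplicit false
set_option linter.style.haveILetI false

noncomputable section

open CongruenceSubgroup UpperHalfPlane ModularFormClass MvPolynomial IsLocalRing
open ModularCurve.Period
open scoped MatrixGroups ModularForm ComplexConjugate

namespace Fermat.Agent.RT.Lower

open Fermat.Agent.RT.GammaH
open Fermat.Agent.Periods.Congruence (per perLin)
open Fermat.Agent.Newforms (hOp)

variable {L : ℕ} [NeZero L]

/-- A form on `Γ_⊤` as a form on `Γ₀`. -/
def ofFormH (f : FormH L (⊤ : Subgroup (ZMod L)ˣ)) : CuspForm (Gamma0 L) 2 :=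
  Newforms.mkCusp (⇑f : ℍ → ℂ)
    (fun γ hγ => cuspForm_slash_eq_self f (by rw [gammaH_top]; exact hγ))
    (isCuspFn_formH f)

theorem toFormH_ofFormH (f : FormH L (⊤ : Subgroup (ZMod L)ˣ)) : toFormH (ofFormH f) = f :=
  DFunLike.coe_injective rfl

theorem heckeForm_toFormH' (h : CuspForm (Gamma0 L) 2) (q : ℕ) [hq : Fact q.Prime] :
    heckeForm q (toFormH (K := (⊤ : Subgroup (ZMod L)ˣ)) h) = toFormH (hOp L hq.out h) := by
  refine formH_ext fun n => ?_
  rw [qCoeff_heckeForm (isChiForm_toFormH h)]
  have hw : nebWeight (toDir (1 : (ZMod L)ˣ →* ℂˣ)) q = HeckeDuality.eulerWeight L q := by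
    rw [nebWeight, HeckeDuality.eulerWeight]
    by_cases hd : q ∣ L
    · have h0 : ¬ IsUnit ((q : ℕ) : ZMod L) := fun hu =>
        ((Nat.Prime.coprime_iff_not_dvd hq.out).1 ((ZMod.isUnit_iff_coprime _ _).1 hu)) hd
      rw [if_pos hd, MulChar.map_nonunit _ h0, zero_mul]
    · have hu := (ZMod.isUnit_iff_coprime q L).2 ((Nat.Prime.coprime_iff_not_dvd hq.out).2 hd)
      rw [if_neg hd, ← hu.unit_spec, toDir_coe, MonoidHom.one_apply, Units.val_one, one_mul]
  rw [seqOp, hw]
  exact (HeckeDuality.coeff_heckeOp hq.out h n).symm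

variable {O : Type} [CommRing O] [IsLocalRing O] [Algebra O ℂ]
  (red : integralClosure O ℂ →+* AlgebraicClosure (ResidueField O))
  (S : Finset ℕ) (abar : ℕ → ResidueField O)

/-- The systems away from `S` reducing to `abar`. -/
def congSystems : Set (GoodIdx S → ℂ) :=
  {lam | ∀ s : GoodIdx S, ∃ z : integralClosure O ℂ,
    (z : ℂ) = lam s ∧ red z = algebraMap (ResidueField O) _ (abar s.1)}

variable {red S abar}

/-- A form with a system in `congSystems` is congruent to `abar`. -/
theorem isCongruentForm_of_mem {M : ℕ} {g : CuspForm (Gamma0 M) 2} (hg : g.IsNormalizedEigenform)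
    {lam : GoodIdx S → ℂ} (hlam : lam ∈ congSystems red S abar)
    (h : ∀ s : GoodIdx S, qCoeff g s.1 = lam s) : IsCongruentForm S abar g := by
  let incl : integralClosure ℤ ℂ →+* integralClosure O ℂ :=
    (integralClosure ℤ ℂ).val.toRingHom.codRestrict (integralClosure O ℂ)
      fun x => (x.2 : IsIntegral ℤ (x : ℂ)).tower_top
  refine ⟨hg, red.comp incl, fun ℓ hℓ hℓS a ha => ?_⟩
  obtain ⟨z, hz, hzr⟩ := hlam ⟨ℓ, hℓ, hℓS⟩
  rw [RingHom.comp_apply, show incl a = z from Subtype.ext (ha.trans ((h ⟨ℓ, hℓ, hℓS⟩).trans hz.symm))]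
  exact hzr

variable [IsDomain O] [IsPrincipalIdealRing O]

set_option maxHeartbeats 1000000 in
/-- **Eichler–Shimura bound.** -/
theorem finrank_localPart_le (hinj : Function.Injective (algebraMap O ℂ))
    (hred : ∀ c : O, red (algebraMap O (integralClosure O ℂ) c) =
      algebraMap (ResidueField O) _ (residue O c))
    (hsq : Squarefree L) (hS : ∀ v : ℕ, v.Prime → v ∣ L → v ∈ S)
    (hEis : ∃ ℓ : ℕ, ℓ.Prime ∧ ℓ ∉ S ∧ abar ℓ ≠ 1 + (ℓ : ResidueField O))
    {e : OpRing O L S}
    (he : IsLocalizer (resIdeal S abar L) (HomMod O S (⊤ : Subgroup (ZMod L)ˣ) O) e) :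
    Module.finrank O (localPart O e (HomMod O S (⊤ : Subgroup (ZMod L)ˣ) O)) ≤
      2 * Module.finrank ℂ (sysSup L S (congSystems red S abar)) := by
  classical
  set K : Subgroup (ZMod L)ˣ := ⊤
  set H := HomMod O S K O
  set N := localPart O e H
  have hneg : -1 ∈ K := Subgroup.mem_top _
  have hodd : Odd (Nat.card ((ZMod L)ˣ ⧸ K)) := by
    rw [show Nat.card ((ZMod L)ˣ ⧸ K) = 1 from Subgroup.index_top]
    exact odd_one
  have : FaithfulSMul O ℂ := (faithfulSMul_iff_algebraMap_injective O ℂ).2 hinj
  obtain ⟨ℓ, hℓ, hℓS, hℓ'⟩ := hEis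
  obtain ⟨P, hP, hpar⟩ :=
    exists_parabolicOp (K := K) S abar hsq hneg hℓ hℓS (fun h => hℓS (hS ℓ hℓ h)) hℓ'
  set bs := Module.Free.chooseBasis O N
  set v : Module.Free.ChooseBasisIndex O N → HomC K := fun i => toHomC (bs i : H) with hv
  have hli : LinearIndependent ℂ v :=
    linearIndependent_coeff (R := O) (T := ℂ) (y := fun i => toHomMod.symm (bs i : H))
      ((bs.linearIndependent.map' N.subtype N.ker_subtype).map' toHomMod.symm.toLinearMap
        (LinearEquiv.ker _))
  set U := Submodule.span ℂ (Set.range v)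
  have hUd : Module.finrank ℂ U = Module.finrank O N :=
    (finrank_span_eq_card hli).trans (Module.finrank_eq_card_basis bs).symm
  -- the span is parabolic and stable
  have hUpar : U ≤ parabolicHoms ℂ (gammaH L K) ℂ := by
    refine Submodule.span_le.2 ?_
    rintro _ ⟨i, rfl⟩
    obtain ⟨t', ht'⟩ := he.invert P hP
    have hx : (bs i : H) = P • (t' • (bs i : H)) := by
      conv_lhs => rw [← (bs i).2, ← ht', mul_smul, mul_smul, (bs i).2]
    show toHomC (bs i : H) ∈ parabolicHoms ℂ (gammaH L K) ℂ
    rw [hx, toHomC_smul]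
    exact hpar ℂ (toHomMod (toHomC (t' • (bs i : H))))
  have hUinv : ∀ a : OpRing O L S, ∀ x ∈ U, opC O S K a x ∈ U := fun a x hx => by
    induction hx using Submodule.span_induction with
    | mem y hy =>
      obtain ⟨i, rfl⟩ := hy
      show opC O S K a (toHomC (bs i : H)) ∈ U
      rw [← toHomC_smul, ← coe_localAct_apply (O := O), ← bs.sum_repr (localAct O e H a (bs i)),
        Submodule.coe_sum, map_sum]
      refine sum_mem fun j _ => ?_
      rw [Submodule.coe_smul, map_smul, smul_homC]
      exact Submodule.smul_mem _ _ (Submodule.subset_span ⟨j, rfl⟩)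
    | zero => rw [map_zero]; exact zero_mem _
    | add y z _ _ hy hz => rw [map_add]; exact add_mem hy hz
    | smul c y _ hy => rw [map_smul]; exact Submodule.smul_mem _ c hy
  -- the joint eigenvectors give congruent forms
  set W := sysSup L S (congSystems red S abar)
  let E : (W × W) →ₗ[ℝ] HomC K :=
    { toFun := fun x => per (toFormH (K := K) (x.1 : CuspForm (Gamma0 L) 2)) +
        conjHom (per (toFormH (K := K) (x.2 : CuspForm (Gamma0 L) 2)))
      map_add' := fun x y => by
        show per (toFormH (K := K) ((x.1 : CuspForm (Gamma0 L) 2) + y.1)) +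
          conjHom (per (toFormH (K := K) ((x.2 : CuspForm (Gamma0 L) 2) + y.2))) = _
        rw [show toFormH (K := K) ((x.1 : CuspForm (Gamma0 L) 2) + y.1) =
            toFormH (K := K) (x.1 : CuspForm (Gamma0 L) 2) + toFormH (K := K) y.1 from
            DFunLike.coe_injective rfl,
          show toFormH (K := K) ((x.2 : CuspForm (Gamma0 L) 2) + y.2) =
            toFormH (K := K) (x.2 : CuspForm (Gamma0 L) 2) + toFormH (K := K) y.2 from
            DFunLike.coe_injective rfl]
        rw [show ∀ a b : FormH L K, per (a + b) = per a + per b from map_add (perLin Gamma_le_gammaH),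
          show ∀ a b : FormH L K, per (a + b) = per a + per b from map_add (perLin Gamma_le_gammaH)]
        ext γ
        simp [conjHom_apply]
        ring
      map_smul' := fun r x => by
        show per (toFormH (K := K) ((r : ℂ) • (x.1 : CuspForm (Gamma0 L) 2))) +
          conjHom (per (toFormH (K := K) ((r : ℂ) • (x.2 : CuspForm (Gamma0 L) 2)))) = _
        rw [show toFormH (K := K) ((r : ℂ) • (x.1 : CuspForm (Gamma0 L) 2)) =
            (r : ℂ) • toFormH (K := K) (x.1 : CuspForm (Gamma0 L) 2) from DFunLike.coe_injective rfl,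
          show toFormH (K := K) ((r : ℂ) • (x.2 : CuspForm (Gamma0 L) 2)) =
            (r : ℂ) • toFormH (K := K) (x.2 : CuspForm (Gamma0 L) 2) from DFunLike.coe_injective rfl,
          per_smul, per_smul, conjHom_smul, Complex.conj_ofReal]
        ext γ
        simp [smul_add] }
  let A : GoodIdx S → Module.End ℂ U := fun s =>
    (opC O S K (X (Sum.inr s))).restrict (hUinv (X (Sum.inr s)))
  have hA : ∀ s (x : U), (A s x : HomC K) = opC O S K (X (Sum.inr s)) x := fun _ _ => rfl
  have hfdU : FiniteDimensional ℂ U := FiniteDimensional.span_of_finite ℂ (Set.finite_range v)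
  have hfdP := finiteDimensional_parabolicHoms (M := L) hneg
  have htop := Module.End.iSup_iInf_maxGenEigenspace_eq_top_of_forall_mapsTo A
    (fun i j μ => Module.End.mapsTo_maxGenEigenspace_of_comm (LinearMap.ext fun x =>
      Subtype.ext (by
        simp only [Module.End.mul_apply, hA]
        rw [← Module.End.mul_apply, ← map_mul, mul_comm, map_mul, Module.End.mul_apply])) μ)
    fun i => Module.End.iSup_maxGenEigenspace_eq_top (A i)
  have hkey : ∀ x : U, (x : HomC K) ∈ LinearMap.range E := fun x => by
    refine Submodule.iSup_induction _ (motive := fun x : U => (x : HomC K) ∈ LinearMap.range E)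
      (htop.symm ▸ Submodule.mem_top : x ∈ ⨆ lam : GoodIdx S → ℂ,
        ⨅ s, (A s).maxGenEigenspace (lam s)) (fun lam φ hφ => ?_) (zero_mem _)
      fun a b ha hb => add_mem ha hb
    rcases eq_or_ne φ 0 with rfl | hφ0
    · exact zero_mem _
    rw [Submodule.mem_iInf] at hφ
    -- no Jordan blocks
    have heig : ∀ s, opC O S K (X (Sum.inr s)) (φ : HomC K) = lam s • (φ : HomC K) := fun s => by
      obtain ⟨n, hn⟩ := (Module.End.mem_maxGenEigenspace _ _ _).1 (hφ s)
      set T := opPar hneg (X (Sum.inr s) : OpRing O L S)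
      set φ' : parabolicHoms ℂ (gammaH L K) ℂ := ⟨_, hUpar φ.2⟩
      have hpow : ∀ (m : ℕ) (y : U), ((((A s - lam s • 1) ^ m) y : U) : HomC K) =
          (((T - lam s • 1) ^ m) ⟨_, hUpar y.2⟩ : parabolicHoms ℂ (gammaH L K) ℂ) := fun m => by
        induction m with
        | zero => intro y; simp
        | succ m ih =>
          intro y
          rw [pow_succ, pow_succ, Module.End.mul_apply, Module.End.mul_apply, ih]
          congr 2
      have hn' : ((T - lam s • 1) ^ n) φ' = 0 := Subtype.ext (by rw [← hpow, hn]; rfl)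
      have hmem : φ' ∈ T.maxGenEigenspace (lam s) :=
        (Module.End.mem_maxGenEigenspace _ _ _).2 ⟨n, hn'⟩
      rw [(opPar_isSemisimple (O := O) hneg hsq hodd hS _).isFinitelySemisimple.maxGenEigenspace_eq_eigenspace,
        Module.End.mem_eigenspace_iff] at hmem
      exact congrArg Subtype.val hmem
    -- the system reduces to `abar`
    let θ : OpRing O L S →ₐ[O] ℂ := aeval (Sum.elim (fun _ => 1) lam)
    have hθφ : ∀ a, opC O S K a (φ : HomC K) = θ a • (φ : HomC K) := fun a => by
      induction a using MvPolynomial.induction_on with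
      | C c => rw [opC_C, Module.algebraMap_end_apply, ← algebraMap_eq, AlgHom.commutes]
      | add a b ha hb => rw [map_add, map_add, LinearMap.add_apply, ha, hb, add_smul]
      | mul_X a i ha =>
        have hi : opC O S K (X i) (φ : HomC K) = θ (X i) • (φ : HomC K) := by
          rcases i with u | s
          · rw [opC_inl, show θ (X (Sum.inl u)) = 1 by simp [θ], one_smul]
            exact diamond_top ℂ u _
          · rw [heig s, show θ (X (Sum.inr s)) = lam s by simp [θ]]
        rw [map_mul, map_mul, Module.End.mul_apply, hi, map_smul, ha, smul_smul, mul_comm]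
    have hθ : ∀ a, localAct O e H a = 0 → θ a = 0 := fun a ha => by
      have h0 : opC O S K a (φ : HomC K) = 0 := by
        refine Submodule.span_induction (p := fun y _ => opC O S K a y = 0) ?_ (map_zero _)
          (fun _ _ _ _ hx hy => by rw [map_add, hx, hy, add_zero])
          (fun c _ _ hx => by rw [map_smul, hx, smul_zero]) φ.2
        rintro _ ⟨i, rfl⟩
        show opC O S K a (toHomC (bs i : H)) = 0
        rw [← toHomC_smul, ← coe_localAct_apply (O := O), ha, LinearMap.zero_apply,
          Submodule.coe_zero, map_zero]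
      rw [hθφ] at h0
      exact (smul_eq_zero.1 h0).resolve_right fun h => hφ0 (Subtype.ext h)
    have hlam : lam ∈ congSystems red S abar := fun s => by
      refine ⟨⟨θ (X (Sum.inr s)), isIntegral_character θ hθ _⟩, by simp [θ], ?_⟩
      rw [red_character he θ hθ hred (X (Sum.inr s)) rfl, opRes_inr]
    -- the two forms
    obtain ⟨f, g, hfg⟩ := exists_per_add_conjHom hneg (hUpar φ.2)
    have hfg' : ∀ s : GoodIdx S, hOp L s.2.1 (ofFormH f) = lam s • ofFormH f ∧
        hOp L s.2.1 (ofFormH g) = conj (lam s) • ofFormH g := fun s => by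
      haveI : Fact s.1.Prime := ⟨s.2.1⟩
      have h := heig s
      rw [opC_inr, hfg, map_add, hecke_conjHom, ← per_heckeForm, ← per_heckeForm, smul_add,
        ← Complex.conj_conj (lam s), ← conjHom_smul, Complex.conj_conj, ← per_smul, ← per_smul] at h
      obtain ⟨h1, h2⟩ := Periods.Congruence.per_add_conj_injective Gamma_le_gammaH
        (f := heckeForm s.1 f - lam s • f) (g := heckeForm s.1 g - conj (lam s) • g) fun γ => by
          have := DFunLike.congr_fun h (Additive.ofMul γ)
          simp only [AddMonoidHom.add_apply, conjHom_apply] at this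
          rw [per_sub, per_sub, AddMonoidHom.sub_apply, AddMonoidHom.sub_apply, map_sub]
          linear_combination this
      rw [sub_eq_zero, ← toFormH_ofFormH f, heckeForm_toFormH'] at h1
      rw [sub_eq_zero, ← toFormH_ofFormH g, heckeForm_toFormH'] at h2
      exact ⟨DFunLike.coe_injective (congrArg (fun F : FormH L K => (⇑F : ℍ → ℂ)) h1),
        DFunLike.coe_injective (congrArg (fun F : FormH L K => (⇑F : ℍ → ℂ)) h2)⟩
    have hsN : ∀ s : GoodIdx S, ¬ s.1 ∣ L := fun s hd => s.2.2 (hS _ s.2.1 hd)
    have hfW : ofFormH f ∈ W := mem_sysSup_of_eigen hlam fun s => (hfg' s).1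
    have hgW : ofFormH g ∈ W := by
      rcases eq_or_ne (ofFormH g) 0 with h0 | h0
      · rw [h0]; exact zero_mem _
      refine mem_sysSup_of_eigen hlam fun s => ?_
      have hr := (Newforms.isPetersson_hOp s.2.1 (hsN s)).conj_eigenvalue h0 (hfg' s).2
      rw [Complex.conj_conj] at hr
      rw [(hfg' s).2, ← hr]
    refine ⟨(⟨_, hfW⟩, ⟨_, hgW⟩), ?_⟩
    show per (toFormH (K := K) (ofFormH f)) + conjHom (per (toFormH (K := K) (ofFormH g))) = _
    rw [toFormH_ofFormH, toFormH_ofFormH, hfg]
  have hle : U.restrictScalars ℝ ≤ LinearMap.range E := fun x hx => hkey ⟨x, hx⟩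
  have hfdW : FiniteDimensional ℂ W := by
    have := IntegralStructure.finiteDimensional_cuspForm L
    infer_instance
  haveI : Module.Finite ℝ (W × W) := Module.Finite.trans ℂ (W × W)
  have h := (Submodule.finrank_mono hle).trans (LinearMap.finrank_range_le E)
  rw [show Module.finrank ℝ ↥(U.restrictScalars ℝ) = Module.finrank ℝ U from rfl,
    finrank_real_of_complex, finrank_real_of_complex, Module.finrank_prod, hUd] at h
  exact Nat.le_of_mul_le_mul_left (h.trans (le_of_eq (by ring))) two_pos

omit [NeZero L] in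
/-- The bound on the `O[Δ]`-rank: a divisor containing every congruent newform level, and the
number of primes of the level. -/
def rankBound (L₀ k : ℕ) : ℕ := 2 * rankBoundAux (newBound L₀) k

end Fermat.Agent.RT.Lower

namespace Fermat.Agent.RT.Lower

open Fermat.Agent.RT.GammaH

/-- **The rank at level `L` is bounded independently of the primes outside `L₀`.** -/
theorem finrank_localPart_top_le {O : Type} [CommRing O] [IsDomain O] [IsDiscreteValuationRing O]
    [IsAdicComplete (IsLocalRing.maximalIdeal O) O] [Finite (IsLocalRing.ResidueField O)]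
    [CharZero O] {L L₀ : ℕ} [NeZero L] [NeZero L₀] (hsq : Squarefree L) {S : Finset ℕ}
    {abar : ℕ → IsLocalRing.ResidueField O} (hS : ∀ v : ℕ, v.Prime → v ∣ L → v ∈ S)
    (hEis : ∃ ℓ : ℕ, ℓ.Prime ∧ ℓ ∉ S ∧ abar ℓ ≠ 1 + (ℓ : IsLocalRing.ResidueField O))
    (hnew : ∀ (M : ℕ) (g : CuspForm (Gamma0 M) 2), g.IsNewform → M ∣ L →
      IsCongruentForm S abar g → M ∣ L₀)
    {e : OpRing O L S}
    (he : IsLocalizer (resIdeal S abar L) (HomMod O S (⊤ : Subgroup (ZMod L)ˣ) O) e) :
    Module.finrank O (localPart O e (HomMod O S (⊤ : Subgroup (ZMod L)ˣ) O)) ≤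
      rankBound L₀ L.primeFactors.card := by
  obtain ⟨σ, hσ⟩ := exists_injective_complex O
  letI : Algebra O ℂ := σ.toAlgebra
  obtain ⟨red, hred⟩ := exists_red O (show Function.Injective (algebraMap O ℂ) from hσ)
  refine (finrank_localPart_le (red := red) hσ hred hsq hS hEis he).trans
    (Nat.mul_le_mul_left 2 ?_)
  exact finrank_sysSup_le hsq hS
    (fun lam hlam M g hg hML h => hnew M g hg hML (isCongruentForm_of_mem hg.1 hlam h))
    _ L dvd_rfl rfl

end Fermat.Agent.RT.Lower
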