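import Fermat.Agent.Deform.Basic
import Fermat.Agent.Lifting.Module.Constructor
import Fermat.Agent.RT.Glue.Algebra
import Fermat.Agent.RT.Lower.RankPeriods

/-!
# The Hecke modules of the levels of the patching step

Their algebras are local with residue field that of the coefficients and their ranks are bounded in
terms of the base level and the number of primes of the level.
-/

set_option autoImplicit false
set_option linter.style.haveILetI false

noncomputable section

open CongruenceSubgroup IsLocalRing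

namespace Fermat.Agent.RT.Lower

open Fermat.Agent.RT.GammaH Fermat.Agent.Deform

variable {O : Type} [CommRing O] [IsDomain O] [IsDiscreteValuationRing O]
  [IsAdicComplete (maximalIdeal O) O] [Finite (ResidueField O)] [CharZero O]
  {p : ℕ} [Fact p.Prime] [CharP (ResidueField O) p] {L L₀ : ℕ} [NeZero L] [NeZero L₀]
  {Δ : Type} [CommGroup Δ] [Fintype Δ] {ψ : (ZMod L)ˣ →* Δ} {S : Finset ℕ}
  {abar : ℕ → ResidueField O}

/-- Locality, residue field and rank of a Hecke module whose rank is that of the localised module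
of `Γ₀(L)`. -/
theorem heckeModule_props (hΔ : IsPGroup p Δ) (hsq : Squarefree L)
    (hS : ∀ v : ℕ, v.Prime → v ∣ L → v ∈ S)
    (hEis : ∃ ℓ : ℕ, ℓ.Prime ∧ ℓ ∉ S ∧ abar ℓ ≠ 1 + (ℓ : ResidueField O))
    (hcong : IsCongruentLevel S abar L)
    (hnew : ∀ (M : ℕ) (g : CuspForm (Gamma0 M) 2), g.IsNewform → M ∣ L →
      IsCongruentForm S abar g → M ∣ L₀)
    {e : OpRing O L S}
    (he : IsLocalizer (resIdeal S abar L) (HomMod O S (⊤ : Subgroup (ZMod L)ˣ) O) e)
    (H : HeckeModule L ψ S abar)
    (hd : H.d = Module.finrank O (localPart O e (HomMod O S (⊤ : Subgroup (ZMod L)ˣ) O))) :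
    ∃ _ : IsLocalRing H.algebra, IsLocalHom (algebraMap O H.algebra) ∧ IsResAlg O H.algebra ∧
      0 < H.d ∧ H.d ≤ rankBound L₀ L.primeFactors.card := by
  have hp : (p : O) ∈ maximalIdeal O := by
    rw [← residue_eq_zero_iff, map_natCast]
    exact CharP.cast_eq_zero _ p
  have hne := ne_bot_of_isCongruentLevel he hcong
  have : Nontrivial (localPart O e (HomMod O S (⊤ : Subgroup (ZMod L)ˣ) O)) :=
    Submodule.nontrivial_iff_ne_bot.2 hne
  have hpos : 0 < H.d := by
    rw [hd]
    exact Module.finrank_pos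
  haveI hloc := Glue.isLocalRing_algebra H hp hΔ hpos
  have hhom := Glue.isLocalHom_algebraMap H hp hΔ
  exact ⟨hloc, hhom, ⟨hhom, Glue.residue_algebraMap_surjective H hp hΔ⟩, hpos,
    hd.le.trans (finrank_localPart_top_le hsq hS hEis hnew he)⟩

omit [NeZero L] [NeZero L₀] [IsAdicComplete (maximalIdeal O) O] [Finite (ResidueField O)] [CharZero O] in
/-- A squarefree level all whose congruent newform levels avoid `Q` is congruent only at `L₀`. -/
theorem newform_level_dvd {Q : Finset ℕ} (hL : L = L₀ * ∏ q ∈ Q, q)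
    (hQp : ∀ q ∈ Q, q.Prime)
    (hQ : ∀ q ∈ Q, ∀ (M : ℕ) (g : CuspForm (Gamma0 M) 2), g.IsNewform → M ∣ L →
      IsCongruentForm S abar g → ¬ q ∣ M)
    (M : ℕ) (g : CuspForm (Gamma0 M) 2) (hg : g.IsNewform) (hML : M ∣ L)
    (hc : IsCongruentForm S abar g) : M ∣ L₀ := by
  refine Nat.Coprime.dvd_of_dvd_mul_right (Nat.Coprime.prod_right fun q hq => ?_) (hL ▸ hML)
  exact ((hQp q hq).coprime_iff_not_dvd.2 (hQ q hq M g hg hML hc)).symm

/-- **The Hecke module of a level.** The prime `a ≡ 2 (mod 3)` of the level, for instance an avoiding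
prime `≡ 11 (mod 12)`, occurs in no level of a congruent newform. -/
theorem exists_heckeModule (hp2 : p ≠ 2) (hΔ : IsPGroup p Δ) (hψ : Function.Surjective ψ)
    (hsq : Squarefree L) (hS : ∀ v : ℕ, v.Prime → v ∣ L → v ∈ S)
    (hEis : ∃ ℓ : ℕ, ℓ.Prime ∧ ℓ ∉ S ∧ abar ℓ ≠ 1 + (ℓ : ResidueField O))
    (hcong : IsCongruentLevel S abar L)
    {a : ℕ} (ha : a.Prime) (haL : a ∣ L) (ha3 : a % 3 = 2)
    (hnewA : ∀ (M : ℕ) (g : CuspForm (Gamma0 M) 2), g.IsNewform → M ∣ L →
      IsCongruentForm S abar g → ¬ a ∣ M)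
    (hnew : ∀ (M : ℕ) (g : CuspForm (Gamma0 M) 2), g.IsNewform → M ∣ L →
      IsCongruentForm S abar g → M ∣ L₀) :
    ∃ (H : HeckeModule L ψ S abar) (_ : IsLocalRing H.algebra),
      IsLocalHom (algebraMap O H.algebra) ∧ IsResAlg O H.algebra ∧
        0 < H.d ∧ H.d ≤ rankBound L₀ L.primeFactors.card := by
  have hs : Lifting.Module.Setup p ψ S abar :=
    { ne_two := hp2
      sqfree := hsq
      pGroup := hΔ
      surj := hψ
      primes := hS
      notEis := hEis
      free := fun _ => ⟨a, ha, haL, ha3⟩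
      drop := Lifting.Module.canDrop_of_forall_newform hsq hS fun v hv hvL hfree M g hML hg hc =>
        if hva : v = a then hva ▸ hnewA M g hg hML hc
        else absurd (fun _ => ⟨a, ha, Nat.dvd_div_of_mul_dvd
          (((Nat.coprime_primes hv ha).2 hva).mul_dvd_of_dvd_of_dvd hvL haL), ha3⟩) hfree }
  obtain ⟨e, heH, heH₀⟩ := Lifting.Module.exists_localizer_pair (O := O) (ψ := ψ) (S := S)
    (abar := abar) (L := L)
  exact ⟨Lifting.Module.heckeModule hs heH heH₀,
    heckeModule_props hΔ hsq hS hEis hcong hnew heH₀ _ rfl⟩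

end Fermat.Agent.RT.Lower
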