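import Fermat.Agent.RT.Lower.Assembly
import Fermat.Agent.RT.Lower.Module
import Fermat.Agent.Lifting.Curve.Primes

/-!
# The levels of the patching step

For `L = L₀ * ∏ V * ∏ Q`, with `L₀` a base level, `V` scalar primes and `Q` avoiding primes: the
forms congruent to the curve at a level dividing `L` live on `L₀ * ∏ V`, and none avoids a prime
that cannot be removed from that level.
-/

set_option autoImplicit false

noncomputable section

open WeierstrassCurve IsLocalRing CongruenceSubgroup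
open Fermat.Agent.Deform

namespace Fermat.Agent.RT.Lower

local notation "Q̄" => AlgebraicClosure ℚ

/-- A congruent form makes the curve residually modular of its level. -/
def CongruentResidual : Prop :=
  ∀ (W : WeierstrassCurve ℤ) (p : ℕ) [Fact p.Prime], W.Δ ≠ 0 → p ≠ 2 →
    W.IsSemistableModel → W.ModRepIsIrreducible p →
    ∀ (k : Type) [Field k] [CharP k p] (S : Finset ℕ) (M : ℕ), 0 < M →
      IsCongruentLevel S (curveAbar W k) M → W.IsResiduallyModularOfLevel p M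

/-- Residual modularity gives a congruent form outside `p`, the level and the bad primes. -/
def ResidualCongruent : Prop :=
  ∀ (W : WeierstrassCurve ℤ) (p : ℕ) [Fact p.Prime], W.Δ ≠ 0 → p ≠ 2 →
    W.IsSemistableModel → W.ModRepIsIrreducible p →
    ∀ (k : Type) [Field k] [CharP k p] (S : Finset ℕ) (M : ℕ), 0 < M → p ∈ S →
      (∀ ℓ : ℕ, ℓ.Prime → ℓ ∣ M ∨ (ℓ : ℤ) ∣ W.Δ → ℓ ∈ S) →
      W.IsResiduallyModularOfLevel p M → IsCongruentLevel S (curveAbar W k) M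

/-- An avoiding prime occurs in no squarefree level of a congruent newform. -/
def AvoidsLevels : Prop :=
  ∀ (W : WeierstrassCurve ℤ) (p : ℕ) [Fact p.Prime] (hΔ : W.Δ ≠ 0), p ≠ 2 →
    W.IsSemistableModel → W.ModRepIsIrreducible p →
    ∀ (k : Type) [Field k] [CharP k p] (S : Finset ℕ) (M : ℕ) (g : CuspForm (Gamma0 M) 2),
      g.IsNewform → IsCongruentForm S (curveAbar W k) g → Squarefree M →
      ∀ r : ℕ, IsAvoidingPrime W p hΔ r → ¬ r ∣ M

theorem prod_dvd_iff {Q : Finset ℕ} (hQ : ∀ q ∈ Q, q.Prime) {r : ℕ} (hr : r.Prime) :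
    r ∣ ∏ q ∈ Q, q ↔ r ∈ Q := by
  refine ⟨fun h => ?_, fun h => Finset.dvd_prod_of_mem (fun q => q) h⟩
  obtain ⟨q, hq, hrq⟩ := (hr.prime.dvd_finsetProd_iff _).mp h
  rwa [(Nat.prime_dvd_prime_iff_eq hr (hQ q hq)).mp hrq]

theorem squarefree_mul_prod {K : ℕ} {Q : Finset ℕ} (hK : Squarefree K) (hQ : ∀ q ∈ Q, q.Prime)
    (hd : ∀ q ∈ Q, ¬ q ∣ K) : Squarefree (K * ∏ q ∈ Q, q) :=
  (Nat.squarefree_mul (Nat.Coprime.prod_right fun q hq =>
      ((hQ q hq).coprime_iff_not_dvd.2 (hd q hq)).symm)).mpr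
    ⟨hK, Finset.squarefree_prod_of_pairwise_isCoprime
      (fun _ hx _ hy hne => Nat.coprime_iff_isRelPrime.mp
        ((Nat.coprime_primes (hQ _ hx) (hQ _ hy)).2 hne)) fun q hq => (hQ q hq).squarefree⟩

theorem prime_dvd_level_cases {L₀ : ℕ} {V Q : Finset ℕ} (hV : ∀ v ∈ V, v.Prime)
    (hQ : ∀ q ∈ Q, q.Prime) {r : ℕ} (hr : r.Prime)
    (h : r ∣ L₀ * (∏ v ∈ V, v) * ∏ q ∈ Q, q) : r ∣ L₀ ∨ r ∈ V ∨ r ∈ Q := by
  rcases hr.dvd_mul.mp h with h | h
  · exact (hr.dvd_mul.mp h).imp_right fun h => Or.inl ((prod_dvd_iff hV hr).mp h)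
  · exact Or.inr (Or.inr ((prod_dvd_iff hQ hr).mp h))

/-- The number of primes of `L₀ * ∏ V * ∏ Q`. -/
theorem card_primeFactors_level {L₀ : ℕ} (hL₀ : L₀ ≠ 0) {V Q : Finset ℕ} (hV : ∀ v ∈ V, v.Prime)
    (hQ : ∀ q ∈ Q, q.Prime) (hVd : ∀ v ∈ V, ¬ v ∣ L₀)
    (hQd : ∀ q ∈ Q, ¬ q ∣ L₀ * ∏ v ∈ V, v) :
    (L₀ * (∏ v ∈ V, v) * ∏ q ∈ Q, q).primeFactors.card =
      L₀.primeFactors.card + V.card + Q.card := by
  have hmul : ∀ {K : ℕ}, K ≠ 0 → ∀ {R : Finset ℕ}, (∀ q ∈ R, q.Prime) → (∀ q ∈ R, ¬ q ∣ K) →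
      (K * ∏ q ∈ R, q).primeFactors.card = K.primeFactors.card + R.card := by
    intro K hK R hR hd
    rw [Nat.primeFactors_mul hK (Finset.prod_ne_zero_iff.mpr fun q hq => (hR q hq).ne_zero),
      Nat.primeFactors_prod hR, Finset.card_union_of_disjoint]
    exact Finset.disjoint_left.mpr fun q hq hq' =>
      hd q hq' (Nat.dvd_of_mem_primeFactors hq)
  rw [hmul (mul_ne_zero hL₀ (Finset.prod_ne_zero_iff.mpr fun v hv => (hV v hv).ne_zero)) hQ hQd,
    hmul hL₀ hV hVd]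

variable {W : WeierstrassCurve ℤ} {p : ℕ} [Fact p.Prime] {hΔ : W.Δ ≠ 0}

theorem IsBaseLevel.ne_zero {L₀ : ℕ} (h : IsBaseLevel W p hΔ L₀) : L₀ ≠ 0 :=
  h.squarefree.ne_zero

/-- The avoiding prime of a base level, `≡ 2 (mod 3)`. -/
theorem IsBaseLevel.exists_three {L₀ : ℕ} (h : IsBaseLevel W p hΔ L₀) :
    ∃ a : ℕ, IsAvoidingPrime W p hΔ a ∧ a ∣ L₀ ∧ a % 12 = 11 ∧ a % 3 = 2 := by
  obtain ⟨a, haL, ha, h12⟩ := h.exists_avoiding
  exact ⟨a, ha, haL, h12, by omega⟩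

theorem IsBaseLevel.freeLevel {L₀ L : ℕ} (h : IsBaseLevel W p hΔ L₀) (hd : L₀ ∣ L) :
    Lifting.Module.FreeLevel p L := fun _ =>
  let ⟨a, ha, haL, _, h3⟩ := h.exists_three
  ⟨a, ha.1, haL.trans hd, h3⟩

/-- A Frobenius element at a prime other than `p` has determinant that prime. -/
theorem det_residualRep_frobenius {q : ℕ} (hq : q.Prime) (hqp : q ≠ p) {A : ValuationSubring Q̄}
    (hA : A.LiesOverPrime q) {σ : Q̄ ≃ₐ[ℚ] Q̄} (hσ : A.IsFrobeniusAt σ q) :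
    LinearMap.det ((EC.Rep.residualRep W p hΔ).ρ σ) = (q : ZMod p) := by
  rw [EC.Rep.det_residualRep hΔ (EC.FrobTrace.card_rootsOfUnity_Qbar p) σ]
  exact Arith.modularCyclotomicCharacter_frobenius hA hq hσ _ fun h =>
    hqp ((Nat.prime_dvd_prime_iff_eq hq Fact.out).mp h)

/-- A scalar prime is not avoiding. -/
theorem IsScalarPrime.not_avoiding {v : ℕ} (hv : IsScalarPrime W p hΔ v) :
    ¬ IsAvoidingPrime W p hΔ v := by
  intro ha
  obtain ⟨hvp, h1, hu, hsc⟩ := hv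
  obtain ⟨A, hA⟩ := Arith.exists_liesOverPrime hvp
  obtain ⟨σ, hσ⟩ := Arith.exists_isFrobeniusAt hA hvp
  obtain ⟨c, hc⟩ := hsc A hA σ hσ
  have hv1 : (v : ZMod p) = 1 := by
    rw [← ZMod.natCast_mod, h1, Nat.cast_one]
  have hdet := det_residualRep_frobenius (hΔ := hΔ) hvp ha.2.1 hA hσ
  rw [hc, LinearMap.det_smul, map_one, mul_one, (EC.Rep.residualRep W p hΔ).finrank_eq, hv1]
    at hdet
  refine ha.2.2.2 A hA σ hσ ?_
  rw [hc, map_smul, LinearMap.trace_one, (EC.Rep.residualRep W p hΔ).finrank_eq, smul_eq_mul, hv1]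
  linear_combination (4 : ZMod p) * hdet

theorem IsScalarPrime.not_dvd_base {v L₀ : ℕ} (hv : IsScalarPrime W p hΔ v)
    (h : IsBaseLevel W p hΔ L₀) : ¬ v ∣ L₀ := fun hd => by
  have hvp : v ≠ p := fun e => by
    have h1 := hv.2.1
    rw [e, Nat.mod_self] at h1
    exact zero_ne_one h1
  rcases h.prime_cases v hv.1 hd hvp with hr | ha
  · exact hr hv.2.2.1
  · exact hv.not_avoiding ha

theorem IsBaseLevel.squarefree_mul_scalar {L₀ : ℕ} (h : IsBaseLevel W p hΔ L₀) {V : Finset ℕ}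
    (hV : ∀ v ∈ V, IsScalarPrime W p hΔ v) : Squarefree (L₀ * ∏ v ∈ V, v) :=
  squarefree_mul_prod h.squarefree (fun v hv => (hV v hv).1) fun v hv => (hV v hv).not_dvd_base h

/-- Squarefreeness of a patching level. -/
theorem IsBaseLevel.squarefree_level {L₀ : ℕ} (h : IsBaseLevel W p hΔ L₀) {V Q : Finset ℕ}
    (hV : ∀ v ∈ V, IsScalarPrime W p hΔ v) (hQ : ∀ q ∈ Q, IsAvoidingPrime W p hΔ q)
    (hd : ∀ q ∈ Q, ¬ q ∣ L₀ * ∏ v ∈ V, v) :
    Squarefree (L₀ * (∏ v ∈ V, v) * ∏ q ∈ Q, q) :=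
  squarefree_mul_prod (h.squarefree_mul_scalar hV) (fun q hq => (hQ q hq).1) hd

/-- A prime `≡ 1 (mod p)` at which `W[p]` is unramified with squared trace over `k` other than `4`
is avoiding. -/
theorem isAvoidingPrime_of_trace_sq_ne (k : Type) [Field k] [CharP k p] {q : ℕ} (hq : q.Prime)
    (hq1 : q % p = 1)
    (hunr : ∀ A : ValuationSubring Q̄, A.LiesOverPrime q → ∀ τ ∈ A.inertiaSubgroupIn ℚ,
      (Lifting.Curve.residual hΔ k).ρ τ = 1)
    (htr : ∀ A : ValuationSubring Q̄, A.LiesOverPrime q → ∀ σ : Q̄ ≃ₐ[ℚ] Q̄, A.IsFrobeniusAt σ q →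
      LinearMap.trace k _ ((Lifting.Curve.residual hΔ k).ρ σ) ^ 2 ≠ 4) :
    IsAvoidingPrime W p hΔ q := by
  have hqp : q ≠ p := fun e => by
    rw [e, Nat.mod_self] at hq1
    exact zero_ne_one hq1
  refine ⟨hq, hqp, fun A hA τ hτ =>
    (Lifting.Curve.residual_eq_one_iff (k := k) hΔ τ).mp (hunr A hA τ hτ),
    fun A hA σ hσ h => htr A hA σ hσ ?_⟩
  let : Algebra (ZMod p) k := (ZMod.castHom (dvd_refl p) k).toAlgebra
  have ht : LinearMap.trace k _ ((Lifting.Curve.residual hΔ k).ρ σ) =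
      algebraMap (ZMod p) k (LinearMap.trace (ZMod p) _ ((EC.Rep.residualRep W p hΔ).ρ σ)) :=
    LinearMap.trace_baseChange ((EC.Rep.residualRep W p hΔ).ρ σ) k
  rw [ht, ← map_pow, h, ← ZMod.natCast_mod q p, hq1, Nat.cast_one,
    map_pow, map_add, map_one]
  norm_num

/-- Avoiding primes are dropped from the level. -/
theorem congBelow_of_prod_avoiding (hRaise : RaiseLevel) (hDrop : DropAvoiding) (hp2 : p ≠ 2)
    (hW : W.IsSemistableModel) (hirr : W.ModRepIsIrreducible p) {Q : Finset ℕ}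
    (hQ : ∀ q ∈ Q, IsAvoidingPrime W p hΔ q) {K : ℕ} (hsq : Squarefree (K * ∏ q ∈ Q, q))
    (h : CongBelow W p (K * ∏ q ∈ Q, q)) : CongBelow W p K := by
  induction Q using Finset.induction_on with
  | empty => simpa using h
  | insert r Q hr ih =>
    rw [Finset.prod_insert hr, mul_left_comm] at hsq h
    exact ih (fun q hq => hQ q (Finset.mem_insert_of_mem hq))
      (hsq.squarefree_of_dvd (dvd_mul_left _ _))
      (hDrop W p hΔ hp2 hW hirr r _ (hQ r (Finset.mem_insert_self _ _)) hsq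
        (hRaise W p hΔ hp2 hW hirr _ hsq h))

/-- **No congruent form below a level that is not congruent, up to avoiding primes.** -/
theorem not_isCongruentLevel_of_dvd (hRaise : RaiseLevel) (hDrop : DropAvoiding)
    (hRes : CongruentResidual) (hp2 : p ≠ 2) (hW : W.IsSemistableModel)
    (hirr : W.ModRepIsIrreducible p) {Q : Finset ℕ} (hQ : ∀ q ∈ Q, IsAvoidingPrime W p hΔ q)
    {K : ℕ} (hsq : Squarefree (K * ∏ q ∈ Q, q)) (hK : ¬ CongBelow W p K) (k : Type) [Field k]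
    [CharP k p] {S : Finset ℕ} {M : ℕ} (hM : M ∣ K * ∏ q ∈ Q, q) :
    ¬ IsCongruentLevel S (curveAbar W k) M := fun h =>
  hK (congBelow_of_prod_avoiding hRaise hDrop hp2 hW hirr hQ hsq
    ⟨M, hM, hRes W p hΔ hp2 hW hirr k S M
      (Nat.pos_of_ne_zero (ne_zero_of_dvd_ne_zero hsq.ne_zero hM)) h⟩)

/-- A prime without which the level is not congruent stays in every congruent level. -/
theorem not_isCongruentLevel_div (hRaise : RaiseLevel) (hDrop : DropAvoiding)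
    (hRes : CongruentResidual) (hp2 : p ≠ 2) (hW : W.IsSemistableModel)
    (hirr : W.ModRepIsIrreducible p) {Q : Finset ℕ} (hQ : ∀ q ∈ Q, IsAvoidingPrime W p hΔ q)
    {K v : ℕ} (hvK : v ∣ K) (hsq : Squarefree (K * ∏ q ∈ Q, q))
    (hK : ¬ CongBelow W p (K / v)) (k : Type) [Field k] [CharP k p] (S : Finset ℕ) :
    ¬ IsCongruentLevel S (curveAbar W k) (K * (∏ q ∈ Q, q) / v) := by
  refine not_isCongruentLevel_of_dvd hRaise hDrop hRes hp2 hW hirr hQ
    (hsq.squarefree_of_dvd (mul_dvd_mul_right (Nat.div_dvd_of_dvd hvK) _)) hK k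
    (dvd_of_eq ?_)
  rw [mul_comm, Nat.mul_div_assoc _ hvK, mul_comm]

/-- The level without `v₀` is not congruent. -/
theorem not_isCongruentLevel_erase (hRaise : RaiseLevel) (hDrop : DropAvoiding)
    (hRes : CongruentResidual) (hp2 : p ≠ 2) (hW : W.IsSemistableModel)
    (hirr : W.ModRepIsIrreducible p) {L₀ : ℕ} {V Q : Finset ℕ}
    (hQ : ∀ q ∈ Q, IsAvoidingPrime W p hΔ q)
    (hsq : Squarefree (L₀ * (∏ v ∈ V, v) * ∏ q ∈ Q, q)) {v₀ : ℕ} (hv₀ : v₀ ∈ V) (hv₀' : v₀ ≠ 0)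
    (hno : ¬ CongBelow W p (L₀ * ∏ v ∈ V.erase v₀, v)) (k : Type) [Field k] [CharP k p]
    (S : Finset ℕ) :
    ¬ IsCongruentLevel S (curveAbar W k) (L₀ * (∏ v ∈ V, v) * (∏ q ∈ Q, q) / v₀) := by
  refine not_isCongruentLevel_div hRaise hDrop hRes hp2 hW hirr hQ
    (dvd_mul_of_dvd_right (Finset.dvd_prod_of_mem (fun v => v) hv₀) _) hsq ?_ k S
  rwa [← Finset.mul_prod_erase V (fun v => v) hv₀, mul_left_comm,
    Nat.mul_div_cancel_left _ (Nat.pos_of_ne_zero hv₀')]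

/-- The level `L` is congruent. -/
theorem isCongruentLevel_of_congBelow (hRaise : RaiseLevel) (hCong : ResidualCongruent)
    (hΔ : W.Δ ≠ 0) (hp2 : p ≠ 2) (hW : W.IsSemistableModel) (hirr : W.ModRepIsIrreducible p)
    (k : Type) [Field k] [CharP k p] {S : Finset ℕ} {L : ℕ} (hsq : Squarefree L) (hpS : p ∈ S)
    (hS : ∀ ℓ : ℕ, ℓ.Prime → ℓ ∣ L ∨ (ℓ : ℤ) ∣ W.Δ → ℓ ∈ S) (h : CongBelow W p L) :
    IsCongruentLevel S (curveAbar W k) L :=
  hCong W p hΔ hp2 hW hirr k S L (Nat.pos_of_ne_zero hsq.ne_zero) hpS hS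
    (hRaise W p hΔ hp2 hW hirr L hsq h)

/-- A prime outside `S` at which the curve is not Eisenstein modulo `p`. -/
theorem exists_curveAbar_ne (hΔ : W.Δ ≠ 0) (hp2 : p ≠ 2) (hirr : W.ModRepIsIrreducible p)
    (k : Type) [Field k] [CharP k p] (S : Finset ℕ) :
    ∃ ℓ : ℕ, ℓ.Prime ∧ ℓ ∉ S ∧ curveAbar W k ℓ ≠ 1 + (ℓ : k) := by
  obtain ⟨ℓ, hℓ, hℓS, -, -, hne⟩ := Lifting.Curve.exists_abar_ne hΔ k hp2 hirr S
  exact ⟨ℓ, hℓ, hℓS, hne⟩

/-- An avoiding prime occurs in no congruent newform level below a squarefree one. -/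
theorem not_dvd_newform_level (hAv : AvoidsLevels) (hp2 : p ≠ 2) (hW : W.IsSemistableModel)
    (hirr : W.ModRepIsIrreducible p) {r : ℕ} (hr : IsAvoidingPrime W p hΔ r) {L : ℕ}
    (hsq : Squarefree L) (k : Type) [Field k] [CharP k p] {S : Finset ℕ} (M : ℕ)
    (g : CuspForm (Gamma0 M) 2) (hg : g.IsNewform) (hML : M ∣ L)
    (hc : IsCongruentForm S (curveAbar W k) g) : ¬ r ∣ M :=
  hAv W p hΔ hp2 hW hirr k S M g hg hc (hsq.squarefree_of_dvd hML) r hr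

/-- The congruent newforms of a patching level live on `L₀ * ∏ V`. -/
theorem newform_level_dvd_base (hAv : AvoidsLevels) (hp2 : p ≠ 2) (hW : W.IsSemistableModel)
    (hirr : W.ModRepIsIrreducible p) {K : ℕ} {Q : Finset ℕ}
    (hQ : ∀ q ∈ Q, IsAvoidingPrime W p hΔ q) (hsq : Squarefree (K * ∏ q ∈ Q, q))
    (k : Type) [Field k] [CharP k p] {S : Finset ℕ} (M : ℕ) (g : CuspForm (Gamma0 M) 2)
    (hg : g.IsNewform) (hML : M ∣ K * ∏ q ∈ Q, q)
    (hc : IsCongruentForm S (curveAbar W k) g) : M ∣ K := by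
  refine Nat.Coprime.dvd_of_dvd_mul_right (Nat.Coprime.prod_right fun q hq => ?_) hML
  exact ((hQ q hq).1.coprime_iff_not_dvd.2
    (not_dvd_newform_level hAv hp2 hW hirr (hQ q hq) hsq k M g hg hML hc)).symm

/-- **The Hecke module of a patching level.** -/
theorem exists_patchModule (hRaise : RaiseLevel) (hCong : ResidualCongruent) (hAv : AvoidsLevels)
    (hp2 : p ≠ 2) (hW : W.IsSemistableModel) (hirr : W.ModRepIsIrreducible p)
    {L₀ : ℕ} (hbase : IsBaseLevel W p hΔ L₀) {V Q : Finset ℕ}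
    (hV : ∀ v ∈ V, IsScalarPrime W p hΔ v) (hQ : ∀ q ∈ Q, IsAvoidingPrime W p hΔ q)
    (hQd : ∀ q ∈ Q, ¬ q ∣ L₀ * ∏ v ∈ V, v) (hmod : CongBelow W p (L₀ * ∏ v ∈ V, v))
    {O : Type} [CommRing O] [IsDomain O] [IsDiscreteValuationRing O]
    [IsAdicComplete (maximalIdeal O) O] [Finite (ResidueField O)] [CharZero O]
    [CharP (ResidueField O) p] {L : ℕ} [NeZero L] [NeZero (L₀ * ∏ v ∈ V, v)]
    (hL : L = L₀ * (∏ v ∈ V, v) * ∏ q ∈ Q, q)
    {Δ : Type} [CommGroup Δ] [Fintype Δ] (ψ : (ZMod L)ˣ →* Δ) (hΔp : IsPGroup p Δ)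
    (hψ : Function.Surjective ψ) {S : Finset ℕ} (hpS : p ∈ S)
    (hS : ∀ ℓ : ℕ, ℓ.Prime → ℓ ∣ L ∨ (ℓ : ℤ) ∣ W.Δ → ℓ ∈ S) :
    ∃ (H : HeckeModule L ψ S (curveAbar W (ResidueField O))) (_ : IsLocalRing H.algebra),
      IsLocalHom (algebraMap O H.algebra) ∧ IsResAlg O H.algebra ∧ 0 < H.d ∧
        H.d ≤ rankBound (L₀ * ∏ v ∈ V, v) (L₀.primeFactors.card + V.card + Q.card) := by
  have hsq : Squarefree L := hL ▸ hbase.squarefree_level hV hQ hQd
  obtain ⟨a, ha, haL, -, ha3⟩ := hbase.exists_three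
  rw [← card_primeFactors_level hbase.ne_zero (fun v hv => (hV v hv).1) (fun q hq => (hQ q hq).1)
    (fun v hv => (hV v hv).not_dvd_base hbase) hQd, ← hL]
  exact exists_heckeModule (p := p) hp2 hΔp hψ hsq (fun v hv hvL => hS v hv (Or.inl hvL))
    (exists_curveAbar_ne hΔ hp2 hirr _ S)
    (isCongruentLevel_of_congBelow hRaise hCong hΔ hp2 hW hirr _ hsq hpS hS
      (hmod.mono (hL ▸ dvd_mul_right _ _)))
    ha.1 (hL ▸ dvd_mul_of_dvd_left (dvd_mul_of_dvd_left haL _) _) ha3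
    (fun M g hg hML => not_dvd_newform_level hAv hp2 hW hirr ha hsq _ M g hg hML)
    (fun M g hg hML => newform_level_dvd_base hAv hp2 hW hirr hQ (hL ▸ hsq) _ M g hg (hL ▸ hML))

end Fermat.Agent.RT.Lower

end
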