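import Fermat.Agent.RT.Lower.Curve
import Fermat.Agent.RT.Lower.Levels

/-!
# The level inputs of the patching step, from the facts about the curve
-/

set_option autoImplicit false

noncomputable section

open WeierstrassCurve CongruenceSubgroup

namespace Fermat.Agent.RT.Lower

theorem congruentResidual : CongruentResidual := by
  intro W p _ hΔ _ _ _ k _ _ S M _ h
  let : Algebra (ZMod p) k := ZMod.algebra k p
  obtain ⟨g, hg⟩ := h
  exact isResiduallyModularOfLevel_of_congruent hΔ hg

theorem residualCongruent : ResidualCongruent := by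
  intro W p _ _ _ _ _ k _ _ S M _ hpS hS hmod
  let : Algebra (ZMod p) k := ZMod.algebra k p
  refine isCongruentLevel_of_isResiduallyModular (p := p) (fun ℓ hℓ h => ?_) hmod
  rcases h with rfl | h
  · exact hpS
  · exact hS ℓ hℓ h

theorem avoidsLevels : AvoidsLevels := by
  intro W p _ hΔ _ _ _ k _ _ S M g hg hcongr hM r hr hrM
  obtain ⟨hrP, hrp, -, hr'⟩ := hr
  let : Algebra (ZMod p) k := ZMod.algebra k p
  have : NeZero M := ⟨hM.ne_zero⟩
  have hr2 : ¬ r ^ 2 ∣ M := fun h => hrP.not_isUnit (hM r (by rwa [← pow_two]))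
  obtain ⟨D, hD⟩ := Semistable.exists_localModel M p
  obtain ⟨hU, hT⟩ := hD r hrP hrp hrM hr2
  obtain ⟨A, hA⟩ := Arith.exists_liesOverPrime hrP
  obtain ⟨σ, hσ⟩ := Arith.exists_isFrobeniusAt hA hrP
  have h := trace_sq_of_special hΔ hg hcongr hrP hrp hrM D hU hT hA hσ
  refine hr' A hA σ hσ ((algebraMap (ZMod p) k).injective ?_)
  rwa [map_pow, map_pow, map_add, map_natCast, map_one, ← trace_curveRho]

end Fermat.Agent.RT.Lower

end
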