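import Fermat.Agent.RT.Lower.Assembly
import Fermat.Agent.RT.Assembly.Level
import Fermat.Agent.RT.Assembly.Coeff

/-!
# The patching step from patching levels of bounded rank

If no level without `v₀` occurs, every level is killed modulo the uniformiser by the relation
`frobRel` at `v₀`, against the support theorem at the monomial `s ^ 2`.
-/

set_option autoImplicit false

noncomputable section

open WeierstrassCurve IsLocalRing MvPowerSeries
open Fermat.Agent.RT.Germ Fermat.Agent.RT.Assembly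

namespace Fermat.Agent.RT.Lower

/-- Patching levels of bounded rank exist when a scalar prime cannot be removed. -/
def LevelsExist : Prop :=
  ∀ (W : WeierstrassCurve ℤ) (p : ℕ) [Fact p.Prime] (hΔ : W.Δ ≠ 0), p ≠ 2 →
    W.IsSemistableModel → W.ModRepIsIrreducible p →
    ∀ (L₀ : ℕ) (V : Finset ℕ), IsBaseLevel W p hΔ L₀ →
      (∀ v ∈ V, IsScalarPrime W p hΔ v) →
      (p ∣ L₀ → ¬ CongBelow W p (L₀ * (∏ v ∈ V, v) / p)) →
      CongBelow W p (L₀ * ∏ v ∈ V, v) →
    ∀ (v₀ : V), ¬ CongBelow W p (L₀ * ∏ v ∈ V.erase v₀.1, v) →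
    ∀ (O : Type) [CommRing O] [IsDomain O] [IsDiscreteValuationRing O]
      [IsAdicComplete (maximalIdeal O) O] [Finite (ResidueField O)] [CharZero O]
      [CharP (ResidueField O) p],
      (p : O) ∈ maximalIdeal O →
      (∀ f : Polynomial (ZMod p), f.natDegree = 2 →
        ∃ x : ResidueField O, (f.map (ZMod.castHom dvd_rfl _)).IsRoot x) →
      ∀ (ζ ζi c π : O), IsPrimitiveRoot ζ p → ζ * ζi = 1 → 2 * c = 1 → Irreducible π →
      ∃ g r B : ℕ, r = 3 * Nat.card V + g ∧
        ∀ n : ℕ, Nonempty (PatchLevel (fun _ : V => c * (ζ - ζi))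
          (frobRel (g := g) c v₀ v₀.1) π p r B n)

theorem coeff_frobRel_sq {V : Type} {O : Type} [CommRing O] {g : ℕ} (c : O) (v₀ : V) (v : ℕ) :
    MvPowerSeries.coeff (Finsupp.single (Sum.inl (v₀, 1, 0)) 2)
      (frobRel (g := g) c v₀ v) = 1 := by
  classical
  have h1 : (Finsupp.single (Sum.inl (v₀, (1 : Fin 2), (0 : Fin 3))) 2 : Coord V (Fin g) →₀ ℕ) ≠
      Finsupp.single (Sum.inl (v₀, 1, 1)) 1 + Finsupp.single (Sum.inl (v₀, 1, 2)) 1 := by
    intro h
    have := congrArg (fun e => e (Sum.inl (v₀, 1, 1))) h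
    simp at this
  simp only [frobRel, map_sub, map_add, X_pow_eq, coeff_monomial, if_true, coeff_C,
    show (X (Sum.inl (v₀, 1, 1)) * X (Sum.inl (v₀, 1, 2)) :
      MvPowerSeries (Coord V (Fin g)) O) =
      monomial (Finsupp.single (Sum.inl (v₀, 1, 1)) 1 + Finsupp.single (Sum.inl (v₀, 1, 2)) 1) 1
      by rw [X_def, X_def, monomial_mul_monomial, one_mul]]
  rw [if_neg h1, if_neg (Finsupp.single_ne_zero.mpr two_ne_zero), add_zero, sub_zero]

/-- **The patching step.** -/
theorem germStep_of_levels (hlev : LevelsExist) : GermStep := by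
  classical
  intro W p hpf hΔ hp2 hW hirr L₀ V hbase hV hstrict hmod v₀ hv₀
  by_contra hno
  have hp : p.Prime := hpf.out
  obtain ⟨O, i1, i2, i3, i4, i5, i6, i7, hpO, ⟨ζ, hζ⟩, hroot, φ, hφinj, hφ⟩ := exists_coeff p
  have h2k : (2 : ResidueField O) ≠ 0 := fun h0 => by
    have h0' : ((2 : ℕ) : ResidueField O) = 0 := h0
    rw [CharP.cast_eq_zero_iff (ResidueField O) p] at h0'
    exact hp2 ((Nat.prime_dvd_prime_iff_eq hp Nat.prime_two).mp h0')
  have h2 : IsUnit (2 : O) := by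
    by_contra h
    refine h2k ?_
    rw [← map_ofNat (residue O) 2, residue_eq_zero_iff]
    exact h
  obtain ⟨π, hπ⟩ := IsDiscreteValuationRing.exists_irreducible O
  obtain ⟨c, hc⟩ := h2.exists_right_inv
  set ζi := ζ ^ (p - 1) with hζi
  have hζmul : ζ * ζi = 1 := by
    rw [hζi, ← pow_succ', Nat.sub_add_cancel hp.one_le, hζ.pow_eq_one]
  obtain ⟨g, r, B, hr, hP⟩ := hlev W p hΔ hp2 hW hirr L₀ V hbase hV hstrict hmod ⟨v₀, hv₀⟩ hno
    O hpO hroot ζ ζi c π hζ hζmul hc hπ
  have hne : ζ ≠ ζi := fun h => by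
    rw [← h] at hζmul
    have := (hζ.pow_eq_one_iff_dvd 2).mp (by rw [pow_two, hζmul])
    exact hp2 ((Nat.prime_dvd_prime_iff_eq hp Nat.prime_two).mp this)
  have hm : ∀ x : O, x ^ p = 1 → x - 1 ∈ maximalIdeal O := fun x hx => by
    rw [← residue_eq_zero_iff, map_sub, map_one, sub_eq_zero]
    have h := congrArg (residue O) hx
    rw [map_pow, map_one] at h
    exact frobenius_inj (ResidueField O) p (by simpa [frobenius_def] using h)
  have hζim : ζi - 1 ∈ maximalIdeal O :=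
    hm ζi (by rw [hζi, ← pow_mul, mul_comm, pow_mul, hζ.pow_eq_one, one_pow])
  have hδm : c * (ζ - ζi) ∈ maximalIdeal O := by
    refine Ideal.mul_mem_left _ _ ?_
    rw [← sub_sub_sub_cancel_right ζ ζi 1]
    exact sub_mem (hm ζ hζ.pow_eq_one) hζim
  have h2K : ‖(2 : ℂ_[p])‖ = 1 := by
    refine le_antisymm ?_ ?_
    · have := Germ.norm_coe_le (φ 2)
      rwa [map_ofNat, coe_two] at this
    · have h := congrArg (fun x : O => ((φ x : ball1 ℂ_[p]) : ℂ_[p])) hc
      simp only [map_mul, map_one, Subring.coe_mul, Subring.coe_one, map_ofNat, coe_two] at h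
      have h' := congrArg (fun x : ℂ_[p] => ‖x‖) h
      simp only [norm_mul, norm_one] at h'
      calc (1 : ℝ) = ‖(2 : ℂ_[p])‖ * ‖((φ c : ball1 ℂ_[p]) : ℂ_[p])‖ := h'.symm
        _ ≤ ‖(2 : ℂ_[p])‖ := mul_le_of_le_one_right (norm_nonneg _) (Germ.norm_coe_le _)
  have key := coeff_mem_maximalIdeal_of_patchLevels φ hφinj hφ h2K
    (δ := fun _ : V => c * (ζ - ζi))
    (fun _ => mul_ne_zero (fun h => by simp [h] at hc) (sub_ne_zero.mpr hne)) (fun _ => hδm)
    hp hpO hr hπ hP (d := Finsupp.single (Sum.inl ((⟨v₀, hv₀⟩ : V), 1, 0)) 2)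
    (fun v l => by simp)
  rw [coeff_frobRel_sq] at key
  exact (maximalIdeal.isMaximal O).ne_top ((Ideal.eq_top_iff_one _).mpr key)

end Fermat.Agent.RT.Lower

end
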