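import Fermat.Agent.RT.Lower.Normalise
import Fermat.Agent.RT.Assembly.Level
import Fermat.Agent.RT.Assembly.LevelChar
import Fermat.Agent.RT.Assembly.Diamond
import Fermat.Agent.RT.Assembly.Tame
import Fermat.Agent.RT.Glue.Bridge
import Fermat.Agent.Deform.Residual
import Fermat.Agent.CFT.Local.Global

/-!
# A patching level from a Hecke module

For places `V` with scalar residual Frobenius and auxiliary primes, the representation over the
Hecke algebra of a level gives a `PatchLevel`, once the derivations killing the coordinates of the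
places are bounded.
-/

set_option autoImplicit false
set_option linter.style.haveILetI false

noncomputable section

namespace Fermat.Agent.RT.Lower

open IsLocalRing Polynomial Fermat.Agent.Deform Fermat.Agent.Arith Fermat.Agent.CFT.Tangent
open Fermat.Agent.CFT.Local
open Fermat.Agent.RT.Assembly Fermat.Agent.RT.Glue
open GaloisReps (AbsGal HeckeGaloisModel)
open NewformLocal (UnipotentAt ToricSquareAt)

/-- An inertia element at `v` moving a `p`-th root of a uniformiser. -/
def IsTameGenerator (p v : ℕ) [Fact v.Prime] (σ : Gal) : Prop :=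
  σ ∈ (padicPlace v).inertiaSubgroupIn ℚ ∧ ∃ (π : QBar) (m : ℤ), π ≠ 0 ∧
    Mazur.Eisenstein.ordAt (padicPlace v) v π = m / p ∧
    EC.Reduction.res (padicPlace v) (σ π / π) ≠ 1 ∧
    EC.Reduction.res (padicPlace v) (σ π / π) ^ p = 1

theorem trace_units_conj {R : Type} [CommRing R] (P : (M2 R)ˣ) (X : M2 R) :
    ((↑P⁻¹ : M2 R) * X * P).trace = X.trace := by
  rw [Matrix.trace_mul_comm, ← mul_assoc, Units.mul_inv, one_mul]

theorem det_units_conj {R : Type} [CommRing R] (P : (M2 R)ˣ) (X : M2 R) :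
    ((↑P⁻¹ : M2 R) * X * P).det = X.det := by
  rw [Matrix.det_mul, Matrix.det_mul, mul_comm, ← mul_assoc, ← Matrix.det_mul, Units.mul_inv,
    Matrix.det_one, one_mul]

theorem mem_zpowers_of_pow_eq {Δ : Type} [CommGroup Δ] [Finite Δ] {x g : Δ} {h : ℕ}
    (hh : h.Coprime (Nat.card Δ)) (hx : x ^ h = g) : x ∈ Subgroup.zpowers g := by
  have : x = g ^ Nat.gcdA h (Nat.card Δ) := by
    have e := Nat.gcd_eq_gcd_ab h (Nat.card Δ)
    rw [hh.gcd_eq_one, Nat.cast_one] at e
    conv_lhs => rw [← zpow_one x, e, zpow_add, zpow_mul, zpow_mul, zpow_natCast, zpow_natCast,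
      pow_card_eq_one', one_zpow, mul_one, hx]
  exact this ▸ Subgroup.zpow_mem_zpowers g _

/-- A unit is determined by its reductions modulo `v` and `L / v`. -/
theorem units_ext_of_dvd {L v : ℕ} (hv : v ∣ L) (hcop : v.Coprime (L / v)) {u u' : (ZMod L)ˣ}
    (h1 : ZMod.unitsMap hv u = ZMod.unitsMap hv u')
    (h2 : ZMod.unitsMap (Nat.div_dvd_of_dvd hv) u = ZMod.unitsMap (Nat.div_dvd_of_dvd hv) u') :
    u = u' := by
  let e : ZMod L ≃+* ZMod v × ZMod (L / v) :=
    (ZMod.ringEquivCongr (Nat.mul_div_cancel' hv).symm).trans (ZMod.chineseRemainder hcop)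
  have k1 : ∀ w : (ZMod L)ˣ, (e (w : ZMod L)).1 = (ZMod.unitsMap hv w : ZMod v) := fun w =>
    RingHom.congr_fun (Subsingleton.elim ((RingHom.fst _ _).comp e.toRingHom)
      (ZMod.castHom hv (ZMod v))) _
  have k2 : ∀ w : (ZMod L)ˣ, (e (w : ZMod L)).2 =
      (ZMod.unitsMap (Nat.div_dvd_of_dvd hv) w : ZMod (L / v)) := fun w =>
    RingHom.congr_fun (Subsingleton.elim ((RingHom.snd _ _).comp e.toRingHom)
      (ZMod.castHom (Nat.div_dvd_of_dvd hv) (ZMod (L / v)))) _
  exact Units.ext (e.injective (Prod.ext (by rw [k1, k1, h1]) (by rw [k2, k2, h2])))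

variable {O : Type} [CommRing O] [IsDomain O] [IsDiscreteValuationRing O]

omit [IsDomain O] [IsDiscreteValuationRing O] in
theorem commute_dia [IsLocalRing O] {L : ℕ} {Δ : Type} [CommGroup Δ] {ψ : (ZMod L)ˣ →* Δ}
    {S : Finset ℕ} {abar : ℕ → ResidueField O} (H : HeckeModule L ψ S abar)
    {a : Module.End O H.M} (ha : a ∈ H.algebra) (δ : Δ) : a * H.dia δ = H.dia δ * a := by
  induction ha using Algebra.adjoin_induction with
  | mem x hx =>
    rcases hx with ⟨ε, rfl⟩ | ⟨ℓ, -, rfl⟩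
    · rw [← map_mul, ← map_mul, mul_comm]
    · exact H.dia_comm ℓ δ
  | algebraMap r => exact Algebra.commutes r _
  | add x y _ _ hx hy => rw [add_mul, mul_add, hx, hy]
  | mul x y _ _ hx hy => rw [mul_assoc, hy, ← mul_assoc, hx, mul_assoc]

/-- The derivations on the algebra of entries killing the coordinates of the places form a space
of dimension at most `g`. -/
def TangentBound {V A : Type} [CommRing A] [IsLocalRing A] [Algebra O A] [Module.Finite O A]
    [IsAdicComplete (maximalIdeal O) O]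
    (hA : IsResAlg O A) (c : O) (ru : Gal →* M2 A) (σT φT : V → Gal) (g : ℕ) : Prop :=
  ∀ [IsLocalRing (Algebra.adjoin O (entries ru))],
    Module.finrank (ResidueField O)
      (killedDer (isResAlg_subalgebra hA (Algebra.adjoin O (entries ru)))
        (placeCoord (algebraMap O _ c)
          (fun v => corestrict (Algebra.adjoin O (entries ru)) ru
            (fun σ i j => Algebra.subset_adjoin ⟨(σ, i, j), rfl⟩) (σT v))
          (fun v => corestrict (Algebra.adjoin O (entries ru)) ru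
            (fun σ i j => Algebra.subset_adjoin ⟨(σ, i, j), rfl⟩) (φT v)))) ≤ g

variable [IsAdicComplete (maximalIdeal O) O] [Finite (ResidueField O)] [CharZero O]
  {p : ℕ} [Fact p.Prime]

set_option maxHeartbeats 1000000 in
/-- **The patching level.** -/
theorem exists_level (hp : (p : O) ∈ maximalIdeal O) (hp2 : p ≠ 2) {ζ : O}
    (hζ : IsPrimitiveRoot ζ p) {c : O} (hc : 2 * c = 1) {π : O} (hπ : Irreducible π)
    {L : ℕ} [NeZero L] (hL : Squarefree L) {S : Finset ℕ} (hpS : p ∈ S)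
    (hS : ∀ q : ℕ, q.Prime → q ∣ L → q ∈ S) {abar : ℕ → ResidueField O}
    {ρbar : ResidualGaloisRep (ResidueField O)} (habs : ρbar.IsAbsolutelyIrreducible)
    (hbar : HasCharpolys S abar ρbar)
    {W : Rigid O} {bb : Module.Basis (Fin 2) (ResidueField O) ρbar.V} (hW : W.rb = matRes ρbar bb)
    (D : ∀ (M : ℕ) [NeZero M], HeckeGaloisModel M p)
    (hlocal : ∀ (M : ℕ) [NeZero M] (v : ℕ), v.Prime → v ≠ p → v ∣ M → ¬ v ^ 2 ∣ M →
      UnipotentAt (D M) v ∧ ToricSquareAt (D M) v)
    (hES : ∀ (M : ℕ) [NeZero M], GaloisReps.CongruenceProperty M p)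
    (hE : ∀ (v R M : ℕ) [Fact v.Prime] [NeZero R] [NeZero M]
      (g : CuspForm (CongruenceSubgroup.Gamma0 M) 2), InertiaTW.TraceInertia p v R M g)
    {V : Type} [Fintype V] (v₀ : V) {m : ℕ} (vT : V → ℕ) (qv : Fin m → ℕ)
    [hfT : ∀ v, Fact (vT v).Prime] [hfQ : ∀ i, Fact (qv i).Prime]
    (hdvd : ∀ x, Sum.elim vT qv x ∣ L) (hinj : Function.Injective (Sum.elim vT qv)) (n : ℕ)
    (hT : ∀ v, p ∣ vT v - 1) (hQ : ∀ i, p ^ (n + 1) ∣ qv i - 1)
    (hunrT : ∀ v, ρbar.IsUnramifiedAt (vT v)) (hunrQ : ∀ i, ρbar.IsUnramifiedAt (qv i))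
    (hscal : ∀ v, ∀ φ : AbsGal, (padicPlace (vT v)).IsFrobeniusAt φ (vT v) →
      ∃ e : ResidueField O, ρbar.ρ φ = e • 1)
    (hncl : ¬ IsCongruentLevel S abar (L / vT v₀))
    (B g : ℕ)
    (hH : ∀ ψ : (ZMod L)ˣ →* LevelGroup V p m n, Function.Surjective ψ →
      (∀ w : ℕ, w.Prime → w ∣ L → (∀ x, Sum.elim vT qv x ≠ w) →
        ∀ u : (ZMod L)ˣ, ((u : ZMod L).cast : ZMod (L / w)) = 1 → ψ u = 1) →
      ∃ H : HeckeModule L ψ S abar, 0 < H.d ∧ H.d ≤ B)
    (hg : ∀ (ψ : (ZMod L)ˣ →* LevelGroup V p m n),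
      (∀ w : ℕ, w.Prime → w ∣ L → (∀ x, Sum.elim vT qv x ≠ w) →
        ∀ u : (ZMod L)ˣ, ((u : ZMod L).cast : ZMod (L / w)) = 1 → ψ u = 1) →
      ∀ (H : HeckeModule L ψ S abar) [IsLocalRing H.algebra] [Module.Finite O H.algebra]
        (hA : IsResAlg O H.algebra)
        (pt : ∀ θ : H.algebra →ₐ[O] KBar O, Point (p := p) H hS θ.toRingHom) (G : Glued D pt)
        (P : (M2 H.algebra)ˣ) (σT φT : V → Gal),
      Lifts W hA (conjM P G.R) → IsNormal W (conjM P G.R) →
      (∀ v, IsTameGenerator p (vT v) (σT v) ∧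
        (padicPlace (vT v)).IsFrobeniusAt (φT v) (vT v)) →
      TangentBound hA c (conjM P G.R) σT φT g) :
    Nonempty (PatchLevel (fun _ : V => c * (ζ - ζ ^ (p - 1)))
      (frobRel (g := g) c v₀ (vT v₀)) π p m B n) := by
  classical
  have hpr : p.Prime := Fact.out
  have : Nonempty V := ⟨v₀⟩
  have hprime : ∀ x, (Sum.elim vT qv x).Prime := by
    rintro (v | i)
    exacts [(hfT v).out, (hfQ i).out]
  have hne_p : ∀ x, Sum.elim vT qv x ≠ p := by
    intro x h
    have hd : p ∣ Sum.elim vT qv x - 1 := by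
      rcases x with v | i
      exacts [hT v, (dvd_pow_self p n.succ_ne_zero).trans (hQ i)]
    rw [h] at hd
    have := Nat.le_of_dvd (by have := hpr.two_le; omega) hd
    have := hpr.pos
    omega
  -- inertia elements and the character of the level
  have hdat : ∀ x : V ⊕ Fin m, ∃ (σ : Gal) (a : (ZMod (Sum.elim vT qv x))ˣ),
      haveI : Fact (Sum.elim vT qv x).Prime := ⟨hprime x⟩
      IsTameGenerator p (Sum.elim vT qv x) σ ∧
        (∀ μ : QBar, μ ^ Sum.elim vT qv x = 1 →
          σ μ = μ ^ (a : ZMod (Sum.elim vT qv x)).val) ∧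
        orderOf a = Sum.elim vT qv x - 1 := by
    intro x
    haveI : Fact (Sum.elim vT qv x).Prime := ⟨hprime x⟩
    have hd : p ∣ Sum.elim vT qv x - 1 := by
      rcases x with v | i
      exacts [hT v, (dvd_pow_self p n.succ_ne_zero).trans (hQ i)]
    obtain ⟨σ, a, π', m', hσ, hμ, ha, h0, hord, h1, h2⟩ :=
      exists_inertia_uniformiser hpr (padicPlace_liesOverPrime _) (hprime x) hd
    exact ⟨σ, a, ⟨hσ, π', m', h0, hord, h1, h2⟩, hμ, ha⟩
  choose σx a hσx haμ haord using hdat
  obtain ⟨ψ, hψsurj, hψgen, hψtriv⟩ := exists_levelPsi hp2 n hL vT qv hprime hdvd hinj hT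
    (fun i => (pow_dvd_pow p n.le_succ).trans (hQ i)) a haord
  have hψtriv' : ∀ w : ℕ, w.Prime → w ∣ L → (∀ x, Sum.elim vT qv x ≠ w) →
      ∀ u : (ZMod L)ˣ, ((u : ZMod L).cast : ZMod (L / w)) = 1 → ψ u = 1 :=
    fun w hw hwL hne u hu => hψtriv w hne hw hwL u hu
  have hcop : ∀ x, (Sum.elim vT qv x).Coprime (L / Sum.elim vT qv x) := fun x =>
    (hprime x).coprime_iff_not_dvd.mpr (GammaH.coprime_div_of_squarefree hL (hprime x) (hdvd x))
  have hu : ∀ x, ∃ u : (ZMod L)ˣ, ((u : ZMod L).cast : ZMod (L / Sum.elim vT qv x)) = 1 ∧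
      ZMod.unitsMap (hdvd x) u = a x := fun x => exists_unit_crt (hdvd x) (hcop x) (a x)
  choose u hu1 hu2 using hu
  have hu3 : ∀ x, ψ (u x) ^ halfInvExp (LevelGroup V p m n) = levelGen p n x :=
    fun x => hψgen x (u x) (hu1 x) (hu2 x)
  -- the Hecke module and its representation
  obtain ⟨H, hd, hdB⟩ := hH ψ hψsurj hψtriv'
  have hΔ : IsPGroup p (LevelGroup V p m n) := isPGroup_levelGroup p n
  haveI := isLocalRing_algebra (H := H) hp hΔ hd
  haveI := isLocalHom_algebraMap (H := H) hp hΔ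
  haveI : Module.Finite O H.algebra := inferInstance
  haveI := isAdicComplete_algebra H
  have hA : IsResAlg O H.algebra :=
    ⟨inferInstance, fun y => residue_algebraMap_surjective H hp hΔ y⟩
  obtain ⟨pt, G, hG, -, -, -⟩ := exists_rep (H := H) hp hΔ hp2 hpS hS habs hbar D
  obtain ⟨b, hb⟩ := exists_lifts_basis hW hA G.rep hG
  obtain ⟨P₀, hP₀, hconj₀⟩ := exists_conj_of_isEquiv
    (isEquiv_symm (isEquiv_toRep_matOf G.rep b) :
      (toRep (matOf G.rep b) (isCont_matOf G.rep b)).IsEquiv (toRep G.R G.cont))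
  obtain ⟨P₀, rfl⟩ := hP₀
  obtain ⟨P₁, hl, hn⟩ := exists_normal hb
  set P := P₀ * P₁ with hP
  have hru : conjM P₁ (matOf G.rep b) = conjM P G.R := MonoidHom.ext fun σ => by
    have e : matOf G.rep b σ = (↑P₀⁻¹ : M2 H.algebra) * G.R σ * P₀ := by
      rw [mul_assoc, ← hconj₀, Units.inv_mul_cancel_left]
    simp only [conjM_apply, e, hP, mul_inv_rev, Units.val_mul, mul_assoc]
  rw [hru] at hl hn
  set ru := conjM P G.R with hrudef
  have hcont : IsCont ru := G.cont.conj P
  have htrace : ∀ σ, (ru σ).trace = (G.R σ).trace := fun σ => by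
    rw [hrudef, conjM_apply, trace_units_conj]
  have hdet : ∀ σ, (ru σ).det = (G.R σ).det := fun σ => by
    rw [hrudef, conjM_apply, det_units_conj]
  have hplace : ∀ x, haveI : Fact (Sum.elim vT qv x).Prime := ⟨hprime x⟩
      (padicPlace (Sum.elim vT qv x)).LiesOverPrime (Sum.elim vT qv x) :=
    fun x => @padicPlace_liesOverPrime _ ⟨hprime x⟩
  -- inertia traces
  have htr2 : ∀ x, ∀ A : ValuationSubring QBar, A.LiesOverPrime (Sum.elim vT qv x) →
      ∀ σ ∈ A.inertiaSubgroupIn ℚ, LinearMap.trace (ResidueField O) ρbar.V (ρbar.ρ σ) = 2 := by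
    intro x A hA' σ hσ
    have h1 : ρbar.ρ σ = 1 := by
      rcases x with v | i
      exacts [hunrT v A hA' σ hσ, hunrQ i A hA' σ hσ]
    rw [h1, LinearMap.trace_one, ρbar.finrank_eq, Nat.cast_ofNat]
  have hdiaA : ∀ δ, ((diaA H δ : H.algebra) : Module.End O H.M) = H.dia δ := fun δ => rfl
  have htrσ : ∀ x, (ru (σx x)).trace =
      diaA H (levelGen p n x) + diaA H (levelGen p n x)⁻¹ := by
    intro x
    haveI : Fact (Sum.elim vT qv x).Prime := ⟨hprime x⟩
    have htw := G.twistedInertia hp hΔ hp2 hpS hL (hdvd x) (hne_p x) (fun R M _ _ g => hE _ R M g)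
      (@hES _ ⟨by rw [← mul_pow, Nat.mul_div_cancel' (hdvd x)]; exact pow_ne_zero 2 (NeZero.ne L)⟩) (fun M _ _ h1 h2 => (hlocal M _ (hprime x) (hne_p x) h1 h2).1) hG (htr2 x)
    rw [htrace]
    refine sub_eq_zero.mp (eq_zero_of_forall_point fun θ => ?_)
    have h := htw _ (hplace x) (σx x) (hσx x).1 (a x : ZMod (Sum.elim vT qv x)).val (haμ x) (u x)
      (hu1 x) (by rw [← hu2 x, ZMod.natCast_zmod_val, ZMod.unitsMap_val]) θ
    rw [map_sub, G.trace_eq, h, hu3 x, map_add, sub_self]
  have hdetσ : ∀ x, (ru (σx x)).det = 1 := by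
    intro x
    haveI : Fact (Sum.elim vT qv x).Prime := ⟨hprime x⟩
    rw [hdet]
    refine sub_eq_zero.mp (eq_zero_of_forall_point fun θ => ?_)
    rw [map_sub, G.det_eq, (pt θ).det_rep D,
      (D (pt θ).M).det_eigenAction_of_roots _ _ (pt θ).p_mem (q := 1) fun k μ hμ => by
        rw [pow_one]
        exact Arith.inertia_root (hplace x) (hprime x) (hσx x).1 hμ fun h => hne_p x
          ((Nat.prime_dvd_prime_iff_eq (hprime x) hpr).1 ((hprime x).dvd_of_dvd_pow h)),
      Nat.cast_one, map_one, map_one, sub_self]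
  -- Frobenius elements
  have hφex : ∀ v, ∃ φ : Gal, (padicPlace (vT v)).IsFrobeniusAt φ (vT v) :=
    fun v => Arith.exists_isFrobeniusAt (padicPlace_liesOverPrime _) (hfT v).out
  choose φT hφT using hφex
  have hdetφ : ∀ v, (ru (φT v)).det = (vT v : H.algebra) := by
    intro v
    rw [hdet]
    refine sub_eq_zero.mp (eq_zero_of_forall_point fun θ => ?_)
    rw [map_sub, G.det_eq, (pt θ).det_rep D,
      (D (pt θ).M).det_eigenAction_of_roots _ _ (pt θ).p_mem (q := vT v) fun k μ hμ =>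
        GaloisReps.frobenius_apply_root (padicPlace_liesOverPrime _) (hfT v).out (hφT v) hμ fun h =>
          hne_p (Sum.inl v) ((Nat.prime_dvd_prime_iff_eq (hfT v).out hpr).1
            ((hfT v).out.dvd_of_dvd_pow h)),
      map_natCast, map_natCast, sub_self]
  -- residual values
  have haug : ∀ σ i j, augment hA (ru σ i j) = LinearMap.toMatrixAlgEquiv bb (ρbar.ρ σ) i j :=
    fun σ i j => by rw [hl σ i j, hW]; rfl
  have hinert : ∀ v, ∀ σ ∈ (padicPlace (vT v)).inertiaSubgroupIn ℚ, ∀ i j,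
      augment hA (ru σ i j) = if i = j then 1 else 0 := by
    intro v σ hσ i j
    rw [haug, hunrT v _ (padicPlace_liesOverPrime _) σ hσ, map_one, Matrix.one_apply]
  have hresφ : ∀ v, ∃ e, ∀ i j, augment hA (ru (φT v) i j) = if i = j then e else 0 := by
    intro v
    obtain ⟨e, he⟩ := hscal v (φT v) (hφT v)
    refine ⟨e, fun i j => ?_⟩
    rw [haug, he, map_smul, map_one, Matrix.smul_apply, Matrix.one_apply, smul_eq_mul, mul_ite,
      mul_one, mul_zero]
  have hmemp : (p : H.algebra) ∈ maximalIdeal H.algebra := natCast_mem hp hΔ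
  haveI : IsNoetherianRing H.algebra := IsNoetherianRing.of_finite O H.algebra
  have hconj : ∀ v, ru (φT v) * ru (σx (Sum.inl v)) = ru (σx (Sum.inl v)) ^ vT v * ru (φT v) :=
    fun v => by
      obtain ⟨hν, htriv⟩ := Assembly.tameTrivial_frobenius_conj (hφT v) (hσx (Sum.inl v)).1
      have h1 := eq_one_of_tame (p := p) hmemp hcont (padicPlace_liesOverPrime _) (hfT v).out
        (hne_p (Sum.inl v)) hν htriv fun i j => by
          rw [← augment_eq_zero_iff hA, map_sub, hinert v _ hν i j, Matrix.one_apply]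
          split_ifs <;> simp
      calc ru (φT v) * ru (σx (Sum.inl v))
          = ru (φT v * σx (Sum.inl v) * (φT v)⁻¹ * (σx (Sum.inl v) ^ vT v)⁻¹ *
              (σx (Sum.inl v) ^ vT v * φT v)) := by
            rw [← map_mul]; congr 1; group
        _ = ru (σx (Sum.inl v)) ^ vT v * ru (φT v) := by
            rw [map_mul ru, h1, one_mul, map_mul, map_pow]
  -- matrices along the character of the level
  let DB : DiaBasis H.dia H.d := ⟨H.basis, H.basis_bijective⟩
  let χ : LevelGroup V p m n →* MvPowerSeries (Fin m) O ⧸ levelIdeal O p n :=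
    levelChar hζ.pow_eq_one n
  let rep := DB.rep χ (A := H.algebra) fun a ha δ => commute_dia H ha δ
  have hrep : ∀ δ, rep (diaA H δ) = χ δ • 1 := fun δ => DB.mat_dia χ δ
  have hgenT : ∀ v, χ (levelGen p n (Sum.inl v)) = algebraMap O _ ζ := fun v => by
    show levelChar hζ.pow_eq_one n (.ofAdd ((Pi.single v 1 : V → ZMod p), 0)) = _
    haveI : Fact (1 < p) := ⟨hpr.one_lt⟩
    rw [levelChar_apply_left, ZMod.val_one, pow_one]
  have hgenQ : ∀ i, χ (levelGen p n (Sum.inr i)) =
      1 + Ideal.Quotient.mk (levelIdeal O p n) (MvPowerSeries.X i) := fun i => by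
    show (∏ v, algebraMap O (MvPowerSeries (Fin m) O ⧸ levelIdeal O p n) ζ ^
        ((0 : V → ZMod p) v).val) * ∏ l, (1 + Ideal.Quotient.mk (levelIdeal O p n)
        (MvPowerSeries.X l)) ^ ((Pi.single i 1 : Fin m → ZMod (p ^ n)) l).val = _
    rw [Finset.prod_eq_one (fun v _ => by simp), one_mul, Finset.prod_eq_single i]
    · rw [Pi.single_eq_same]
      refine (pow_eq_of_mod_eq (one_add_mk_pow n i) (b := 1) ?_).trans (pow_one _)
      rw [ZMod.val_one_eq_one_mod, Nat.mod_mod]
    · intro l _ hl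
      simp [Pi.single_eq_of_ne hl]
    · simp
  have hζi : ζ * ζ ^ (p - 1) = 1 := by
    rw [← pow_succ', Nat.sub_add_cancel hpr.pos, hζ.pow_eq_one]
  have hζne : ζ ≠ ζ ^ (p - 1) := fun h => by
    have h2 : ζ ^ 2 = 1 := by rw [pow_two]; nth_rw 2 [h]; exact hζi
    have := Nat.le_of_dvd two_pos (hζ.dvd_of_pow_eq_one 2 h2)
    have := hpr.two_le
    omega
  have hgenTi : ∀ v, χ (levelGen p n (Sum.inl v))⁻¹ = algebraMap O _ (ζ ^ (p - 1)) := fun v => by
    refine (left_inv_eq_right_inv (a := algebraMap O _ ζ) ?_ ?_)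
    · rw [← hgenT v, ← map_mul χ, inv_mul_cancel, map_one]
    · rw [← map_mul, hζi, map_one]
  have htrT : ∀ v, rep (ru (σx (Sum.inl v))).trace =
      rep (algebraMap O H.algebra (ζ + ζ ^ (p - 1))) := fun v => by
    rw [htrσ, map_add, hrep, hrep, hgenT, hgenTi, AlgHom.commutes, map_add]
    simp only [Algebra.algebraMap_eq_smul_one, smul_assoc, one_smul]
  have htrQ : ∀ i, Matrix.scalar (Fin H.d)
      ((1 + Ideal.Quotient.mk (levelIdeal O p n) (MvPowerSeries.X i)) ^ 2 + 1) =
      Matrix.scalar (Fin H.d) (1 + Ideal.Quotient.mk (levelIdeal O p n) (MvPowerSeries.X i)) *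
        rep (ru (σx (Sum.inr i))).trace := fun i => by
    rw [htrσ, map_add rep, hrep, hrep, Matrix.scalar_apply, Matrix.scalar_apply]
    have hinv : χ (levelGen p n (Sum.inr i)) * χ (levelGen p n (Sum.inr i))⁻¹ = 1 := by
      rw [← map_mul, mul_inv_cancel, map_one]
    rw [hgenQ] at hinv ⊢
    ext k l
    rw [Matrix.diagonal_mul, Matrix.add_apply, Matrix.smul_apply, Matrix.smul_apply, smul_eq_mul,
      smul_eq_mul, Matrix.diagonal_apply, Matrix.one_apply]
    split_ifs
    · linear_combination -hinv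
    · ring
  -- the relation at `v₀`
  set w₀ := vT v₀ with hw₀
  have hf : ∀ i j, rep ((ru (φT v₀)).trace ^ 2 - ((w₀ : H.algebra) + 1) ^ 2) i j ∈
      Ideal.span {algebraMap O (MvPowerSeries (Fin m) O ⧸ levelIdeal O p n) π} := by
    set x := (ru (φT v₀)).trace ^ 2 - ((w₀ : H.algebra) + 1) ^ 2 with hx
    set K : Subgroup (LevelGroup V p m n) := Subgroup.zpowers (levelGen p n (Sum.inl v₀))
    haveI : Fintype K := Fintype.ofFinite _
    have hcardcop : (halfInvExp (LevelGroup V p m n)).Coprime (Nat.card (LevelGroup V p m n)) := by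
      rw [card_levelGroup]
      exact (coprime_halfInvExp hp2 n).pow_right _
    have hKmem : ∀ w : (ZMod L)ˣ, ((w : ZMod L).cast : ZMod (L / w₀)) = 1 → ψ w ∈ K := by
      intro w hw
      haveI : Fact (Sum.elim vT qv (Sum.inl v₀)).Prime := ⟨hprime _⟩
      have hgen : ∀ z, z ∈ Subgroup.zpowers (a (Sum.inl v₀)) := fun z => by
        have : Subgroup.zpowers (a (Sum.inl v₀)) = ⊤ := Subgroup.eq_top_of_card_eq _ (by
          rw [Nat.card_zpowers, haord, Nat.card_eq_fintype_card, ZMod.card_units])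
        rw [this]; trivial
      obtain ⟨j, hj⟩ := hgen (ZMod.unitsMap (hdvd (Sum.inl v₀)) w)
      have hwu : w = u (Sum.inl v₀) ^ j := by
        refine units_ext_of_dvd (hdvd (Sum.inl v₀)) (hcop _) ?_ ?_
        · rw [map_zpow, hu2]; exact hj.symm
        · rw [map_zpow, (GammaH.unitsMap_eq_one_iff _ _).2 (hu1 (Sum.inl v₀)), one_zpow]
          exact (GammaH.unitsMap_eq_one_iff _ _).2 hw
      rw [hwu, map_zpow]
      exact Subgroup.zpow_mem _ (mem_zpowers_of_pow_eq hcardcop (hu3 (Sum.inl v₀))) j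
    have hzero : (∑ k : K, diaA H (k : LevelGroup V p m n)) * x = 0 := by
      refine eq_zero_of_forall_complex hp fun θ => ?_
      rw [map_mul, map_sum]
      by_cases htriv : ∀ k : K, θ (diaA H (k : LevelGroup V p m n)) = 1
      · refine mul_eq_zero_of_right _ ?_
        have h := G.trace_sq_frobenius (hfT v₀).out (hdvd (Sum.inl v₀)) (hne_p (Sum.inl v₀)) hncl
          (fun M _ _ h1 h2 => hlocal M _ (hfT v₀).out (hne_p (Sum.inl v₀)) h1 h2)
          (padicPlace_liesOverPrime _) (hφT v₀) θ (fun w hw => htriv ⟨_, hKmem w hw⟩)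
        rw [G.trace_rep, ← htrace] at h
        rw [hx, map_sub, map_pow, map_pow, h, map_add, map_natCast, map_one, sub_self]
      · refine mul_eq_zero_of_left ?_ _
        push Not at htriv
        obtain ⟨k₀, hk₀⟩ := htriv
        refine eq_zero_of_mul_eq_self_left hk₀ ?_
        rw [Finset.mul_sum]
        refine Fintype.sum_equiv (Equiv.mulLeft k₀) _ _ fun k => ?_
        rw [← map_mul, ← map_mul, Equiv.coe_mulLeft, Subgroup.coe_mul]
    intro i j
    refine DB.mat_mem_of_mul_norm χ K ?_ _ (fun δ k hk => ?_) i j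
    · have := congrArg (Subtype.val : H.algebra → Module.End O H.M) hzero
      rw [MulMemClass.coe_mul, AddSubmonoidClass.coe_finsetSum, ZeroMemClass.coe_zero] at this
      exact this
    · rw [map_mul, ← mul_sub_one]
      refine Ideal.mul_mem_left _ _ ?_
      have hk' : k ∈ Submonoid.powers (levelGen p n (Sum.inl v₀)) :=
        (isOfFinOrder_of_finite _).mem_powers_iff_mem_zpowers.mpr hk
      obtain ⟨e, rfl⟩ := hk'
      rw [map_pow, hgenT]
      refine Ideal.mem_of_dvd _ (sub_one_dvd_pow_sub_one _ e) ?_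
      rw [← map_one (algebraMap O (MvPowerSeries (Fin m) O ⧸ levelIdeal O p n)), ← map_sub,
        Ideal.mem_span_singleton]
      refine map_dvd _ (Ideal.mem_span_singleton.mp ?_)
      rw [← hπ.maximalIdeal_eq, ← residue_eq_zero_iff, map_sub, map_one, sub_eq_zero]
      haveI : CharP (ResidueField O) p := (CharP.charP_iff_prime_eq_zero hpr).2 (by
        rw [← map_natCast (residue O), residue_eq_zero_iff]; exact hp)
      refine eq_of_sub_eq_zero ((pow_eq_zero_iff hpr.ne_zero).mp ?_)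
      rw [sub_pow_char, one_pow, ← map_pow, hζ.pow_eq_one, map_one, sub_self]
  haveI hloc : IsLocalRing (Algebra.adjoin O (entries ru)) := isLocalRing_subalgebra _
  have hvmod : ∀ v, vT v % p = 1 := fun v => by
    obtain ⟨t, ht⟩ := hT v
    rw [show vT v = 1 + p * t by have := (hfT v).out.one_lt; omega, Nat.add_mul_mod_self_left,
      Nat.one_mod_eq_one.mpr hpr.ne_one]
  exact exists_patchLevel hA hd hdB rep c hc ru (fun v => σx (Sum.inl v)) φT
    (fun i => σx (Sum.inr i)) ζ (ζ ^ (p - 1)) hζi hζ.pow_eq_one hζne vT hvmod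
    (fun v => hinert v _ (hσx (Sum.inl v)).1) hresφ (fun v => hdetσ (Sum.inl v)) hdetφ hconj htrT
    htrQ v₀ hf (hg ψ hψtriv' H hA pt G P _ φT hl hn fun v => ⟨hσx (Sum.inl v), hφT v⟩)

end Fermat.Agent.RT.Lower
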