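import Fermat.Agent.RT.Glue.Main

/-!
# The glued representation at an avoiding prime

The glued representation is unramified at a prime of the level that no congruent newform can
contain exactly once (an avoiding prime with trivial `ψ`). Descent of the conditions at `p` to
subalgebras is in `RT/Lower/Descent.lean`.
-/

set_option autoImplicit false
set_option linter.unusedSectionVars false
set_option linter.style.haveILetI false

noncomputable section

open IsLocalRing Polynomial

namespace Fermat.Agent.RT.Lower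

open GaloisReps (AbsGal HeckeGaloisModel)
open NewformLocal (UnipotentAt ToricSquareAt)

section Avoiding

variable {O : Type} [CommRing O] [IsDomain O] [IsDiscreteValuationRing O]
  [IsAdicComplete (maximalIdeal O) O] [Finite (ResidueField O)] [CharZero O]
  {p : ℕ} [Fact p.Prime]
  {L : ℕ} [NeZero L] {Δ : Type} [CommGroup Δ] [Finite Δ] {ψ : (ZMod L)ˣ →* Δ} {S : Finset ℕ}
  {abar : ℕ → ResidueField O}
  {H : HeckeModule L ψ S abar} {hS : ∀ q : ℕ, q.Prime → q ∣ L → q ∈ S}
  [IsLocalRing H.algebra] {D : ∀ (M : ℕ) [NeZero M], HeckeGaloisModel M p}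
  {pt : ∀ θ : H.algebra →ₐ[O] Glue.KBar O, Glue.Point (p := p) H hS θ.toRingHom}
  (G : Glue.Glued D pt)

/-- The trace of the residual representation of the glued representation. -/
theorem trace_residual_glued (σ : AbsGal) :
    LinearMap.trace (ResidueField H.algebra) _ (G.rep.residual.ρ σ) =
      residue H.algebra (LinearMap.trace H.algebra G.rep.V (G.rep.ρ σ)) := by
  obtain ⟨B, hB⟩ := Glue.toMatrix_residual_toRep G.cont
  rw [G.trace_rep, AddMonoidHom.map_trace (residue H.algebra)]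
  show LinearMap.trace (ResidueField H.algebra) (Deform.toRep G.R G.cont).residual.V
    ((Deform.toRep G.R G.cont).residual.ρ σ) = _
  rw [LinearMap.trace_eq_matrix_trace _ B]
  exact congrArg Matrix.trace (hB σ)

/-- The residual condition of an avoiding prime, lifted to the Hecke algebra. -/
theorem isUnit_trace_sq_sub [IsLocalHom (algebraMap O H.algebra)]
    {ρbar : ResidualGaloisRep (ResidueField O)}
    (hres : G.rep.residual.IsEquiv
      (ρbar.baseChangeAlong (ResidueField.map (algebraMap O H.algebra))))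
    {a : ℕ} {σ : AbsGal}
    (hne : LinearMap.trace (ResidueField O) _ (ρbar.ρ σ) ^ 2 ≠ ((a : ResidueField O) + 1) ^ 2) :
    IsUnit (LinearMap.trace H.algebra G.rep.V (G.rep.ρ σ) ^ 2 - ((a : H.algebra) + 1) ^ 2) := by
  set φ := ResidueField.map (algebraMap O H.algebra)
  obtain ⟨e⟩ := hres
  have h1 : LinearMap.trace (ResidueField H.algebra) _ (G.rep.residual.ρ σ) =
      φ (LinearMap.trace (ResidueField O) _ (ρbar.ρ σ)) := by
    have hconj : (e.toLinearEquiv).conj (G.rep.residual.ρ σ) = (ρbar.baseChangeAlong φ).ρ σ := by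
      refine LinearMap.ext fun x => ?_
      rw [LinearEquiv.conj_apply_apply]
      exact (e.map_apply σ _).trans (congrArg _ (e.toLinearEquiv.apply_symm_apply x))
    rw [← LinearMap.trace_conj' (G.rep.residual.ρ σ) e.toLinearEquiv, hconj]
    let b : Module.Basis (Fin 2) (ResidueField O) ρbar.V :=
      Module.finBasisOfFinrankEq _ _ ρbar.finrank_eq
    obtain ⟨B, hB⟩ := Glue.toMatrix_baseChangeAlong φ ρbar b
    rw [LinearMap.trace_eq_matrix_trace _ B, hB, ← AddMonoidHom.map_trace φ,
      ← LinearMap.trace_eq_matrix_trace _ b]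
  rw [← residue_ne_zero_iff_isUnit, map_sub, map_pow, map_pow, map_add, map_one, map_natCast,
    ← trace_residual_glued G σ, h1]
  intro h0
  refine hne (φ.injective ?_)
  rw [map_pow, map_pow, map_add, map_one, map_natCast]
  exact sub_eq_zero.1 h0

/-- No point has a level divisible by an avoiding prime at which `ψ` is trivial. -/
theorem not_dvd_point_of_avoiding {a : ℕ} (ha : a.Prime) (haL : a ∣ L) (hap : a ≠ p)
    (hψ : ∀ u : (ZMod L)ˣ, ((u : ZMod L).cast : ZMod (L / a)) = 1 → ψ u = 1)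
    (hM : ∀ (M : ℕ) [NeZero M], M ∣ L ^ 2 → a ∣ M → ¬ a ^ 2 ∣ M →
      UnipotentAt (D M) a ∧ ToricSquareAt (D M) a)
    {A : ValuationSubring (AlgebraicClosure ℚ)} (hA : A.LiesOverPrime a) {σ : AbsGal}
    (hσ : A.IsFrobeniusAt σ a)
    (hu : IsUnit (LinearMap.trace H.algebra G.rep.V (G.rep.ρ σ) ^ 2 - ((a : H.algebra) + 1) ^ 2))
    (θ : H.algebra →ₐ[O] Glue.KBar O) : ¬ a ∣ (pt θ).M := by
  intro hdvd
  have h2 : ¬ a ^ 2 ∣ (pt θ).M := (pt θ).sq_not_dvd ha haL fun u hu => by
    rw [hψ u hu, map_one, map_one]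
  have key := (pt θ).trace_sq_frobenius D ha hap hdvd (hM _ (pt θ).dvd hdvd h2).1
    (hM _ (pt θ).dvd hdvd h2).2 hA hσ
  refine not_isUnit_zero (M₀ := Glue.KBar O) ?_
  have h := hu.map θ
  rwa [map_sub, map_pow, map_pow, map_add, map_one, map_natCast, G.trace_rep, G.trace_eq, key,
    sub_self] at h

/-- **The glued representation is unramified at an avoiding prime of the level** at which `ψ` is
trivial. -/
theorem isUnramifiedAt_of_avoiding {a : ℕ} (ha : a.Prime) (haL : a ∣ L) (hap : a ≠ p)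
    (hψ : ∀ u : (ZMod L)ˣ, ((u : ZMod L).cast : ZMod (L / a)) = 1 → ψ u = 1)
    (hM : ∀ (M : ℕ) [NeZero M], M ∣ L ^ 2 → a ∣ M → ¬ a ^ 2 ∣ M →
      UnipotentAt (D M) a ∧ ToricSquareAt (D M) a)
    {A : ValuationSubring (AlgebraicClosure ℚ)} (hA : A.LiesOverPrime a) {σ : AbsGal}
    (hσ : A.IsFrobeniusAt σ a)
    (hu : IsUnit (LinearMap.trace H.algebra G.rep.V (G.rep.ρ σ) ^ 2 - ((a : H.algebra) + 1) ^ 2)) :
    G.rep.IsUnramifiedAt a := by
  intro B hB τ hτ
  refine G.rep_eq_one fun θ => (pt θ).rep_eq_one ((D (pt θ).M).gal_unramified a ha ?_ B hB τ hτ)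
  intro h
  rcases ha.dvd_mul.1 h with h | h
  · exact not_dvd_point_of_avoiding G ha haL hap hψ hM hA hσ hu θ h
  · exact hap ((Nat.prime_dvd_prime_iff_eq ha Fact.out).1 h)

/-- The same, from the residual condition. -/
theorem isUnramifiedAt_of_residual_trace_ne [IsLocalHom (algebraMap O H.algebra)]
    {ρbar : ResidualGaloisRep (ResidueField O)}
    (hres : G.rep.residual.IsEquiv
      (ρbar.baseChangeAlong (ResidueField.map (algebraMap O H.algebra))))
    {a : ℕ} (ha : a.Prime) (haL : a ∣ L) (hap : a ≠ p)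
    (hψ : ∀ u : (ZMod L)ˣ, ((u : ZMod L).cast : ZMod (L / a)) = 1 → ψ u = 1)
    (hM : ∀ (M : ℕ) [NeZero M], M ∣ L ^ 2 → a ∣ M → ¬ a ^ 2 ∣ M →
      UnipotentAt (D M) a ∧ ToricSquareAt (D M) a)
    {A : ValuationSubring (AlgebraicClosure ℚ)} (hA : A.LiesOverPrime a) {σ : AbsGal}
    (hσ : A.IsFrobeniusAt σ a)
    (hne : LinearMap.trace (ResidueField O) _ (ρbar.ρ σ) ^ 2 ≠ ((a : ResidueField O) + 1) ^ 2) :
    G.rep.IsUnramifiedAt a :=
  isUnramifiedAt_of_avoiding G ha haL hap hψ hM hA hσ (isUnit_trace_sq_sub G hres hne)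

end Avoiding

end Fermat.Agent.RT.Lower

end
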