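import Fermat.Agent.RT.Lower.Assembly
import Fermat.Agent.RT.Lower.Ribet

/-!
# Removing one unramified prime from a squarefree level
-/

set_option autoImplicit false

noncomputable section

open WeierstrassCurve

namespace Fermat.Agent.RT.Lower

/-- The level of a residually modular curve loses any unramified prime other than `p`. -/
theorem residual_div_of_unramified (hlow : LowerToRamified) (hraise : RaiseLevel)
    (W : WeierstrassCurve ℤ) (p : ℕ) [Fact p.Prime] (hΔ : W.Δ ≠ 0) (hp2 : p ≠ 2)
    (hW : W.IsSemistableModel) (hirr : W.ModRepIsIrreducible p) {M q : ℕ} (hq : q.Prime)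
    (hqp : q ≠ p) (hqM : q ∣ M) (hM : Squarefree M) (hunr : UnramifiedAt W p hΔ q)
    (hres : W.IsResiduallyModularOfLevel p M) : W.IsResiduallyModularOfLevel p (M / q) := by
  obtain ⟨K, hKM, hK, hram⟩ := hlow W p hΔ hp2 hW hirr M hM hres
  refine hraise W p hΔ hp2 hW hirr _ (hM.squarefree_of_dvd (Nat.div_dvd_of_dvd hqM)) ⟨K, ?_, hK⟩
  have hqK : Nat.Coprime K q := by
    rw [Nat.coprime_comm, hq.coprime_iff_not_dvd]
    exact fun h => hram q hq h hqp hunr
  exact hqK.dvd_of_dvd_mul_right (by rwa [Nat.div_mul_cancel hqM])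

theorem raiseLevel : RaiseLevel := fun _ _ _ _ _ _ _ _ hN ⟨_, hM, h⟩ =>
  residuallyModular_raise hN hM h

end Fermat.Agent.RT.Lower

end
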