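import Fermat.Agent.CFT.TWPrimes.Main
import Fermat.Agent.CFT.Tangent.LocalPlace

/-!
# The data of the tangent bound of the patching step
-/

set_option autoImplicit false

noncomputable section

namespace Fermat.Agent.RT.Lower

open Fermat.Agent.Deform Fermat.Agent.CFT.Tangent Fermat.Agent.Arith

/-- The hypotheses on a residual matrix representation: `R` are its ramified primes other than
`p`, and at the distinct primes `vT i ≡ 1 (mod p)` it is unramified with scalar Frobenius. -/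
structure GermResidual (p : ℕ) {k : Type} [Field k] (r : Gal →* M2 k) (R : Finset ℕ)
    {V : Type} (vT : V → ℕ) : Prop where
  tw : CFT.TWPrimes.TWHyp r
  finite : GaloisFactorsThroughFiniteLevel r
  cyc : ∀ (σ : Gal) (n : ℕ), (∀ μ : QBar, μ ^ p = 1 → σ μ = μ ^ n) → (r σ).det = (n : k)
  prime_ram : ∀ v ∈ R, v.Prime ∧ v ≠ p
  ram : ∀ v ∈ R, ∀ [Fact v.Prime], ∃ τ ∈ (padicPlace v).inertiaSubgroupIn ℚ, r τ ≠ 1
  unr : ∀ (v : ℕ) [Fact v.Prime], v ≠ p → v ∉ R →
    ∀ τ ∈ (padicPlace v).inertiaSubgroupIn ℚ, r τ = 1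
  prime_scalar : ∀ i, (vT i).Prime ∧ vT i % p = 1 ∧ vT i ∉ R
  inj_scalar : Function.Injective vT
  scalar : ∀ i, ∀ [Fact (vT i).Prime], ∀ φ : Gal, (padicPlace (vT i)).IsFrobeniusAt φ (vT i) →
    ∃ e : k, r φ = e • 1

/-- The finite set of primes of the count: `p`, the ramified and the scalar primes. -/
def germSet (p : ℕ) (R : Finset ℕ) {V : Type} [Fintype V] (vT : V → ℕ) : Finset ℕ :=
  insert p (R ∪ Finset.univ.image vT)

/-- The auxiliary primes `q` kill all classes unramified outside `S0`. -/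
def KillsClasses {k : Type} [Field k] (r : Gal →* M2 k) (S0 : Finset ℕ) {m : ℕ} (q : Fin m → ℕ) :
    Prop :=
  ∀ b : Gal → M2 k, CFT.TWPrimes.IsCocycle r b → IsFiniteLevel b →
    (∀ (v : ℕ) [Fact v.Prime], v ∉ S0 → (∀ i, v ≠ q i) →
      ∀ τ ∈ (padicPlace v).inertiaSubgroupIn ℚ, b τ = 0) →
    (∀ i, ∀ [Fact (q i).Prime], ∃ X : M2 k, X.trace = 0 ∧
      ∀ s ∈ (padicPlace (q i)).decompositionSubgroup ℚ, b s = CFT.TWPrimes.cobd r X s) →
    ∃ X : M2 k, X.trace = 0 ∧ ∀ g, b g = CFT.TWPrimes.cobd r X g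

end Fermat.Agent.RT.Lower
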