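import Fermat.Agent.RT.Lower.Defs
import Fermat.Agent.RT.Lower.TangentDefs
import Fermat.Agent.CFT.GW.Killing
import Fermat.Agent.Lifting.Curve.Residual
import Fermat.Agent.CFT.TWPrimes.Residual

/-!
# The residual side of the patching step for a semistable curve

The matrices of `W[p]` over a finite field of characteristic `p` satisfy `GermResidual` at the
ramified primes and any set of scalar primes; auxiliary primes killing the classes exist, all of
them avoiding.
-/

set_option autoImplicit false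

noncomputable section

open WeierstrassCurve Module IsLocalRing
open scoped Pointwise
open Fermat.Agent.Arith Fermat.Agent.Deform Fermat.Agent.CFT.Local
open Fermat.Agent.Lifting.Curve (residual ramifiedPrimes mem_ramifiedPrimes)

namespace Fermat.Agent.RT.Lower

variable {W : WeierstrassCurve ℤ} {p : ℕ} [Fact p.Prime] {hΔ : W.Δ ≠ 0}
  {k : Type} [Field k] [CharP k p]

/-- `k` has the roots of all quadratics over the prime field. -/
def HasQuadraticRoots (p : ℕ) (k : Type) [Field k] [CharP k p] : Prop :=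
  ∀ f : Polynomial (ZMod p), f.natDegree = 2 →
    ∃ x : k, (f.map (ZMod.castHom dvd_rfl k)).IsRoot x

theorem matRes_residual_eq_one_iff (bb : Basis (Fin 2) k (residual (p := p) hΔ k).V) (σ : Gal) :
    matRes (residual (p := p) hΔ k) bb σ = 1 ↔ (EC.Rep.residualRep W p hΔ).ρ σ = 1 := by
  rw [← Lifting.Curve.residual_eq_one_iff (k := k) hΔ σ]
  show LinearMap.toMatrixAlgEquiv bb _ = 1 ↔ _
  exact map_eq_one_iff _ (LinearMap.toMatrixAlgEquiv bb).injective

theorem matRes_residual_scalar (bb : Basis (Fin 2) k (residual (p := p) hΔ k).V) {σ : Gal}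
    {c : ZMod p} (h : (EC.Rep.residualRep W p hΔ).ρ σ = c • 1) :
    matRes (residual (p := p) hΔ k) bb σ = ZMod.castHom (dvd_refl p) k c • 1 := by
  letI := (ZMod.castHom (dvd_refl p) k).toAlgebra
  have e : (residual (p := p) hΔ k).ρ σ = ZMod.castHom (dvd_refl p) k c •
      (1 : Module.End k (residual (p := p) hΔ k).V) := by
    show LinearMap.baseChange k _ = _
    rw [h, LinearMap.baseChange_smul, LinearMap.baseChange_one]
    exact (algebraMap_smul k c (1 : Module.End k (TensorProduct (ZMod p) k _))).symm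
  show LinearMap.toMatrixAlgEquiv bb _ = _
  rw [e, map_smul, map_one]

theorem trace_matRes_residual (bb : Basis (Fin 2) k (residual (p := p) hΔ k).V) (σ : Gal) :
    (matRes (residual (p := p) hΔ k) bb σ).trace = ZMod.castHom (dvd_refl p) k
      (LinearMap.trace (ZMod p) _ ((EC.Rep.residualRep W p hΔ).ρ σ)) := by
  letI := (ZMod.castHom (dvd_refl p) k).toAlgebra
  exact (LinearMap.trace_eq_matrix_trace k bb _).symm.trans (LinearMap.trace_baseChange _ _)

/-- The matrices of `W[p]` over `k` satisfy the hypotheses of the patching step. -/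
theorem germResidual_curve (hp2 : p ≠ 2) (hW : W.IsSemistableModel)
    (hirr : W.ModRepIsIrreducible p) (hroot : HasQuadraticRoots p k)
    (bb : Basis (Fin 2) k (residual (p := p) hΔ k).V) (V : Finset ℕ)
    (hV : ∀ v ∈ V, IsScalarPrime W p hΔ v) :
    GermResidual p (matRes (residual (p := p) hΔ k) bb) (ramifiedPrimes (p := p) hΔ)
      (fun v : V => (v : ℕ)) where
  tw := CFT.TWPrimes.twHyp_matRes _ bb
    (fun h => hp2 ((Nat.prime_dvd_prime_iff_eq Fact.out Nat.prime_two).mp
      ((CharP.cast_eq_zero_iff k p 2).mp (by exact_mod_cast h))))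
    (Lifting.Curve.isAbsolutelyIrreducible_residual hΔ hp2 hirr)
    (Lifting.Curve.exists_split_charpoly hΔ hroot)
    (fun G hG => Lifting.Curve.indexTwo_irreducible_residual hΔ hW hp2 hirr k G hG)
  finite := CFT.TWPrimes.finiteLevel_matRes _ bb
  cyc := CFT.TWPrimes.det_matRes_of_detIsCyclotomic _ bb p
    (Lifting.Curve.detIsCyclotomic_residual hΔ)
  prime_ram v hv := by
    obtain ⟨h1, h2, -⟩ := (mem_ramifiedPrimes (k := k) hΔ).mp hv
    exact ⟨h1, h2⟩
  ram v hv hvf := by
    obtain ⟨-, -, hram⟩ := (mem_ramifiedPrimes (k := k) hΔ).mp hv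
    rw [Lifting.Curve.isUnramifiedAt_residual_iff hΔ] at hram
    by_contra hall
    push Not at hall
    refine hram fun A hA τ hτ => ?_
    obtain ⟨g, rfl⟩ := exists_smul_eq (padicPlace_liesOverPrime v) hA hvf.out
    have hmem : g⁻¹ * τ * g ∈ (padicPlace v).inertiaSubgroupIn ℚ := by
      have := (mem_inertia_smul_iff (g := g⁻¹) (σ := τ) (A := g • padicPlace v)).mpr hτ
      rwa [inv_inv, inv_smul_smul] at this
    have h1 := (matRes_residual_eq_one_iff bb _).mp (hall _ hmem)
    rw [map_mul, map_mul] at h1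
    calc (EC.Rep.residualRep W p hΔ).ρ τ
        = (EC.Rep.residualRep W p hΔ).ρ g * ((EC.Rep.residualRep W p hΔ).ρ g⁻¹ *
            (EC.Rep.residualRep W p hΔ).ρ τ * (EC.Rep.residualRep W p hΔ).ρ g) *
            (EC.Rep.residualRep W p hΔ).ρ g⁻¹ := by
          simp only [← map_mul]
          congr 1
          group
      _ = 1 := by rw [h1, mul_one, ← map_mul, mul_inv_cancel, map_one]
  unr v hvf hvp hvR τ hτ := by
    rw [matRes_residual_eq_one_iff]
    by_contra hne
    refine hvR ((mem_ramifiedPrimes (k := k) hΔ).mpr ⟨hvf.out, hvp, fun hu => hne ?_⟩)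
    exact (Lifting.Curve.isUnramifiedAt_residual_iff hΔ v).mp hu _
      (padicPlace_liesOverPrime v) τ hτ
  prime_scalar i := by
    obtain ⟨h1, h2, h3, -⟩ := hV i i.2
    refine ⟨h1, h2, fun hi => ?_⟩
    exact ((mem_ramifiedPrimes (k := k) hΔ).mp hi).2.2
      ((Lifting.Curve.isUnramifiedAt_residual_iff hΔ _).mpr h3)
  inj_scalar := Subtype.val_injective
  scalar i _ φ hφ := by
    obtain ⟨c, hc⟩ := (hV i i.2).2.2.2 _ (padicPlace_liesOverPrime (i : ℕ)) φ hφ
    exact ⟨_, matRes_residual_scalar bb hc⟩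

/-- **The auxiliary primes**: outside any finite set, `≡ 1` modulo `p ^ (n + 1)`, avoiding and
killing the classes, in a number independent of `n`. -/
theorem exists_germ_primes [Finite k] (hp2 : p ≠ 2) (hW : W.IsSemistableModel)
    (hirr : W.ModRepIsIrreducible p) (hroot : HasQuadraticRoots p k)
    (bb : Basis (Fin 2) k (residual (p := p) hΔ k).V) (V : Finset ℕ)
    (hV : ∀ v ∈ V, IsScalarPrime W p hΔ v) :
    ∃ m : ℕ, ∀ (T : Finset ℕ) (n : ℕ), ∃ q : Fin m → ℕ, Function.Injective q ∧
      (∀ i, (q i).Prime ∧ q i ∉ T ∧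
        q i ∉ germSet p (ramifiedPrimes (p := p) hΔ) (fun v : V => (v : ℕ)) ∧
        W.IsGoodPrimeFor (q i) ∧ p ^ (n + 1) ∣ q i - 1 ∧ (q i : k) = 1 ∧
        IsAvoidingPrime W p hΔ (q i)) ∧
      (∀ i, ∀ P : ValuationSubring QBar, P.LiesOverPrime (q i) →
        ∀ φ : Gal, P.IsFrobeniusAt φ (q i) →
          (matRes (residual (p := p) hΔ k) bb φ).det = 1 ∧
          (matRes (residual (p := p) hΔ k) bb φ).trace ^ 2 ≠ 4 ∧
          ∃ α β : k, α ≠ β ∧ (matRes (residual (p := p) hΔ k) bb φ).charpoly =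
            (Polynomial.X - Polynomial.C α) * (Polynomial.X - Polynomial.C β)) ∧
      KillsClasses (matRes (residual (p := p) hΔ k) bb)
        (germSet p (ramifiedPrimes (p := p) hΔ) (fun v : V => (v : ℕ))) q := by
  classical
  have hr := germResidual_curve hp2 hW hirr hroot bb V hV
  set S0 := germSet p (ramifiedPrimes (p := p) hΔ) (fun v : V => (v : ℕ))
  have hprime : ∀ v ∈ S0, v.Prime := fun v hv => by
    simp only [S0, germSet, Finset.mem_insert, Finset.mem_union, Finset.mem_image,
      Finset.mem_univ, true_and] at hv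
    rcases hv with rfl | hv | ⟨i, rfl⟩
    · exact Fact.out
    · exact (hr.prime_ram v hv).1
    · exact (hr.prime_scalar i).1
  obtain ⟨m, hm⟩ := CFT.GW.exists_killing_primes hp2 hr.tw hr.finite hr.cyc S0
    (Finset.mem_insert_self p _) hprime fun v _ hv τ hτ => hr.unr v
      (fun e => hv (e ▸ Finset.mem_insert_self p _))
      (fun e => hv (Finset.mem_insert_of_mem (Finset.mem_union_left _ e))) τ hτ
  refine ⟨m, fun T n => ?_⟩
  obtain ⟨q, hinj, hq, hfrob, hkill⟩ := hm (T ∪ W.Δ.natAbs.primeFactors) n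
  refine ⟨q, hinj, fun i => ?_, fun i P hP => (hfrob i P hP).2, hkill⟩
  obtain ⟨h1, h2, h3, h4⟩ := hq i
  rw [Finset.mem_union, not_or] at h2
  have hgood : W.IsGoodPrimeFor (q i) := fun hd => h2.2
    (Nat.mem_primeFactors.mpr ⟨h1, Int.natCast_dvd.mp hd, Int.natAbs_ne_zero.mpr hΔ⟩)
  have hqp : q i ≠ p := fun e => h3 (e.symm ▸ Finset.mem_insert_self p _)
  have hone : (q i : ZMod p) = 1 := by
    have hdvd : p ∣ q i - 1 := (dvd_pow_self p (Nat.succ_ne_zero n)).trans h4
    rw [← Nat.cast_one, ZMod.natCast_eq_natCast_iff]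
    exact ((Nat.modEq_iff_dvd' h1.one_le).mpr hdvd).symm
  refine ⟨h1, h2.1, h3, hgood, h4, ?_, h1, hqp, EC.Rep.isUnramifiedAt_residualRep hΔ h1 hgood hqp,
    fun A hA σ hσ e => ((hfrob i A hA).2 σ hσ).2.1 ?_⟩
  · rw [← map_natCast (ZMod.castHom (dvd_refl p) k), hone, map_one]
  · rw [trace_matRes_residual, ← map_pow, e, hone, map_pow, map_add, map_one]
    norm_num

/-- Rigidifying data on the matrices of `W[p]`. -/
theorem exists_rigid_curve {O : Type} [CommRing O] [IsLocalRing O]
    [CharP (ResidueField O) p] (hp2 : p ≠ 2) (hirr : W.ModRepIsIrreducible p) :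
    ∃ (bb : Basis (Fin 2) (ResidueField O) (residual (p := p) hΔ (ResidueField O)).V)
      (W₀ : Rigid O), W₀.rb = matRes (residual (p := p) hΔ (ResidueField O)) bb := by
  let bb := Module.finBasisOfFinrankEq _ _ (residual (p := p) hΔ (ResidueField O)).finrank_eq
  obtain ⟨W₀, hW₀⟩ := exists_rigid (residual (p := p) hΔ (ResidueField O))
    (Lifting.Curve.isAbsolutelyIrreducible_residual hΔ hp2 hirr) bb
  exact ⟨bb, W₀, hW₀⟩

end Fermat.Agent.RT.Lower

end
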