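import Fermat.Agent.CFT.GW.DualClass
import Fermat.Agent.CFT.Tangent.LocalBounds
import Fermat.Agent.RT.Assembly.Level
import Fermat.Agent.RT.Lower.Descent
import Fermat.Agent.RT.Lower.TangentDefs
import Fermat.Agent.RT.Assembly.Tangent
import Fermat.Agent.CFT.Tangent.OrdinaryBound
import Fermat.Agent.CFT.GW.FlatBound
import Fermat.Agent.CFT.GW.Killing

/-!
# The bound for the derivations killing the coordinates at the scalar primes

The classes of derivations of the algebra of entries which kill the coordinates of inertia and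
Frobenius at the primes `vT i` vanish on the decomposition groups there; the Greenberg–Wiles count
then bounds their dimension by `m - 3 #V`.
-/

set_option autoImplicit false
set_option linter.style.haveILetI false

noncomputable section

namespace Fermat.Agent.RT.Lower

open IsLocalRing Module Fermat.Agent.Deform Fermat.Agent.CFT.Tangent Fermat.Agent.Arith
open Fermat.Agent.RT.Assembly

set_option linter.unusedVariables false in
/-- The Greenberg–Wiles count for tangent classes (`CFT.GW.finrank_tangent_le`). -/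
def TangentCount (p : ℕ) [Fact p.Prime] (k : Type) [Field k] [Finite k] [CharP k p] : Prop :=
  ∀ {r : Gal →* M2 k} (hp2 : p ≠ 2) (hr : CFT.TWPrimes.TWHyp r)
    (hfin : GaloisFactorsThroughFiniteLevel r)
    (hcyc : ∀ (σ : Gal) (n : ℕ), (∀ μ : QBar, μ ^ p = 1 → σ μ = μ ^ n) → (r σ).det = (n : k))
    (S0 : Finset ℕ) (hpS : p ∈ S0) (hSp : ∀ v ∈ S0, v.Prime)
    (hunr : ∀ (v : ℕ) [Fact v.Prime], v ∉ S0 →
      ∀ τ ∈ (padicPlace v).inertiaSubgroupIn ℚ, r τ = 1)
    {m : ℕ} (q : Fin m → ℕ) (hq : ∀ i, (q i).Prime ∧ q i ∉ S0)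
    (hfrob : ∀ i, ∀ [Fact (q i).Prime], ∀ φ : Gal, (padicPlace (q i)).IsFrobeniusAt φ (q i) →
      (r φ).det = 1 ∧ (r φ).trace ^ 2 ≠ 4)
    (hkill : ∀ b : Gal → M2 k, CFT.TWPrimes.IsCocycle r b → IsFiniteLevel b →
      (∀ (v : ℕ) [Fact v.Prime], v ∉ S0 → (∀ i, v ≠ q i) →
        ∀ τ ∈ (padicPlace v).inertiaSubgroupIn ℚ, b τ = 0) →
      (∀ i, ∀ [Fact (q i).Prime], ∃ X : M2 k, X.trace = 0 ∧
        ∀ s ∈ (padicPlace (q i)).decompositionSubgroup ℚ, b s = CFT.TWPrimes.cobd r X s) →
      ∃ X : M2 k, X.trace = 0 ∧ ∀ g, b g = CFT.TWPrimes.cobd r X g)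
    (V : Submodule k (Gal → M2 k)) [Module.Finite k V]
    (hcoc : ∀ b ∈ V, IsAdCocycle r b) (hlev : ∀ b ∈ V, IsFiniteLevel b)
    (htr : ∀ b ∈ V, ∀ σ, (b σ).trace = 0)
    (hur : ∀ b ∈ V, ∀ (v : ℕ) [Fact v.Prime], v ∉ S0 → (∀ i, v ≠ q i) →
      ∀ τ ∈ (padicPlace v).inertiaSubgroupIn ℚ, b τ = 0)
    (hinj : ∀ b ∈ V, ∀ X : M2 k, b = cobdLin r X → b = 0)
    (d : ℕ → ℤ)
    (hloc : ∀ v ∈ S0, ∀ [Fact v.Prime], (finrank k V : ℤ) ≤
      finrank k (V ⊓ cobdOn r ((padicPlace v).decompositionSubgroup ℚ) :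
          Submodule k (Gal → M2 k)) +
        finrank k (fixedOn r ((padicPlace v).decompositionSubgroup ℚ)) + d v) ,
    (finrank k V : ℤ) ≤ m - 1 + ∑ v ∈ S0, d v

variable {O : Type} [CommRing O] [IsDomain O] [IsDiscreteValuationRing O]
  [IsAdicComplete (maximalIdeal O) O] [Finite (ResidueField O)]
  {p : ℕ} [Fact p.Prime] [CharP (ResidueField O) p]
  {A : Type} [CommRing A] [IsLocalRing A] [Algebra O A] [Module.Finite O A]
  {V : Type} [Fintype V]

omit [Fact p.Prime] [CharP (ResidueField O) p] in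
theorem three_le_finrank_fixedOn {k : Type} [Field k] {r : Gal →* M2 k} {D : Subgroup Gal}
    (h : ∀ s ∈ D, ∃ e : k, r s = e • 1) : 3 ≤ finrank k (fixedOn r D) := by
  have hle : LinearMap.ker (Matrix.traceLinearMap (Fin 2) k k) ≤ fixedOn r D := fun X hX => by
    refine ⟨LinearMap.mem_ker.mp hX, fun s hs => ?_⟩
    obtain ⟨e, he⟩ := h s hs
    have hinv : r s * r s⁻¹ = 1 := by rw [← map_mul, mul_inv_cancel, map_one]
    have hcomm : r s * X = X * r s := by rw [he, smul_mul_assoc, one_mul, mul_smul_comm, mul_one]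
    rw [hcomm, mul_assoc, hinv, mul_one]
  suffices h4 : 3 ≤ finrank k (LinearMap.ker (Matrix.traceLinearMap (Fin 2) k k)) from
    h4.trans (Submodule.finrank_mono hle)
  have h1 := (Matrix.traceLinearMap (Fin 2) k k).finrank_range_add_finrank_ker
  have h2 : finrank k (Matrix (Fin 2) (Fin 2) k) = 4 := by rw [finrank_matrix]; simp
  have h3 : finrank k (LinearMap.range (Matrix.traceLinearMap (Fin 2) k k)) ≤ 1 :=
    (Submodule.finrank_le _).trans (finrank_self k).le
  omega

omit [Fact p.Prime] [CharP (ResidueField O) p] in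
/-- At a prime with scalar Frobenius and trivial inertia the decomposition group acts by
scalars. -/
theorem scalar_on_decomposition {k : Type} [Field k] {r : Gal →* M2 k}
    (hr : GaloisFactorsThroughFiniteLevel r) {v : ℕ} [Fact v.Prime]
    (hI : ∀ τ ∈ (padicPlace v).inertiaSubgroupIn ℚ, r τ = 1) {F : Gal}
    (hF : (padicPlace v).IsFrobeniusAt F v) (hsc : ∃ e : k, r F = e • 1) :
    ∀ s ∈ (padicPlace v).decompositionSubgroup ℚ, ∃ e : k, r s = e • 1 := by
  intro s hs
  obtain ⟨L, hLf, hLn, hL⟩ := exists_common_level hr (⊥ : Submodule k (Gal → M2 k))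
    fun b hb => by
      rw [Submodule.mem_bot] at hb
      exact hb ▸ ⟨⊥, inferInstance, fun _ _ => rfl⟩
  obtain ⟨i, τ, hτ, he⟩ := exists_frobenius_mul_inertia L hF hs
  obtain ⟨e, he'⟩ := hsc
  refine ⟨e ^ i, ?_⟩
  rw [map_eq_of_agree (fun σ h => (hL σ h).1) he, map_mul, hI τ hτ, mul_one, map_pow, he',
    smul_pow, one_pow]

omit [Fact p.Prime] [Fintype V] in
theorem unr_of_germResidual {k : Type} [Field k] {r : Gal →* M2 k} {R : Finset ℕ} {vT : V → ℕ}
    (hr : GermResidual p r R vT) (i : V) [Fact (vT i).Prime] :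
    ∀ τ ∈ (padicPlace (vT i)).inertiaSubgroupIn ℚ, r τ = 1 :=
  hr.unr _ (fun h => by simpa [h] using (hr.prime_scalar i).2.1) (hr.prime_scalar i).2.2

omit [IsAdicComplete (maximalIdeal O) O] in
/-- The count for a space of classes with all the local conditions. -/
theorem finrank_germ_le (hGW : TangentCount p (ResidueField O)) (hp2 : p ≠ 2) {r : Gal →* M2 (ResidueField O)} {R : Finset ℕ}
    {vT : V → ℕ} (hr : GermResidual p r R vT) {m : ℕ} (q : Fin m → ℕ)
    (hq : ∀ i, (q i).Prime ∧ q i ∉ germSet p R vT)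
    (hfrob : ∀ i, ∀ [Fact (q i).Prime], ∀ φ : Gal, (padicPlace (q i)).IsFrobeniusAt φ (q i) →
      (r φ).det = 1 ∧ (r φ).trace ^ 2 ≠ 4)
    (hkill : KillsClasses r (germSet p R vT) q)
    (T : Submodule (ResidueField O) (Gal → M2 (ResidueField O))) [Module.Finite (ResidueField O) T]
    (hcoc : ∀ b ∈ T, IsAdCocycle r b) (hlev : ∀ b ∈ T, IsFiniteLevel b)
    (htr : ∀ b ∈ T, ∀ σ, (b σ).trace = 0)
    (hur : ∀ b ∈ T, ∀ (v : ℕ) [Fact v.Prime], v ∉ germSet p R vT → (∀ i, v ≠ q i) →
      ∀ τ ∈ (padicPlace v).inertiaSubgroupIn ℚ, b τ = 0)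
    (hinj : ∀ b ∈ T, ∀ X, b = cobdLin r X → b = 0)
    (hR : ∀ v ∈ R, ∀ [Fact v.Prime], finrank (ResidueField O) T ≤
      finrank (ResidueField O) (T ⊓ cobdOn r ((padicPlace v).decompositionSubgroup ℚ) :
          Submodule (ResidueField O) (Gal → M2 (ResidueField O))) +
        finrank (ResidueField O) (fixedOn r ((padicPlace v).decompositionSubgroup ℚ)))
    (hV : ∀ i, ∀ [Fact (vT i).Prime], ∀ b ∈ T,
      ∀ s ∈ (padicPlace (vT i)).decompositionSubgroup ℚ, b s = 0)
    (hP : finrank (ResidueField O) T ≤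
      finrank (ResidueField O) (T ⊓ cobdOn r ((padicPlace p).decompositionSubgroup ℚ) :
          Submodule (ResidueField O) (Gal → M2 (ResidueField O))) +
        finrank (ResidueField O) (fixedOn r ((padicPlace p).decompositionSubgroup ℚ)) + 1) :
    (finrank (ResidueField O) T : ℤ) ≤ (m : ℤ) - 3 * Nat.card V := by
  classical
  have hp : p.Prime := Fact.out
  have hne : ∀ i, vT i ≠ p := fun i h => by simpa [h] using (hr.prime_scalar i).2.1
  have hpnot : p ∉ R ∪ Finset.univ.image vT := fun h => by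
    rcases Finset.mem_union.mp h with h | h
    · exact (hr.prime_ram p h).2 rfl
    · obtain ⟨i, -, hi⟩ := Finset.mem_image.mp h
      exact hne i hi
  have hdisj : Disjoint R (Finset.univ.image vT) := Finset.disjoint_left.mpr fun v hv h => by
    obtain ⟨i, -, rfl⟩ := Finset.mem_image.mp h
    exact (hr.prime_scalar i).2.2 hv
  have hmem : ∀ v, v ∈ germSet p R vT ↔ v = p ∨ v ∈ R ∨ ∃ i, vT i = v := fun v => by
    simp [germSet]
  let d : ℕ → ℤ := fun v => if v = p then 1 else if v ∈ R then 0 else -3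
  have h := hGW hp2 hr.tw hr.finite hr.cyc (germSet p R vT)
    (Finset.mem_insert_self _ _) (fun v hv => ?_) (fun v _ hv => ?_) q hq hfrob hkill T hcoc hlev
    htr hur hinj d fun v hv _ => ?_
  · have hsum : ∑ v ∈ germSet p R vT, d v = 1 - 3 * Nat.card V := by
      rw [germSet, Finset.sum_insert hpnot, Finset.sum_union hdisj,
        show d p = 1 from if_pos rfl,
        Finset.sum_eq_zero fun v hv => ?_,
        Finset.sum_congr (g := fun _ => (-3 : ℤ)) rfl fun v hv => ?_, Finset.sum_const,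
        Finset.card_image_of_injective _ hr.inj_scalar, Finset.card_univ, Nat.card_eq_fintype_card]
      · simp
        ring
      · obtain ⟨i, -, rfl⟩ := Finset.mem_image.mp hv
        show (if vT i = p then (1 : ℤ) else if vT i ∈ R then 0 else -3) = -3
        rw [if_neg (hne i), if_neg (hr.prime_scalar i).2.2]
      · show (if v = p then (1 : ℤ) else if v ∈ R then 0 else -3) = 0
        rw [if_neg (hr.prime_ram v hv).2, if_pos hv]
    rw [hsum] at h
    omega
  · rcases (hmem v).mp hv with rfl | h | ⟨i, rfl⟩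
    exacts [hp, (hr.prime_ram v h).1, (hr.prime_scalar i).1]
  · exact hr.unr v (fun e => hv ((hmem v).mpr (Or.inl e))) fun e => hv ((hmem v).mpr (Or.inr (Or.inl e)))
  · show _ ≤ _ + (if v = p then (1 : ℤ) else if v ∈ R then 0 else -3)
    rcases (hmem v).mp hv with rfl | h | ⟨i, rfl⟩
    · rw [if_pos rfl]
      exact_mod_cast hP
    · rw [if_neg (hr.prime_ram v h).2, if_pos h, add_zero]
      exact_mod_cast hR v h
    · rw [if_neg (hne i), if_neg (hr.prime_scalar i).2.2]
      obtain ⟨F, hF⟩ := exists_isFrobeniusAt (CFT.Local.padicPlace_liesOverPrime (vT i))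
        (Fact.out : (vT i).Prime)
      have h3 := three_le_finrank_fixedOn (scalar_on_decomposition hr.finite
        (unr_of_germResidual hr i) hF (hr.scalar i F hF))
      rw [inf_eq_left.mpr (show T ≤ cobdOn r ((padicPlace (vT i)).decompositionSubgroup ℚ) from
        fun b hb => ⟨0, by simp, fun s hs => by simp [hV i b hb s hs]⟩)]
      omega

omit [IsAdicComplete (maximalIdeal O) O] in
/-- The count of `exists_killing_primes` at the scalar primes leaves room for three coordinates at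
each of them. -/
theorem three_mul_card_le (hGW : TangentCount p (ResidueField O)) (hp2 : p ≠ 2) {r : Gal →* M2 (ResidueField O)} {R : Finset ℕ}
    {vT : V → ℕ} (hr : GermResidual p r R vT) {m : ℕ} (q : Fin m → ℕ)
    (hq : ∀ i, (q i).Prime ∧ q i ∉ germSet p R vT)
    (hfrob : ∀ i, ∀ [Fact (q i).Prime], ∀ φ : Gal, (padicPlace (q i)).IsFrobeniusAt φ (q i) →
      (r φ).det = 1 ∧ (r φ).trace ^ 2 ≠ 4)
    (hkill : KillsClasses r (germSet p R vT) q) :
    3 * Nat.card V ≤ m := by
  have h := finrank_germ_le hGW hp2 hr q hq hfrob hkill ⊥ (fun b hb => ?_) (fun b hb => ?_)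
    (fun b hb σ => ?_) (fun b hb v _ _ _ τ _ => ?_) (fun b hb X _ => (Submodule.mem_bot _).mp hb)
    (fun v _ _ => by simp) (fun i _ b hb s _ => ?_) (by simp)
  · rw [finrank_bot] at h
    omega
  all_goals rw [Submodule.mem_bot] at hb; subst hb
  · exact fun _ _ => by simp
  · exact ⟨⊥, inferInstance, fun _ _ => rfl⟩
  · simp
  · rfl
  · rfl

/-- **The tangent bound of the patching step.** -/
theorem finrank_killedDer_le (hGW : TangentCount p (ResidueField O)) (hp2 : p ≠ 2) (hA : IsResAlg O A) {W : Rigid O} {R : Finset ℕ}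
    {vT : V → ℕ} (hr : GermResidual p W.rb R vT) {m : ℕ} (q : Fin m → ℕ)
    (hq : ∀ i, (q i).Prime ∧ q i ∉ germSet p R vT)
    (hfrob : ∀ i, ∀ [Fact (q i).Prime], ∀ φ : Gal, (padicPlace (q i)).IsFrobeniusAt φ (q i) →
      (W.rb φ).det = 1 ∧ (W.rb φ).trace ^ 2 ≠ 4)
    (hkill : KillsClasses W.rb (germSet p R vT) q)
    (ru : Gal →* M2 A) (hl : Lifts W hA ru) (hn : IsNormal W ru) (hc : IsCont ru)
    (hdet : (toRep ru hc).DetIsCyclotomic p)
    (hunr : ∀ (v : ℕ) [Fact v.Prime], v ∉ germSet p R vT → (∀ i, v ≠ q i) →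
      ∀ τ ∈ (padicPlace v).inertiaSubgroupIn ℚ, ru τ = 1)
    (htr : ∀ v ∈ R, ∀ [Fact v.Prime], ∀ τ ∈ (padicPlace v).inertiaSubgroupIn ℚ,
      (ru τ).trace = 2)
    (hlocp : (toRep ru hc).IsFlatAt p ∨ (toRep ru hc).IsStrictOrdinaryAt p)
    (σT φT : V → Gal)
    (hσT : ∀ i, ∀ [Fact (vT i).Prime], σT i ∈ (padicPlace (vT i)).inertiaSubgroupIn ℚ ∧
      ∃ (π : QBar) (d : ℤ), π ≠ 0 ∧
        Mazur.Eisenstein.ordAt (padicPlace (vT i)) (vT i) π = d / p ∧
        EC.Reduction.res (padicPlace (vT i)) (σT i π / π) ≠ 1 ∧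
        EC.Reduction.res (padicPlace (vT i)) (σT i π / π) ^ p = 1)
    (hφT : ∀ i, ∀ [Fact (vT i).Prime], (padicPlace (vT i)).IsFrobeniusAt (φT i) (vT i))
    [IsLocalRing (Algebra.adjoin O (entries ru))] (c : O) (hc2 : 2 * c = 1) :
    Module.finrank (ResidueField O)
      (killedDer (isResAlg_subalgebra hA (Algebra.adjoin O (entries ru)))
        (placeCoord (algebraMap O _ c)
          (fun i => corestrict (Algebra.adjoin O (entries ru)) ru
            (fun σ a b => Algebra.subset_adjoin ⟨(σ, a, b), rfl⟩) (σT i))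
          (fun i => corestrict (Algebra.adjoin O (entries ru)) ru
            (fun σ a b => Algebra.subset_adjoin ⟨(σ, a, b), rfl⟩) (φT i)))) ≤
      m - 3 * Nat.card V := by
  classical
  have hp : p.Prime := Fact.out
  have h3 := three_mul_card_le hGW hp2 hr q hq hfrob hkill
  have hpO : (p : O) ∈ maximalIdeal O := by
    rw [← residue_eq_zero_iff, map_natCast, CharP.cast_eq_zero]
  set S := Algebra.adjoin O (entries ru) with hS
  have hmemS : ∀ σ a b, ru σ a b ∈ S := fun σ a b => Algebra.subset_adjoin ⟨(σ, a, b), rfl⟩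
  set rS := corestrict S ru hmemS with hrS
  have := finite_subalgebra S
  have hRA := isResAlg_subalgebra hA S
  haveI := hRA.isLocalHom
  haveI : IsLocalHom (S.val : S →+* A) := isLocalHom_subalgebra_val S
  haveI : IsNoetherianRing S := IsNoetherianRing.of_finite O S
  haveI : IsNoetherianRing A := IsNoetherianRing.of_finite O A
  have hinjS : Function.Injective (S.val : S →+* A) := Subtype.val_injective
  have hgen : Algebra.adjoin O (entries rS) = ⊤ := adjoin_entries_corestrict ru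
  have hlS : Lifts W hRA rS := lifts_corestrict S hl hmemS
  have hnS : IsNormal W rS := isNormal_corestrict S hn hmemS
  have hcS : IsCont rS := isCont_corestrict hA S hc hmemS
  have hmap : mapM (S.val : S →+* A) rS = ru := mapM_corestrict S ru hmemS
  have hcA : IsCont (mapM (S.val : S →+* A) rS) := hmap.symm ▸ hc
  have htoRep : (toRep (mapM (S.val : S →+* A) rS) hcA) = toRep ru hc := by
    congr 1
  -- the determinant
  obtain ⟨cy, hcy⟩ := exists_cycValues (p := p) hpO
  have hcyS : ∀ (σ : Gal) (n a : ℕ), (∀ μ : QBar, μ ^ p ^ n = 1 → σ μ = μ ^ a) →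
      algebraMap O S (cy σ) - (a : S) ∈ Ideal.span {((p ^ n : ℕ) : S)} := fun σ n a ha => by
    have := CFT.Tangent.map_mem_span_natCast (algebraMap O S) (hcy σ n a ha)
    rwa [map_sub, map_natCast] at this
  have hdetS : (toRep rS hcS).DetIsCyclotomic p :=
    detIsCyclotomic_of_injective hcS hcA hinjS (htoRep ▸ hdet) hcyS
  -- the classes
  set x := placeCoord (algebraMap O S c) (fun i => rS (σT i)) (fun i => rS (φT i)) with hx
  set K := killedDer hRA x with hK
  let Φ := (tangentCls W hRA rS).comp K.subtype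
  have hΦ : ∀ δ : K, Φ δ = tangentCls W hRA rS δ.1 := fun δ => rfl
  have hΦ0 : ∀ δ : K, ∀ X, tangentCls W hRA rS δ.1 = cobdLin W.rb X → δ = 0 := fun δ X hX =>
    Subtype.ext (eq_zero_of_tangentCls_eq_cobdLin hlS hnS hgen δ.1 hX)
  have hΦinj : Function.Injective Φ := LinearMap.ker_eq_bot.mp <| LinearMap.ker_eq_bot'.mpr
    fun δ hδ =>
    hΦ0 δ 0 (by rw [map_zero, ← hΦ, hδ])
  have : Module.Finite (ResidueField O) (tangentDer hRA) := inferInstance
  have h2k : (2 : ResidueField O) ≠ 0 := hr.tw.two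
  have hdδ : ∀ (δ : tangentDer hRA) (n : ℕ), δ.1 (n : S) = 0 := fun δ n => by
    rw [← map_natCast (algebraMap O S) n, δ.2.2.2]
  have hcoc : ∀ b ∈ LinearMap.range Φ, IsAdCocycle W.rb b := by
    rintro _ ⟨δ, rfl⟩
    exact tangentCls_mul hlS δ.1
  have hlev : ∀ b ∈ LinearMap.range Φ, IsFiniteLevel b := by
    rintro _ ⟨δ, rfl⟩
    exact tangentCls_finiteLevel hcS δ.1
  have htrace : ∀ b ∈ LinearMap.range Φ, ∀ σ, (b σ).trace = 0 := by
    rintro _ ⟨δ, rfl⟩ σ
    exact trace_tangentCls p hlS hcS hdetS δ.1 σ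
  have hbound := finrank_germ_le hGW hp2 hr q hq hfrob hkill (LinearMap.range Φ) hcoc hlev htrace
    ?_ ?_ ?_ ?_ ?_
  · rw [LinearMap.finrank_range_of_inj hΦinj] at hbound
    show finrank (ResidueField O) K ≤ _
    omega
  · rintro _ ⟨δ, rfl⟩ v _ hv hvq τ hτ
    refine tangentCls_eq_zero_of_eq_one δ.1 (Matrix.ext fun a b => Subtype.ext ?_)
    refine (congrFun (congrFun (hunr v hv hvq τ hτ) a) b).trans ?_
    rw [Matrix.one_apply, Matrix.one_apply]
    split_ifs <;> simp
  · rintro _ ⟨δ, rfl⟩ X hX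
    rw [hΦ] at hX
    rw [hΦ0 δ X hX, map_zero]
  · intro v hv _
    have hvp := (hr.prime_ram v hv).2
    refine finrank_le_unipotent p h2k hvp hr.finite _ hcoc hlev htrace (fun τ hτ => ⟨?_, ?_⟩)
      (hr.ram v hv) ?_
    · have h := congrArg (augment hA) (htr v hv τ hτ)
      rw [Matrix.trace_fin_two, map_add, hl, hl, map_ofNat] at h
      rwa [Matrix.trace_fin_two]
    · rw [hr.cyc τ 1 fun μ hμ => ?_, Nat.cast_one]
      rw [pow_one]
      exact inertia_root (CFT.Local.padicPlace_liesOverPrime v) (Fact.out : v.Prime) hτ hμ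
        fun h => hvp ((Nat.prime_dvd_prime_iff_eq (Fact.out : v.Prime) hp).mp h)
    · rintro _ ⟨δ, rfl⟩ τ hτ
      rw [hΦ, trace_tangentCls_mul_rb, show (rS τ).trace = ((2 : ℕ) : S) from Subtype.ext ?_]
      · exact hdδ δ.1 2
      · rw [Nat.cast_ofNat, Matrix.trace_fin_two]
        refine Eq.trans ?_ (htr v hv τ hτ)
        rw [Matrix.trace_fin_two]
        rfl
  · rintro i _ _ ⟨δ, rfl⟩ s hs
    have hvp : vT i ≠ p := fun h => by simpa [h] using (hr.prime_scalar i).2.1
    obtain ⟨hσ, π, d, hπ, hπord, hπσ, hπσp⟩ := hσT i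
    have hc2S : 2 * algebraMap O S c = 1 := by
      rw [← map_ofNat (algebraMap O S) 2, ← map_mul, hc2, map_one]
    have hkey : ∀ (g : Gal) (e : ResidueField O), e ≠ 0 → W.rb g = e • 1 →
        (∀ k, δ.1.1 (tlCoord (algebraMap O S c) (rS g) k) = 0) → Φ δ g = 0 := by
      intro g e he hge h0
      refine tangentCls_eq_zero δ.1 fun a b => eq_zero_of_tlCoord h2k hc2S δ.1 he (fun a b => ?_)
        h0 ?_ a b
      · rw [hlS, hge, Matrix.smul_apply, Matrix.one_apply, smul_eq_mul, mul_ite, mul_one, mul_zero]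
      · have h1 := det_eq_of_detIsCyclotomic hdetS hcyS g
        rw [h1, δ.1.2.2.2]
    refine eq_zero_on_decomposition hr.finite (hcoc _ ⟨δ, rfl⟩) (hlev _ ⟨δ, rfl⟩) hvp
      (unr_of_germResidual hr i) hσ hπ hπord hπσ hπσp
      (hkey _ 1 one_ne_zero (by rw [one_smul]; exact unr_of_germResidual hr i _ hσ)
        fun k => δ.2 (i, 0, k)) (hφT i) ?_ hs
    obtain ⟨e, he⟩ := hr.scalar i _ (hφT i)
    refine hkey _ e (fun e0 => ?_) he fun k => δ.2 (i, 1, k)
    have h1 := map_mul W.rb (φT i) (φT i)⁻¹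
    rw [mul_inv_cancel, map_one, he, e0, zero_smul, zero_mul] at h1
    exact one_ne_zero h1
  · rcases hlocp with hflat | hord
    · refine CFT.GW.finrank_le_flat hp2 h2k hr.finite hr.cyc hr.tw.split _ hcoc hlev ?_
      rintro _ ⟨δ, rfl⟩ hne
      have hne' : δ.1 ≠ 0 := fun e => hne (by rw [hΦ, e, map_zero])
      have hflatS : (toRep rS hcS).IsFlatAt p := by
        haveI : Module.Finite S A := Module.Finite.of_restrictScalars_finite O S A
        exact isFlatAt_of_injective hcS hcA hinjS ‹_› (htoRep ▸ hflat)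
      letI := dualAlgebra O
      refine ⟨(toRep rS hcS).baseChangeAlong
          (tangentHom hRA δ.1 : S →+* DualNumber (ResidueField O)) (isLocalHom_tangentHom δ.1),
        letI := (tangentHom hRA δ.1 : S →+* DualNumber (ResidueField O)).toAlgebra
        (Pi.basisFun S (Fin 2)).baseChange (DualNumber (ResidueField O)),
        CFT.Tangent.IsFlatAt.baseChange _ _ (tangentHom_surjective hRA hne') hflatS,
        CFT.Tangent.DetIsCyclotomic.baseChange _ _ hdetS, fun σ => ?_⟩
      refine (DFunLike.congr_fun (matOf_baseChangeAlong _ (isLocalHom_tangentHom δ.1) (toRep rS hcS)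
        (Pi.basisFun S (Fin 2))) σ).trans ?_
      rw [matOf_toRep]
      exact mapM_tangentHom hlS δ.1 σ
    · refine finrank_le_ordinary hp2 h2k hr.finite hr.cyc _ hcoc hlev ?_
      rintro _ ⟨δ, rfl⟩ hne
      have hordS : (toRep rS hcS).IsStrictOrdinaryAt p :=
        isStrictOrdinaryAt_of_injective hcS hcA hinjS hp2 (htoRep ▸ hord) hcyS
      letI := dualAlgebra O
      refine ⟨(toRep rS hcS).baseChangeAlong
          (tangentHom hRA δ.1 : S →+* DualNumber (ResidueField O)) (isLocalHom_tangentHom δ.1),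
        letI := (tangentHom hRA δ.1 : S →+* DualNumber (ResidueField O)).toAlgebra
        (Pi.basisFun S (Fin 2)).baseChange (DualNumber (ResidueField O)),
        CFT.Tangent.IsStrictOrdinaryAt.baseChange _ _ hordS,
        CFT.Tangent.DetIsCyclotomic.baseChange _ _ hdetS, fun σ => ?_⟩
      refine (DFunLike.congr_fun (matOf_baseChangeAlong _ (isLocalHom_tangentHom δ.1) (toRep rS hcS)
        (Pi.basisFun S (Fin 2))) σ).trans ?_
      rw [matOf_toRep]
      exact mapM_tangentHom hlS δ.1 σ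

end Fermat.Agent.RT.Lower
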