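import Fermat.Agent.RT.Lower.Tangent
import Fermat.Agent.CFT.GW.Bound

/-!
# The Greenberg–Wiles count, as used by the germ step
-/

namespace Fermat.Agent.RT.Lower

theorem tangentCount_of_gw (p : ℕ) [Fact p.Prime] (k : Type) [Field k] [Finite k] [CharP k p] :
    TangentCount p k := CFT.GW.finrank_tangent_le

end Fermat.Agent.RT.Lower
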