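import Fermat.Agent.FiniteFlat.GrassOrder
import Fermat.Agent.RT.Lower.AtP
import Fermat.Agent.RT.Lower.CurveInputs
import Fermat.Agent.RT.Lower.Germ
import Fermat.Agent.RT.Lower.Level
import Fermat.Agent.RT.Lower.Levels
import Fermat.Agent.RT.Lower.Places
import Fermat.Agent.RT.Lower.Remove
import Fermat.Agent.RT.Lower.Residual
import Fermat.Agent.RT.Lower.Tangent
import Fermat.Agent.RT.Lower.TangentCountGW
import Fermat.Agent.Semistable.Unconditional

/-!
# Patching levels of bounded rank exist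

The auxiliary primes, the Hecke module of the level and the local conditions of the glued
representation give a patching level for every `n`.
-/

set_option autoImplicit false
set_option linter.style.haveILetI false

noncomputable section

namespace Fermat.Agent.RT.Lower

open WeierstrassCurve IsLocalRing Fermat.Agent.Deform Fermat.Agent.Arith
open Fermat.Agent.RT.Assembly Fermat.Agent.RT.Glue
open Fermat.Agent.Lifting.Curve (residual ramifiedPrimes mem_ramifiedPrimes)
open GaloisReps (AbsGal HeckeGaloisModel)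

/-- The trace of inertia at a prime of twisted newforms. -/
def TraceInertiaAll : Prop :=
  ∀ (p : ℕ) [Fact p.Prime] (v R M : ℕ) [Fact v.Prime] [NeZero R] [NeZero M]
    (g : CuspForm (CongruenceSubgroup.Gamma0 M) 2), InertiaTW.TraceInertia p v R M g

section Glue

variable {O : Type} [CommRing O] [IsDomain O] [IsDiscreteValuationRing O]
  [IsAdicComplete (maximalIdeal O) O] [Finite (ResidueField O)] [CharZero O]
  {p : ℕ} [Fact p.Prime]
  {L : ℕ} [NeZero L] {Δ : Type} [CommGroup Δ] [Finite Δ] {ψ : (ZMod L)ˣ →* Δ} {S : Finset ℕ}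
  {abar : ℕ → ResidueField O}
  {H : HeckeModule L ψ S abar} {hS : ∀ q : ℕ, q.Prime → q ∣ L → q ∈ S}
  [IsLocalRing H.algebra] {D : ∀ (M : ℕ) [NeZero M], HeckeGaloisModel M p}
  {pt : ∀ θ : H.algebra →ₐ[O] KBar O, Point (p := p) H hS θ.toRingHom} (G : Glued D pt)

theorem matrix_eq_one_of_rep {σ : AbsGal} (h : G.rep.ρ σ = 1) : G.R σ = 1 :=
  (Matrix.toLinAlgEquiv' (R := H.algebra) (n := Fin 2)).injective (h.trans (map_one _).symm)

theorem trace_eq_two_of_unipotent {v : ℕ} (h : G.rep.IsUnipotentOnInertiaAt v)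
    {A : ValuationSubring (AlgebraicClosure ℚ)} (hA : A.LiesOverPrime v) {τ : AbsGal}
    (hτ : τ ∈ A.inertiaSubgroupIn ℚ) : (G.R τ).trace = 2 := by
  have h1 := h A hA τ hτ
  rw [G.charpoly_rep, Matrix.charpoly_fin_two] at h1
  have h2 := congrArg (fun f => Polynomial.coeff f 1) h1
  simp [sub_sq, Polynomial.coeff_X_pow, Polynomial.coeff_one] at h2
  linear_combination h2

end Glue

set_option maxHeartbeats 1000000 in
/-- **Patching levels exist.** -/
theorem levelsExist_of_traceInertia (hTI : TraceInertiaAll) : LevelsExist := by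
  classical
  intro W p hpf hΔ hp2 hW hirr L₀ V hbase hV hstrict hmod v₀ hno O _ _ _ _ _ _ _ hpO hroot
    ζ ζi c π hζ hζmul hc hπ
  have hp : p.Prime := hpf.out
  obtain rfl : ζi = ζ ^ (p - 1) :=
    left_inv_eq_right_inv (by rw [mul_comm, hζmul])
      (by rw [← pow_succ', Nat.sub_add_cancel hp.one_le, hζ.pow_eq_one])
  set k := ResidueField O
  set ρbar := residual (p := p) hΔ k with hρbar
  have hGW : TangentCount p k := tangentCount_of_gw p k
  obtain ⟨bb, W₀, hW₀⟩ := exists_rigid_curve (W := W) (hΔ := hΔ) (O := O) hp2 hirr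
  have hgr : GermResidual p W₀.rb (ramifiedPrimes (p := p) hΔ) (fun v : V => (v : ℕ)) :=
    hW₀ ▸ germResidual_curve hp2 hW hirr hroot bb V hV
  obtain ⟨m, hm⟩ := exists_germ_primes hp2 hW hirr hroot bb V hV
  set vT : V → ℕ := fun v => (v : ℕ) with hvT
  set R := ramifiedPrimes (p := p) hΔ with hR
  have hfrob' : ∀ (q : Fin m → ℕ), (∀ i, ∀ P : ValuationSubring QBar, P.LiesOverPrime (q i) →
        ∀ φ : Gal, P.IsFrobeniusAt φ (q i) →
          (matRes (residual (p := p) hΔ k) bb φ).det = 1 ∧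
          (matRes (residual (p := p) hΔ k) bb φ).trace ^ 2 ≠ 4 ∧
          ∃ α β : k, α ≠ β ∧ (matRes (residual (p := p) hΔ k) bb φ).charpoly =
            (Polynomial.X - Polynomial.C α) * (Polynomial.X - Polynomial.C β)) →
      ∀ i, ∀ [Fact (q i).Prime], ∀ φ : Gal, (padicPlace (q i)).IsFrobeniusAt φ (q i) →
        (W₀.rb φ).det = 1 ∧ (W₀.rb φ).trace ^ 2 ≠ 4 := by
    intro q h i _ φ hφ
    rw [hW₀]
    obtain ⟨h1, h2, -⟩ := h i _ (CFT.Local.padicPlace_liesOverPrime (q i)) φ hφ
    exact ⟨h1, h2⟩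
  have h3 : 3 * Nat.card V ≤ m := by
    obtain ⟨q, -, hq, hfrob, hkill⟩ := hm ∅ 0
    exact three_mul_card_le hGW hp2 hgr q (fun i => ⟨(hq i).1, (hq i).2.2.1⟩) (hfrob' q hfrob)
      (hW₀.symm ▸ hkill)
  refine ⟨m - 3 * Nat.card V, m, rankBound (L₀ * ∏ v ∈ V, v)
    (L₀.primeFactors.card + V.card + m), by omega, fun n => ?_⟩
  -- the auxiliary primes and the level
  obtain ⟨q, hqinj, hq, hfrob, hkill⟩ := hm (L₀ * ∏ v ∈ V, v).primeFactors n
  have hbaseV : Squarefree (L₀ * ∏ v ∈ V, v) := hbase.squarefree_mul_scalar hV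
  set Q : Finset ℕ := Finset.univ.image q with hQ
  have hmemQ : ∀ {x}, x ∈ Q ↔ ∃ i, q i = x := by simp [hQ]
  have hQp : ∀ x ∈ Q, IsAvoidingPrime W p hΔ x := fun x hx => by
    obtain ⟨i, rfl⟩ := hmemQ.mp hx
    exact (hq i).2.2.2.2.2.2
  have hQd : ∀ x ∈ Q, ¬ x ∣ L₀ * ∏ v ∈ V, v := fun x hx hd => by
    obtain ⟨i, rfl⟩ := hmemQ.mp hx
    exact (hq i).2.1 (Nat.mem_primeFactors.mpr ⟨(hq i).1, hd, hbaseV.ne_zero⟩)
  have hQcard : Q.card = m := by
    rw [hQ, Finset.card_image_of_injective _ hqinj, Finset.card_univ, Fintype.card_fin]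
  set L := L₀ * (∏ v ∈ V, v) * ∏ x ∈ Q, x with hLdef
  have hsq : Squarefree L := hbase.squarefree_level hV hQp hQd
  haveI : NeZero L := ⟨hsq.ne_zero⟩
  haveI : NeZero (L₀ * ∏ v ∈ V, v) := ⟨hbaseV.ne_zero⟩
  set S : Finset ℕ := insert p (L.primeFactors ∪ W.Δ.natAbs.primeFactors) with hSdef
  have hpS : p ∈ S := Finset.mem_insert_self _ _
  have hSall : ∀ ℓ : ℕ, ℓ.Prime → ℓ ∣ L ∨ (ℓ : ℤ) ∣ W.Δ → ℓ ∈ S := by
    rintro ℓ hℓ (h | h)
    · exact Finset.mem_insert_of_mem
        (Finset.mem_union_left _ (Nat.mem_primeFactors.mpr ⟨hℓ, h, hsq.ne_zero⟩))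
    · exact Finset.mem_insert_of_mem (Finset.mem_union_right _ (Nat.mem_primeFactors.mpr
        ⟨hℓ, Int.natCast_dvd.mp h, Int.natAbs_ne_zero.mpr hΔ⟩))
  have hSL : ∀ ℓ : ℕ, ℓ.Prime → ℓ ∣ L → ℓ ∈ S := fun ℓ hℓ h => hSall ℓ hℓ (Or.inl h)
  haveI hfT : ∀ v, Fact (vT v).Prime := fun v => ⟨(hV v v.2).1⟩
  haveI hfQ : ∀ i, Fact (q i).Prime := fun i => ⟨(hq i).1⟩
  have hdvd : ∀ x, Sum.elim vT q x ∣ L := by
    rintro (v | i)
    · exact dvd_mul_of_dvd_left (dvd_mul_of_dvd_right
        (Finset.dvd_prod_of_mem (fun x => x) v.2) _) _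
    · exact dvd_mul_of_dvd_right (Finset.dvd_prod_of_mem (fun x => x) (hmemQ.mpr ⟨i, rfl⟩)) _
  have hVgerm : ∀ v : V, (v : ℕ) ∈ germSet p R vT := fun v =>
    Finset.mem_insert_of_mem (Finset.mem_union_right _
      (Finset.mem_image.mpr ⟨v, Finset.mem_univ _, rfl⟩))
  have hinj : Function.Injective (Sum.elim vT q) :=
    Subtype.val_injective.sumElim hqinj fun v i h => (hq i).2.2.1 (h ▸ hVgerm v)
  have hvp : ∀ v : V, vT v ≠ p := fun v h => by
    have h1 := (hV v v.2).2.1
    rw [show (v : ℕ) = p from h, Nat.mod_self] at h1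
    exact zero_ne_one h1
  have hT : ∀ v : V, p ∣ vT v - 1 := fun v =>
    (Nat.modEq_iff_dvd' (hV v v.2).1.one_le).mp
      (by rw [Nat.ModEq, Nat.one_mod_eq_one.mpr hp.ne_one]; exact (hV v v.2).2.1.symm)
  have hunrQ : ∀ i, ρbar.IsUnramifiedAt (q i) := fun i =>
    Lifting.Curve.isUnramifiedAt_residual hΔ (hq i).1 (hq i).2.2.2.1 (hQp _ (hmemQ.mpr ⟨i, rfl⟩)).2.1
  have hv₀' : (v₀ : ℕ) ≠ 0 := (hV v₀ v₀.2).1.ne_zero
  have hncl : ¬ IsCongruentLevel S (curveAbar W k) (L / vT v₀) :=
    not_isCongruentLevel_erase raiseLevel dropAvoiding congruentResidual hp2 hW hirr hQp hsq v₀.2 hv₀' hno k S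
  refine exists_level (ρbar := ρbar) (abar := curveAbar W k) (S := S) (L := L) hpO hp2 hζ hc hπ
    hsq hpS hSL (Lifting.Curve.isAbsolutelyIrreducible_residual hΔ hp2 hirr)
    (Lifting.Curve.hasCharpolys_residual hΔ hpS fun ℓ hℓ h => hSall ℓ hℓ (Or.inr h)) hW₀
    (fun (M : ℕ) [NeZero M] => GaloisReps.heckeGaloisModel M p)
    (fun M _ v hv hvp' hvM hv2 => ⟨Semistable.unipotentAt_model M p hv hvp' hvM hv2,
      Semistable.toricSquareAt_model M p hv hvp' hv2⟩)
    (fun M _ => GaloisReps.congruenceProperty M p) (fun v R M _ _ _ g => hTI p v R M g)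
    v₀ vT q hdvd hinj n hT (fun i => (hq i).2.2.2.2.1)
    (fun v => (Lifting.Curve.isUnramifiedAt_residual_iff hΔ _).mpr (hV v v.2).2.2.1) hunrQ
    ?_ hncl _ _ ?_ ?_
  · intro v φ hφ
    obtain ⟨e, he⟩ := hgr.scalar v φ hφ
    refine ⟨e, (LinearMap.toMatrixAlgEquiv bb).injective ?_⟩
    rw [map_smul, map_one]
    rw [hW₀] at he
    exact he
  · intro ψ hψ _
    haveI := Fintype.ofFinite (LevelGroup V p m n)
    obtain ⟨H, _, -, -, hd, hdB⟩ := exists_patchModule (O := O) (L := L) raiseLevel residualCongruent avoidsLevels hp2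
      hW hirr hbase hV hQp hQd hmod rfl ψ (isPGroup_levelGroup p n) hψ hpS hSall
    rw [hQcard] at hdB
    exact ⟨H, hd, hdB⟩
  · intro ψ hψtriv H _ _ hA pt G P σT φT hl hn htame hloc
    haveI := hA.isLocalHom
    haveI : IsNoetherianRing H.algebra := IsNoetherianRing.of_finite O H.algebra
    have hΔp : IsPGroup p (LevelGroup V p m n) := isPGroup_levelGroup p n
    have hcont : IsCont (conjM P G.R) := G.cont.conj P
    have he : G.rep.IsEquiv (toRep (conjM P G.R) hcont) := isEquiv_conj G.cont P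
    have hψ' : ∀ w : ℕ, w.Prime → w ∣ L → w ∉ V → (∀ i, w ≠ q i) →
        ∀ u : (ZMod L)ˣ, ((u : ZMod L).cast : ZMod (L / w)) = 1 → ψ u = 1 :=
      fun w hw hwL hwV hwq => hψtriv w hw hwL fun x => by
        rcases x with v | i
        exacts [fun h => hwV (h ▸ v.2), fun h => hwq i h.symm]
    have hone : ∀ v : ℕ, ∀ [Fact v.Prime], G.rep.IsUnramifiedAt v →
        ∀ τ ∈ (padicPlace v).inertiaSubgroupIn ℚ, (conjM P G.R) τ = 1 := fun v _ h τ hτ => by
      rw [conjM_apply,
        matrix_eq_one_of_rep G (h _ (CFT.Local.padicPlace_liesOverPrime v) τ hτ), mul_one,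
        Units.inv_mul]
    refine finrank_killedDer_le hGW hp2 hA hgr q (fun i => ⟨(hq i).1, (hq i).2.2.1⟩)
      (hfrob' q hfrob) (hW₀.symm ▸ hkill) (conjM P G.R) hl hn hcont
      (Lifting.detIsCyclotomic_congr he (G.detIsCyclotomic hpO hΔp)) ?_ ?_ ?_ σT φT
      (fun i _ => (htame i).1) (fun i _ => (htame i).2) c hc
    · intro v _ hv hvq τ hτ
      have hvP : v.Prime := Fact.out
      have hvp' : v ≠ p := fun e => hv (by rw [e]; exact Finset.mem_insert_self p _)
      have hvR : v ∉ R := fun e => hv (Finset.mem_insert_of_mem (Finset.mem_union_left _ e))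
      have hvV : v ∉ V := fun e => hv (hVgerm ⟨v, e⟩)
      refine hone v ?_ τ hτ
      by_cases hvL : v ∣ L
      · rcases prime_dvd_level_cases (fun x hx => (hV x hx).1) (fun x hx => (hQp x hx).1) hvP hvL
          with h | h | h
        · rcases hbase.prime_cases v hvP h hvp' with hr | ha
          · exact absurd ((mem_ramifiedPrimes (k := k) hΔ).mpr ⟨hvP, hvp',
              fun hu => hr ((Lifting.Curve.isUnramifiedAt_residual_iff hΔ v).mp hu)⟩) hvR
          · have hA' := CFT.Local.padicPlace_liesOverPrime v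
            obtain ⟨σ, hσ⟩ := Arith.exists_isFrobeniusAt hA' hvP
            refine isUnramifiedAt_of_avoiding G hvP hvL hvp' (hψ' v hvP hvL hvV hvq)
              (fun M _ _ hvM hv2 => ⟨Semistable.unipotentAt_model M p hvP hvp' hvM hv2,
                Semistable.toricSquareAt_model M p hvP hvp' hv2⟩) hA' hσ ?_
            by_contra hnu
            have hmem := (augment_eq_zero_iff hA _).mpr ((mem_maximalIdeal _).mpr hnu)
            have htr : augment hA (G.R σ).trace = (W₀.rb σ).trace := by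
              rw [← trace_units_conj P (G.R σ), ← conjM_apply, Matrix.trace_fin_two,
                map_add, hl σ 0 0, hl σ 1 1, Matrix.trace_fin_two]
            rw [G.trace_rep, map_sub, map_pow, map_pow, map_add, map_one, map_natCast, htr, hW₀,
              trace_matRes_residual, sub_eq_zero] at hmem
            refine ha.2.2.2 _ hA' σ hσ ((ZMod.castHom (dvd_refl p) k).injective ?_)
            rwa [map_pow, map_pow, map_add, map_natCast, map_one]
        · exact absurd h hvV
        · obtain ⟨i, hi⟩ := hmemQ.mp h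
          exact absurd hi.symm (hvq i)
      · exact G.isUnramifiedAt hvP hvL hvp'
    · intro v hv _ τ hτ
      obtain ⟨hvP, hvp', hram⟩ := (mem_ramifiedPrimes (k := k) hΔ).mp hv
      rw [Lifting.Curve.isUnramifiedAt_residual_iff hΔ] at hram
      have hvL₀ : v ∣ L₀ := hbase.ramified_dvd v hvP hvp' hram
      have hvV : v ∉ V := fun e => (hV v e).not_dvd_base hbase hvL₀
      have hvq : ∀ i, v ≠ q i := fun i e => (hq i).2.2.1
        (e ▸ Finset.mem_insert_of_mem (Finset.mem_union_left _ hv))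
      have hvL : v ∣ L := dvd_mul_of_dvd_left (dvd_mul_of_dvd_left hvL₀ _) _
      rw [conjM_apply, trace_units_conj]
      exact trace_eq_two_of_unipotent G (G.isUnipotentOnInertiaAt hvP hvL hvp'
        (hψ' v hvP hvL hvV hvq)
        (fun M _ _ hvM hv2 => Semistable.unipotentAt_model M p hvP hvp' hvM hv2))
        (CFT.Local.padicPlace_liesOverPrime v) hτ
    · have hpV : p ∉ V := fun h => hvp ⟨p, h⟩ rfl
      have hpq : ∀ i, p ≠ q i := fun i e => (hQp _ (hmemQ.mpr ⟨i, rfl⟩)).2.1 e.symm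
      refine (glued_atP hpO hΔp hp2 (fun M _ _ => FiniteFlat.orderProperty M) G
        (strictAtLevels_heckeModel hp2) (fun h => ?_) (fun h => hψ' p hp h hpV hpq)).imp
          (Lifting.isFlatAt_congr he) (isStrictOrdinaryAt_congr he)
      have hpL₀ : p ∣ L₀ := by
        rcases prime_dvd_level_cases (fun x hx => (hV x hx).1) (fun x hx => (hQp x hx).1) hp h
          with h' | h' | h'
        · exact h'
        · exact absurd h' hpV
        · obtain ⟨i, hi⟩ := hmemQ.mp h'
          exact absurd hi.symm (hpq i)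
      exact not_isCongruentLevel_div raiseLevel dropAvoiding congruentResidual hp2 hW hirr hQp
        (dvd_mul_of_dvd_left hpL₀ _) hsq (hstrict hpL₀) k S

/-- **The patching step** from its inputs. -/
theorem germStep_of_traceInertia (hTI : TraceInertiaAll) : GermStep :=
  germStep_of_levels (levelsExist_of_traceInertia hTI)

end Fermat.Agent.RT.Lower

end
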