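import Fermat.Agent.RT.Lower.Assembly
import Fermat.Agent.RT.Frey.Inputs
import Fermat.Agent.RT.Assembly.Forms
import Fermat.Agent.EC.Reduction.Frey

/-!
# Lowering the level of the Frey representation at a prime other than `p`
-/

set_option autoImplicit false

noncomputable section

open WeierstrassCurve WeierstrassCurve.Affine WeierstrassCurve.Affine.Point

namespace Fermat.Agent.RT.Lower

local notation "Q̄" => AlgebraicClosure ℚ

theorem frey_modRepIsIrreducible (P : FreyPackage)
    (hirr : GaloisRepIsIrreducible (K := Q̄) ℚ P.freyCurve P.p) :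
    P.freyCurveInt.ModRepIsIrreducible P.p := by
  have : Fact P.p.Prime := ⟨P.pp⟩
  have : P.freyCurve.IsElliptic := Mazur.Small.frey_isElliptic P
  exact (LevelRaising.modRepIsIrreducible_of_model
    (⟨1, by rw [one_smul, EC.Reduction.Frey.freyCurve_eq_map]⟩ :
      P.freyCurveInt.IsIntegralModelOf P.freyCurve) hirr).2

theorem frey_unramifiedAt (P : FreyPackage) [Fact P.p.Prime] {q : ℕ}
    (h : P.GaloisRepUnramifiedAt q) :
    UnramifiedAt P.freyCurveInt P.p (EC.Reduction.Frey.Δ_ne_zero P) q := by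
  rw [FreyPackage.GaloisRepUnramifiedAt, EC.Reduction.Frey.freyCurve_eq_map] at h
  intro A hA σ hσ
  exact LinearMap.ext fun x => h A hA σ hσ x

/-- Residual modularity of the integral Frey model gives modularity of the representation. -/
theorem modularRepOfLevel_of_residual (P : FreyPackage) {M : ℕ}
    (h : P.freyCurveInt.IsResiduallyModularOfLevel P.p M) : P.ModularRepOfLevel M := by
  obtain ⟨f, 𝔪, hf, h𝔪, hp, hc⟩ := h
  exact ⟨f, P.freyCurveInt, 𝔪, hf, ⟨1, by rw [one_smul, EC.Reduction.Frey.freyCurve_eq_map]⟩,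
    h𝔪, hp, hc⟩

/-- Modularity of the representation seen on the integral Frey model. -/
def FreyResidual : Prop :=
  ∀ (P : FreyPackage) (N : ℕ), P.ModularRepOfLevel N → 0 < N →
    P.freyCurveInt.IsResiduallyModularOfLevel P.p N

section Residual

open CongruenceSubgroup ModularFormClass
open Fermat.Agent.RT.Assembly (freyAbar)

variable {P : FreyPackage} [Fact P.p.Prime] {k : Type} [Field k] [Algebra (ZMod P.p) k]

/-- A congruent form makes the integral Frey model residually modular of its level. -/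
theorem residual_of_congruent
    (hD : ∀ (N p : ℕ) [NeZero N] [Fact p.Prime], Nonempty (GaloisReps.HeckeGaloisModel N p))
    {S : Finset ℕ} {M : ℕ} {g : CuspForm (Gamma0 M) 2}
    (h : IsCongruentForm S (freyAbar P k) g) : P.freyCurveInt.IsResiduallyModularOfLevel P.p M := by
  obtain ⟨hg, φ, hφ⟩ := h
  have hpk : CharP k P.p := charP_of_injective_algebraMap (algebraMap (ZMod P.p) k).injective P.p
  have : CharP (AlgebraicClosure k) P.p :=
    charP_of_injective_algebraMap (algebraMap k (AlgebraicClosure k)).injective P.p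
  have hmax : (RingHom.ker φ).IsMaximal := by
    have hP : (RingHom.ker φ).IsPrime := RingHom.ker_isPrime φ
    refine Ideal.isMaximal_of_isIntegral_of_isMaximal_comap (R := ℤ) _ ?_
    have hle : Ideal.span {(P.p : ℤ)} ≤ (RingHom.ker φ).comap (algebraMap ℤ _) := by
      rw [Ideal.span_le, Set.singleton_subset_iff, SetLike.mem_coe, Ideal.mem_comap,
        RingHom.mem_ker, map_natCast, map_natCast]
      exact CharP.cast_eq_zero _ _
    have hmax' : (Ideal.span {(P.p : ℤ)}).IsMaximal :=
      PrincipalIdealRing.isMaximal_of_irreducible (Nat.prime_iff_prime_int.mp P.pp).irreducible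
    rw [← hmax'.eq_of_le (Ideal.IsPrime.comap _).ne_top hle]
    exact hmax'
  refine ⟨g, RingHom.ker φ, hg, hmax, ?_, fun ℓ hℓ hgood hℓM hℓp => ?_⟩
  · rw [RingHom.mem_ker, map_natCast]
    exact CharP.cast_eq_zero _ _
  · have : NeZero M := ⟨fun h => hℓM (h ▸ dvd_zero ℓ)⟩
    obtain ⟨θ, hθ⟩ := GaloisReps.exists_eigenform_character hg
    refine ⟨θ (HeckeDuality.heckeOp M 2 ℓ hℓ), hθ ℓ hℓ, ?_⟩
    rw [RingHom.mem_ker, map_sub, sub_eq_zero,
      RT.Assembly.congr_of_congr_outside hD hg φ S hφ hℓ hgood hℓM hℓp (hθ ℓ hℓ), map_intCast]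
    exact map_intCast (algebraMap k _) _

end Residual

theorem freyResidual
    (hD : ∀ (N p : ℕ) [NeZero N] [Fact p.Prime], Nonempty (GaloisReps.HeckeGaloisModel N p)) :
    FreyResidual := by
  intro P N hmod hN
  have : Fact P.p.Prime := ⟨P.pp⟩
  let T : Finset ℕ := insert P.p (N.primeFactors ∪ P.freyCurveInt.Δ.natAbs.primeFactors)
  obtain ⟨g, hg⟩ := RT.Assembly.isCongruentLevel_of_modularRepOfLevel (k := ZMod P.p) hD (S := T)
    (fun ℓ hℓ h => by
      rcases h with h | h | h
      · simp [T, h]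
      · simp [T, Nat.mem_primeFactors, hℓ, h, hN.ne']
      · simp [T, Nat.mem_primeFactors, hℓ, Int.natCast_dvd.mp h, EC.Reduction.Frey.Δ_ne_zero P]) hmod
  exact residual_of_congruent hD hg

/-- The statement of milestone 43 from lowering to the ramified primes. -/
theorem lowerOddInput_of (hlow : LowerToRamified) (hconv : FreyResidual) :
    Frey.LowerOddInput := by
  intro P N q hcond hq hq2 hqp hqN hirr hmod hunr
  have : Fact P.p.Prime := ⟨P.pp⟩
  have hp2 : P.p ≠ 2 := by have := P.hp5; omega
  obtain ⟨M, hMN, hM, hram⟩ := hlow P.freyCurveInt P.p (EC.Reduction.Frey.Δ_ne_zero P) hp2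
    (fun _ hq hΔ => EC.Reduction.Frey.not_dvd_c₄ P hq
      (by_contra fun h => EC.Reduction.Frey.not_dvd_Δ P hq h hΔ))
    (frey_modRepIsIrreducible P hirr) N hcond.squarefree (hconv P N hmod hcond.pos)
  exact ⟨M, hMN, fun hqM => hram q hq hqM hqp (frey_unramifiedAt P hunr),
    modularRepOfLevel_of_residual P hM⟩

end Fermat.Agent.RT.Lower

end
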