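import Fermat.Agent.RT.Mazur.Principle.Main
import Fermat.Agent.RT.Lower.Curve
import Fermat.Agent.RT.Lower.Remove

/-!
# Mazur's principle for a semistable curve
-/

set_option autoImplicit false

noncomputable section

namespace Fermat.Agent.RT.Lower

/-- **Mazur's principle**: a prime is removed from the level unless it is a scalar prime. -/
theorem mazurPrinciple : MazurPrinciple :=
  RT.Mazur.mazurPrinciple_of raiseLevel dropAvoiding

end Fermat.Agent.RT.Lower

end
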