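import Fermat.Agent.RT.Lower.LevelsExist
import Fermat.Agent.RT.Lower.Mazur
import Fermat.Agent.RT.Lower.Frey
import Fermat.Agent.RT.Lower.Avoiding
import Fermat.Agent.RT.InertiaTW.Unconditional
import Fermat.Agent.GaloisReps.Models

/-!
# Level lowering away from `p`, without hypotheses
-/

set_option autoImplicit false

noncomputable section

namespace Fermat.Agent.RT.Lower

theorem traceInertiaAll : TraceInertiaAll := fun p _ v R M _ _ _ g =>
  InertiaTW.traceInertia p v R M g

/-- **The patching step.** -/
theorem germStep : GermStep := germStep_of_traceInertia traceInertiaAll

/-- **Lowering to the ramified primes.** -/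
theorem lowerToRamified : LowerToRamified :=
  lowerToRamified_of_steps mazurPrinciple germStep avoidingExists raiseLevel dropAvoiding
    ramifiedDvdLevel

/-- **Lowering the level of the Frey representation at a prime other than `p`.** -/
theorem lowerOddInput : Frey.LowerOddInput :=
  lowerOddInput_of lowerToRamified (freyResidual GaloisReps.nonempty_heckeGaloisModel)

end Fermat.Agent.RT.Lower

end
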