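import Fermat.Agent.RT.Lower.TangentDefs
import Fermat.Agent.RT.Lower.Descent
import Fermat.Agent.RT.Assembly.Tame
import Fermat.Agent.Lifting.Galois.Invariance
import Fermat.Agent.Deform.Residual

/-!
# Normalised matrices of a representation with the residual data of the patching step

A deformation of the residual representation gives normalised matrices with the same local
conditions; at a scalar prime inertia acts through a pro-`p` group, hence tamely, so that a
Frobenius raises an inertia matrix to the power `v`.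
-/

set_option autoImplicit false
set_option linter.style.haveILetI false

noncomputable section

namespace Fermat.Agent.RT.Lower

open IsLocalRing Module Fermat.Agent.Deform Fermat.Agent.Arith

variable {A : Type} [CommRing A] [IsLocalRing A]

/-- Strict ordinarity is invariant under equivalence. -/
theorem isStrictOrdinaryAt_congr {ρ ρ' : GaloisRepAdic A} {p : ℕ} (e : ρ.IsEquiv ρ')
    (h : ρ.IsStrictOrdinaryAt p) : ρ'.IsStrictOrdinaryAt p := by
  obtain ⟨e⟩ := e
  refine ⟨h.1, fun P hP => ?_⟩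
  obtain ⟨L, ⟨b, hb⟩, hD, hI, hxz⟩ := h.2 P hP
  have hmem : ∀ w, e.toLinearEquiv w ∈ L.map e.toLinearEquiv.toLinearMap ↔ w ∈ L := fun w =>
    ⟨fun ⟨y, hy, hye⟩ => e.toLinearEquiv.injective hye ▸ hy, fun hw => ⟨w, hw, rfl⟩⟩
  have hmap : ∀ σ w, ρ'.ρ σ (e.toLinearEquiv w) = e.toLinearEquiv (ρ.ρ σ w) := fun σ w =>
    (e.map_apply σ w).symm
  refine ⟨L.map e.toLinearEquiv.toLinearMap, ⟨b.map e.toLinearEquiv, ?_⟩, fun σ hσ v hv => ?_,
    fun σ hσ v => ?_, fun σ hσ => ?_⟩
  · rw [hb, Submodule.map_span, Set.image_singleton]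
    rfl
  · obtain ⟨w, rfl⟩ := e.toLinearEquiv.surjective v
    rw [hmem] at hv
    rw [hmap, hmem]
    exact hD σ hσ w hv
  · obtain ⟨w, rfl⟩ := e.toLinearEquiv.surjective v
    rw [hmap, ← map_sub, hmem]
    exact hI σ hσ w
  · obtain ⟨x, z, hx, hz, hc⟩ := hxz σ hσ
    refine ⟨x, z, fun v hv => ?_, fun v => ?_, hc⟩
    · obtain ⟨w, rfl⟩ := e.toLinearEquiv.surjective v
      rw [hmem] at hv
      rw [hmap, hx w hv, map_smul]
    · obtain ⟨w, rfl⟩ := e.toLinearEquiv.surjective v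
      rw [hmap, ← map_smul, ← map_sub, hmem]
      exact hz w

variable {p : ℕ}

/-- A congruence modulo every power of `p` is an equality. -/
theorem eq_of_congr_pow [IsNoetherianRing A] (hp : (p : A) ∈ maximalIdeal A) {x y : A}
    (h : ∀ n : ℕ, x - y ∈ Ideal.span {((p ^ n : ℕ) : A)}) : x = y := by
  refine sub_eq_zero.mp (Submodule.mem_bot A |>.mp ?_)
  rw [← Ideal.iInf_pow_eq_bot_of_isLocalRing (maximalIdeal A) (maximalIdeal.isMaximal A).ne_top]
  refine Submodule.mem_iInf _ |>.mpr fun n => ?_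
  refine (Ideal.span_le.mpr ?_) (h n)
  rw [Set.singleton_subset_iff, SetLike.mem_coe, Nat.cast_pow]
  exact Ideal.pow_mem_pow hp n

theorem det_eq_natCast_of_roots [IsNoetherianRing A] {r : Gal →* M2 A} {hr : IsCont r}
    (hdet : (toRep r hr).DetIsCyclotomic p) {σ : Gal} (a : ℕ)
    (ha : ∀ (n : ℕ) (μ : QBar), μ ^ p ^ n = 1 → σ μ = μ ^ a) : (r σ).det = (a : A) :=
  eq_of_congr_pow hdet.1 fun n => by
    rw [← det_toRep_apply hr]
    exact hdet.2 n σ a (ha n)

omit [IsLocalRing A] in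
theorem entries_mul_mem {I J : Ideal A} {X Y : M2 A} (hX : ∀ i j, X i j ∈ I)
    (hY : ∀ i j, Y i j ∈ J) (i j : Fin 2) : (X * Y) i j ∈ I * J := by
  rw [Matrix.mul_apply]
  exact Submodule.sum_mem _ fun l _ => Ideal.mul_mem_mul (hX i l) (hY l j)

omit [IsLocalRing A] in
theorem exists_one_add_pow (N : M2 A) :
    ∀ e : ℕ, ∃ C : M2 A, (1 + N) ^ e = 1 + (e : A) • N + N * N * C
  | 0 => ⟨0, by simp⟩
  | e + 1 => by
    obtain ⟨C, hC⟩ := exists_one_add_pow N e
    refine ⟨(e : A) • (1 : M2 A) + (1 + N) * C, ?_⟩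
    rw [pow_succ', hC]
    simp only [Nat.cast_succ, add_smul, one_smul, mul_add, add_mul, one_mul, mul_one,
      mul_smul_comm, smul_add, ← mul_assoc]
    abel

/-- A matrix congruent to `1` has `p ^ n`-th power congruent to `1` modulo `m ^ (n + 1)`. -/
theorem pow_prime_pow_sub_one_mem (hp : (p : A) ∈ maximalIdeal A) {X : M2 A}
    (hX : ∀ i j, X i j - (1 : M2 A) i j ∈ maximalIdeal A) :
    ∀ (n : ℕ) (i j : Fin 2), (X ^ p ^ n) i j - (1 : M2 A) i j ∈ maximalIdeal A ^ (n + 1)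
  | 0, i, j => by simpa using hX i j
  | n + 1, i, j => by
    have ih := pow_prime_pow_sub_one_mem hp hX n
    set N : M2 A := X ^ p ^ n - 1 with hN
    have hN' : ∀ i j, N i j ∈ maximalIdeal A ^ (n + 1) := ih
    obtain ⟨C, hC⟩ := exists_one_add_pow N p
    rw [pow_succ p n, pow_mul, show X ^ p ^ n = 1 + N by rw [hN]; abel, hC]
    rw [add_assoc (1 : M2 A), Matrix.add_apply (1 : M2 A), add_sub_cancel_left, Matrix.add_apply,
      Matrix.smul_apply, smul_eq_mul]
    refine add_mem ?_ ?_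
    · rw [pow_succ' (maximalIdeal A) (n + 1)]
      exact Ideal.mul_mem_mul hp (hN' i j)
    · refine Ideal.pow_le_pow_right (show n + 1 + 1 ≤ n + 1 + (n + 1) by omega) ?_
      have h2 := entries_mul_mem (J := (⊤ : Ideal A)) (Y := C) (entries_mul_mem hN' hN')
        (fun _ _ => trivial) i j
      rwa [Ideal.mul_top, ← pow_add] at h2

variable [Fact p.Prime] {v : ℕ} {P : ValuationSubring QBar}

/-- At a prime `v ≠ p` an inertia element with trivial tame characters and residually trivial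
matrix has trivial matrix. -/
theorem eq_one_of_tame [IsNoetherianRing A] (hp : (p : A) ∈ maximalIdeal A) {r : Gal →* M2 A}
    (hr : IsCont r) (hP : P.LiesOverPrime v) (hv : v.Prime) (hvp : v ≠ p) {ν : Gal}
    (hν : ν ∈ P.inertiaSubgroupIn ℚ) (htriv : Assembly.TameTrivial P ν)
    (hres : ∀ i j, r ν i j - (1 : M2 A) i j ∈ maximalIdeal A) : r ν = 1 := by
  refine Matrix.ext fun i j => sub_eq_zero.mp (Submodule.mem_bot A |>.mp ?_)
  rw [← Ideal.iInf_pow_eq_bot_of_isLocalRing (maximalIdeal A) (maximalIdeal.isMaximal A).ne_top]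
  refine Submodule.mem_iInf _ |>.mpr fun n => ?_
  set q := Ideal.Quotient.mk (maximalIdeal A ^ n) with hq
  have hone : ∀ σ : Gal, mapM q r σ = 1 ↔
      ∀ a b, r σ a b - (1 : M2 A) a b ∈ maximalIdeal A ^ n := fun σ => by
    have e : ∀ a b, (1 : M2 (A ⧸ maximalIdeal A ^ n)) a b = q ((1 : M2 A) a b) := fun a b => by
      rw [Matrix.one_apply, Matrix.one_apply]; split_ifs <;> simp
    constructor
    · intro h a b
      rw [← Ideal.Quotient.eq, ← hq, ← mapM_apply, h, e]
    · intro h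
      ext a b
      rw [mapM_apply, e, Ideal.Quotient.eq]
      exact h a b
  have hfin : ∃ L : IntermediateField ℚ QBar, FiniteDimensional ℚ L ∧
      ∀ σ : Gal, (∀ x ∈ L, σ x = x) → mapM q r σ = 1 := by
    obtain ⟨L, hL, hL'⟩ := hr n
    exact ⟨L, hL, fun σ hσ => (hone σ).mpr (hL' σ hσ)⟩
  have hpow : mapM q r ν ^ p ^ n = 1 := by
    rw [← map_pow, hone, map_pow]
    exact fun a b => Ideal.pow_le_pow_right n.le_succ (pow_prime_pow_sub_one_mem hp hres n a b)
  exact (hone ν).mp (Assembly.eq_one_of_tameTrivial (mapM q r) hfin hP hv hν htriv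
    (fun h => hvp ((Nat.prime_dvd_prime_iff_eq hv (Fact.out : p.Prime)).mp
      (hv.dvd_of_dvd_pow h))) hpow) i j

variable {O : Type} [CommRing O] [IsLocalRing O] [Algebra O A] {W : Rigid O}
  {hA : IsResAlg O A}

omit [Fact p.Prime] in
theorem sub_one_mem_of_lifts {r : Gal →* M2 A} (hl : Lifts W hA r) {σ : Gal} (h : W.rb σ = 1)
    (i j : Fin 2) : r σ i j - (1 : M2 A) i j ∈ maximalIdeal A := by
  rw [← augment_eq_zero_iff hA, map_sub, hl σ i j, h, Matrix.one_apply, Matrix.one_apply]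
  split_ifs <;> simp

/-- **The matrices at a scalar prime**: the hypotheses of `exists_patchLevel`. -/
theorem scalar_place_data [IsNoetherianRing A] {R : Finset ℕ} {V : Type} {vT : V → ℕ}
    (hr : GermResidual p W.rb R vT) {ru : Gal →* M2 A} (hl : Lifts W hA ru) {hc : IsCont ru}
    (hdet : (toRep ru hc).DetIsCyclotomic p) (i : V) [Fact (vT i).Prime] {σ φ : Gal}
    (hσ : σ ∈ (padicPlace (vT i)).inertiaSubgroupIn ℚ)
    (hφ : (padicPlace (vT i)).IsFrobeniusAt φ (vT i)) :
    (∀ a b, augment hA (ru σ a b) = if a = b then 1 else 0) ∧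
      (∃ e, ∀ a b, augment hA (ru φ a b) = if a = b then e else 0) ∧
      (ru σ).det = 1 ∧ (ru φ).det = (vT i : A) ∧ ru φ * ru σ = ru σ ^ vT i * ru φ := by
  have hv : (vT i).Prime := Fact.out
  have hP := CFT.Local.padicPlace_liesOverPrime (vT i)
  have hvp : vT i ≠ p := fun h => by simpa [h] using (hr.prime_scalar i).2.1
  have hunr := hr.unr (vT i) hvp (hr.prime_scalar i).2.2
  have hndvd : ∀ n : ℕ, ¬ vT i ∣ p ^ n := fun n h =>
    hvp ((Nat.prime_dvd_prime_iff_eq hv (Fact.out : p.Prime)).mp (hv.dvd_of_dvd_pow h))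
  refine ⟨fun a b => ?_, ?_, ?_, ?_, ?_⟩
  · rw [hl σ a b, hunr σ hσ, Matrix.one_apply]
  · obtain ⟨e, he⟩ := hr.scalar i φ hφ
    exact ⟨e, fun a b => by rw [hl φ a b, he, Matrix.smul_apply, Matrix.one_apply, smul_eq_mul,
      mul_ite, mul_one, mul_zero]⟩
  · rw [det_eq_natCast_of_roots hdet 1 fun n μ hμ => by
      rw [pow_one]; exact inertia_root hP hv hσ hμ (hndvd n), Nat.cast_one]
  · exact det_eq_natCast_of_roots hdet _ fun n μ hμ => frobenius_root hP hv hφ hμ (hndvd n)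
  · obtain ⟨hν, htriv⟩ := Assembly.tameTrivial_frobenius_conj hφ hσ
    have h1 := eq_one_of_tame (p := p) hdet.1 hc hP hv hvp hν htriv
      (sub_one_mem_of_lifts hl (hunr _ hν))
    calc ru φ * ru σ = ru (φ * σ * φ⁻¹ * (σ ^ vT i)⁻¹ * (σ ^ vT i * φ)) := by
          rw [← map_mul]; congr 1; group
      _ = ru σ ^ vT i * ru φ := by rw [map_mul, h1, one_mul, map_mul, map_pow]

omit [Fact p.Prime] in
/-- **Normalised matrices** of a representation with the residual data, and the transport of its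
properties. -/
theorem exists_normalised [IsAdicComplete (maximalIdeal A) A]
    {ρbar : ResidualGaloisRep (ResidueField O)} {bb : Basis (Fin 2) (ResidueField O) ρbar.V}
    (hW : W.rb = matRes ρbar bb) [IsLocalHom (algebraMap O A)] (ρ : GaloisRepAdic A)
    (he : ρ.residual.IsEquiv (ρbar.baseChangeAlong (ResidueField.map (algebraMap O A)))) :
    ∃ (ru : Gal →* M2 A) (hc : IsCont ru), Lifts W hA ru ∧ IsNormal W ru ∧
      ρ.IsEquiv (toRep ru hc) ∧
      (∀ σ, (ru σ).trace = LinearMap.trace A ρ.V (ρ.ρ σ)) ∧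
      (∀ σ, (ru σ).det = LinearMap.det (ρ.ρ σ)) ∧
      (∀ v : ℕ, ρ.IsUnramifiedAt v → ∀ [Fact v.Prime],
        ∀ τ ∈ (padicPlace v).inertiaSubgroupIn ℚ, ru τ = 1) ∧
      (∀ q : ℕ, ρ.DetIsCyclotomic q → (toRep ru hc).DetIsCyclotomic q) ∧
      (∀ q : ℕ, ρ.IsFlatAt q ∨ ρ.IsStrictOrdinaryAt q →
        (toRep ru hc).IsFlatAt q ∨ (toRep ru hc).IsStrictOrdinaryAt q) := by
  obtain ⟨b, hl⟩ := exists_lifts_basis hW hA ρ he
  obtain ⟨Q, hlQ, hnQ⟩ := exists_normal hl
  have hc := (isCont_matOf ρ b).conj Q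
  have heq : ρ.IsEquiv (toRep (conjM Q (matOf ρ b)) hc) :=
    isEquiv_trans (isEquiv_toRep_matOf ρ b) (isEquiv_conj _ Q)
  refine ⟨_, hc, hlQ, hnQ, heq, fun σ => ?_, fun σ => ?_, fun v hv _ τ hτ => ?_,
    fun q h => Lifting.detIsCyclotomic_congr heq h, fun q h => ?_⟩
  · rw [conjM_apply, Matrix.trace_mul_comm, ← mul_assoc, Units.mul_inv, one_mul,
      LinearMap.trace_eq_matrix_trace A b]
    rfl
  · rw [conjM_apply, Matrix.det_units_conj', ← LinearMap.det_toMatrix b]
    rfl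
  · have h1 : matOf ρ b τ = 1 := by
      show LinearMap.toMatrixAlgEquiv b (ρ.ρ τ) = 1
      rw [hv _ (CFT.Local.padicPlace_liesOverPrime v) τ hτ, map_one]
    rw [conjM_apply, h1, mul_one, Units.inv_mul]
  · exact h.imp (Lifting.isFlatAt_congr heq) (isStrictOrdinaryAt_congr heq)

end Fermat.Agent.RT.Lower
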