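import Fermat.Agent.EC.Rep.Residual
import Fermat.Prelude.Def_FLTPrelim_ModularRep

/-!
# Level lowering away from `p` for a semistable curve: notions and the two steps

`W` has irreducible mod `p` representation, `p` odd. A level is lowered by removing one prime at
a time: by Mazur's principle unless the prime is `≡ 1` modulo `p` with scalar Frobenius, and by the
patching argument for those.
-/

set_option autoImplicit false

noncomputable section

open WeierstrassCurve

namespace Fermat.Agent.RT.Lower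

local notation "Q̄" => AlgebraicClosure ℚ

/-- The representation on `W[p]`, over `k`. -/
def curveRho (W : WeierstrassCurve ℤ) (p : ℕ) [Fact p.Prime] (hΔ : W.Δ ≠ 0) (k : Type) [Field k]
    [Algebra (ZMod p) k] : ResidualGaloisRep k :=
  (EC.Rep.residualRep W p hΔ).baseChange k

/-- The residual system of `W`. -/
def curveAbar (W : WeierstrassCurve ℤ) (k : Type) [Field k] (ℓ : ℕ) : k :=
  (W.apOfModel ℓ : k)

variable (W : WeierstrassCurve ℤ) (p : ℕ) [Fact p.Prime] (hΔ : W.Δ ≠ 0)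

/-- Some divisor of `N` is a level of residual modularity. -/
def CongBelow (N : ℕ) : Prop :=
  ∃ M : ℕ, M ∣ N ∧ W.IsResiduallyModularOfLevel p M

/-- `W[p]` is unramified at `q`. -/
def UnramifiedAt (q : ℕ) : Prop :=
  (EC.Rep.residualRep W p hΔ).IsUnramifiedAt q

/-- A prime `q ≡ 1 (mod p)` at which `W[p]` is unramified with scalar Frobenius. -/
def IsScalarPrime (q : ℕ) : Prop :=
  q.Prime ∧ q % p = 1 ∧ UnramifiedAt W p hΔ q ∧
    ∀ A : ValuationSubring Q̄, A.LiesOverPrime q → ∀ σ : Q̄ ≃ₐ[ℚ] Q̄, A.IsFrobeniusAt σ q →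
      ∃ c : ZMod p, (EC.Rep.residualRep W p hΔ).ρ σ = c • 1

/-- A prime that no congruent newform can contain exactly once: `W[p]` is unramified with
squared Frobenius trace different from `(r + 1) ^ 2`. -/
def IsAvoidingPrime (r : ℕ) : Prop :=
  r.Prime ∧ r ≠ p ∧ UnramifiedAt W p hΔ r ∧
    ∀ A : ValuationSubring Q̄, A.LiesOverPrime r → ∀ σ : Q̄ ≃ₐ[ℚ] Q̄, A.IsFrobeniusAt σ r →
      LinearMap.trace (ZMod p) _ ((EC.Rep.residualRep W p hΔ).ρ σ) ^ 2 ≠ ((r : ZMod p) + 1) ^ 2

/-- The part of the level that is kept: squarefree, its primes away from `p` are ramified or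
avoiding, it contains every ramified prime and an avoiding prime `≡ 11 (mod 12)`. -/
structure IsBaseLevel (L₀ : ℕ) : Prop where
  squarefree : Squarefree L₀
  prime_cases : ∀ v : ℕ, v.Prime → v ∣ L₀ → v ≠ p →
    ¬ UnramifiedAt W p hΔ v ∨ IsAvoidingPrime W p hΔ v
  ramified_dvd : ∀ v : ℕ, v.Prime → v ≠ p → ¬ UnramifiedAt W p hΔ v → v ∣ L₀
  exists_avoiding : ∃ a : ℕ, a ∣ L₀ ∧ IsAvoidingPrime W p hΔ a ∧ a % 12 = 11

/-- **Mazur's principle**: a prime is removed from the level unless it is a scalar prime. -/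
def MazurPrinciple : Prop :=
  ∀ (W : WeierstrassCurve ℤ) (p : ℕ) [Fact p.Prime] (hΔ : W.Δ ≠ 0), p ≠ 2 →
    W.IsSemistableModel → W.ModRepIsIrreducible p →
    ∀ (q M : ℕ), q.Prime → q ≠ p → ¬ q ∣ M → Squarefree M →
      UnramifiedAt W p hΔ q → ¬ IsScalarPrime W p hΔ q →
      W.IsResiduallyModularOfLevel p (q * M) → CongBelow W p M

/-- **The patching step**: of the scalar primes `V` any one can be removed, provided, when `p`
divides the level, that no level prime to `p` occurs. -/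
def GermStep : Prop :=
  ∀ (W : WeierstrassCurve ℤ) (p : ℕ) [Fact p.Prime] (hΔ : W.Δ ≠ 0), p ≠ 2 →
    W.IsSemistableModel → W.ModRepIsIrreducible p →
    ∀ (L₀ : ℕ) (V : Finset ℕ), IsBaseLevel W p hΔ L₀ →
      (∀ v ∈ V, IsScalarPrime W p hΔ v) →
      (p ∣ L₀ → ¬ CongBelow W p (L₀ * (∏ v ∈ V, v) / p)) →
      CongBelow W p (L₀ * ∏ v ∈ V, v) →
      ∀ v₀ ∈ V, CongBelow W p (L₀ * ∏ v ∈ V.erase v₀, v)

/-- Existence of avoiding primes. -/
def AvoidingExists : Prop :=
  ∀ (W : WeierstrassCurve ℤ) (p : ℕ) [Fact p.Prime] (hΔ : W.Δ ≠ 0), p ≠ 2 →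
    W.IsSemistableModel → W.ModRepIsIrreducible p →
    ∀ T : Finset ℕ, ∃ r : ℕ, r ∉ T ∧ r % 12 = 11 ∧ IsAvoidingPrime W p hΔ r

/-- The conclusion: a squarefree level goes down to one all of whose primes other than `p` are
ramified. -/
def LowerToRamified : Prop :=
  ∀ (W : WeierstrassCurve ℤ) (p : ℕ) [Fact p.Prime] (hΔ : W.Δ ≠ 0), p ≠ 2 →
    W.IsSemistableModel → W.ModRepIsIrreducible p →
    ∀ N : ℕ, Squarefree N → W.IsResiduallyModularOfLevel p N →
      ∃ M : ℕ, M ∣ N ∧ W.IsResiduallyModularOfLevel p M ∧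
        ∀ v : ℕ, v.Prime → v ∣ M → v ≠ p → ¬ UnramifiedAt W p hΔ v

end Fermat.Agent.RT.Lower

end
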